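import Mathlib
import Fermat.Agent.S24.JBridge

set_option autoImplicit false

open UpperHalfPlane ModularForm EisensteinSeries MatrixGroups ModularFormClass PowerSeries
open scoped CongruenceSubgroup

noncomputable section

namespace Fermat.Agent.S16

/-- complexification of an integral power series -/
abbrev toC (Q : PowerSeries ℤ) : PowerSeries ℂ := Q.map (Int.castRingHom ℂ)

/-- multiplying by an integral power series preserves "coefficients up to `m` lie in `J`". -/
theorem coeff_toC_mul_mem (J : AddSubgroup ℂ) (Q : PowerSeries ℤ) (P : PowerSeries ℂ) (m : ℕ)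
    (hP : ∀ n ≤ m, P.coeff n ∈ J) : ∀ n ≤ m, (toC Q * P).coeff n ∈ J := by
  intro n hn
  rw [PowerSeries.coeff_mul]
  refine J.sum_mem fun ij hij => ?_
  have h1 : ij.2 ≤ m := by
    have := Finset.HasAntidiagonal.mem_antidiagonal.mp hij
    omega
  rw [PowerSeries.coeff_map, eq_intCast, ← zsmul_eq_mul]
  exact J.zsmul_mem (hP _ h1) _

theorem coeff_toC_mul_mem' (J : AddSubgroup ℂ) (Q : PowerSeries ℤ) (P : PowerSeries ℂ)
    (hP : ∀ n, P.coeff n ∈ J) (n : ℕ) : (toC Q * P).coeff n ∈ J :=
  coeff_toC_mul_mem J Q P n (fun k _ => hP k) n le_rfl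

/-- The `q`-expansion of `E₆` is integral. -/
def eis6 : PowerSeries ℤ :=
  PowerSeries.mk fun n => if n = 0 then 1 else -504 * ∑ d ∈ n.divisors, (d : ℤ) ^ 5

theorem qExpansion_E₆ : qExpansion 1 E₆ = toC eis6 := by
  ext m
  rw [E_qExpansion_coeff (by norm_num) (by decide) m, PowerSeries.coeff_map,
    eis6, PowerSeries.coeff_mk]
  split_ifs with h
  · simp
  · have hb : bernoulli 6 = 1 / 42 := by decide +kernel
    rw [hb, ArithmeticFunction.sigma_apply, eq_intCast]
    push_cast
    ring

/-- the integral monomial `E₄^a E₆^b`. -/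
theorem exists_integral_form (k : ℕ) (hk : Even k) (hk2 : k ≠ 2) :
    ∃ (G : ModularForm 𝒮ℒ (k : ℤ)) (Q : PowerSeries ℤ), qExpansion 1 G = toC Q ∧
      (qExpansion 1 G).coeff 0 = 1 := by
  obtain ⟨a, b, hab⟩ : ∃ a b : ℕ, 4 * a + 6 * b = k := by
    obtain ⟨r, hr⟩ := hk
    rcases Nat.even_or_odd' r with ⟨s, hs | hs⟩
    · exact ⟨s, 0, by omega⟩
    · exact ⟨s - 1, 1, by omega⟩
  let G : ModularForm 𝒮ℒ (k : ℤ) :=
    ModularForm.mcast (by rw [← hab]; push_cast; ring) ((E₄.pow a).mul (E₆.pow b))
  have hG : qExpansion 1 G = toC (ModularCurve.eisenstein4 ^ a * eis6 ^ b) := by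
    simp only [G, ModularForm.qExpansion_mcast]
    rw [ModularForm.qExpansion_mul one_pos one_mem_strictPeriods_SL,
      ModularForm.qExpansion_pow one_pos one_mem_strictPeriods_SL,
      ModularForm.qExpansion_pow one_pos one_mem_strictPeriods_SL,
      Fermat.Agent.S24.qExpansion_E₄, qExpansion_E₆]
    simp [toC]
  refine ⟨G, _, hG, ?_⟩
  have h6 : PowerSeries.constantCoeff eis6 = 1 := by
    rw [← PowerSeries.coeff_zero_eq_constantCoeff]
    simp [eis6]
  rw [hG, PowerSeries.coeff_map, PowerSeries.coeff_zero_eq_constantCoeff, map_mul, map_pow,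
    map_pow, ModularCurve.constantCoeff_eisenstein4, h6]
  simp

/-- `qExpansion 1 Δ = X * unit`, with integral inverse. -/
theorem coeff_of_discriminant_mul (g f : PowerSeries ℂ)
    (h : f = qExpansion 1 ModularForm.discriminant * g) (n : ℕ) :
    g.coeff n = (toC ModularCurve.dedekindEtaUnitInv * f).coeff (n + 1) := by
  have h4 : toC ModularCurve.dedekindEtaUnitInv * toC ModularCurve.dedekindEtaUnit = 1 := by
    rw [toC, toC, ← map_mul, mul_comm, ModularCurve.dedekindEtaUnit_mul_inv, map_one]
  rw [h, Fermat.Agent.S24.qExpansion_discriminant,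
    map_mul (PowerSeries.map (Int.castRingHom ℂ)) X, PowerSeries.map_X]
  have : toC ModularCurve.dedekindEtaUnitInv *
      (X * (PowerSeries.map (Int.castRingHom ℂ)) ModularCurve.dedekindEtaUnit * g) = g * X := by
    calc _ = (toC ModularCurve.dedekindEtaUnitInv * toC ModularCurve.dedekindEtaUnit) * (g * X) := by
          ring
      _ = g * X := by rw [h4, one_mul]
  rw [this, PowerSeries.coeff_succ_mul_X]

/-- **Integral Sturm bound in level one** (natural weight). -/
theorem intSturm_nat (J : AddSubgroup ℂ) (k : ℕ) (F : ModularForm 𝒮ℒ (k : ℤ))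
    (h : ∀ n : ℕ, 12 * n ≤ k → (qExpansion 1 F).coeff n ∈ J) (n : ℕ) :
    (qExpansion 1 F).coeff n ∈ J := by
  induction k using Nat.strong_induction_on generalizing n with | _ k ih =>
  rcases Nat.even_or_odd k with hev | hodd
  swap
  · have : F = 0 := ModularForm.levelOne_odd_weight_eq_zero (by exact_mod_cast hodd) F
    subst this
    simp [qExpansion_zero]
  by_cases hk2 : k = 2
  · subst hk2
    have : F = 0 := rank_zero_iff_forall_zero.mp levelOne_weight_two_rank_zero F
    subst this
    simp [qExpansion_zero]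
  obtain ⟨G, Q, hGQ, hG0⟩ := exists_integral_form k hev hk2
  set c : ℂ := (qExpansion 1 F).coeff 0 with hc
  have hcJ : c ∈ J := h 0 (by omega)
  set F' : ModularForm 𝒮ℒ (k : ℤ) := F - c • G with hF'
  have hqF' : qExpansion 1 F' = qExpansion 1 F - c • toC Q := by
    rw [hF', FunLike.coe_sub, ModularForm.qExpansion_sub one_pos one_mem_strictPeriods_SL,
      FunLike.coe_smul, ModularForm.qExpansion_smul one_pos one_mem_strictPeriods_SL, hGQ]
  have hcQ : ∀ m, (c • toC Q).coeff m ∈ J := by
    intro m
    rw [PowerSeries.coeff_smul, PowerSeries.coeff_map, eq_intCast, smul_eq_mul, mul_comm,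
      ← zsmul_eq_mul]
    exact J.zsmul_mem hcJ _
  have h0 : (qExpansion 1 F').coeff 0 = 0 := by
    rw [hqF', map_sub, PowerSeries.coeff_smul, ← hGQ, hG0]
    simp [hc]
  set g := CuspForm.discriminantEquiv (toCuspForm F' h0) with hg
  have hfac := qExpansion_eq_qExpansion_discriminant_mul F' h0
  have hgJ : ∀ m, (qExpansion 1 g).coeff m ∈ J := by
    rcases lt_or_ge k 12 with hk12 | hk12
    · have : g = 0 := rank_zero_iff_forall_zero.mp (levelOne_neg_weight_rank_zero (by omega)) g
      intro m
      rw [this]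
      simp [qExpansion_zero]
    · intro m
      have hcast : ((k : ℤ) - 12) = ((k - 12 : ℕ) : ℤ) := by omega
      have key := ih (k - 12) (by omega) (ModularForm.mcast hcast g) ?_ m
      · simpa [ModularForm.qExpansion_mcast] using key
      · intro r hr
        rw [ModularForm.qExpansion_mcast, coeff_of_discriminant_mul _ _ hfac r]
        refine coeff_toC_mul_mem J _ _ (r + 1) (fun i hi => ?_) _ le_rfl
        rw [hqF', map_sub]
        exact J.sub_mem (h i (by omega)) (hcQ i)
  have hfin : qExpansion 1 F = c • toC Q + qExpansion 1 ModularForm.discriminant * qExpansion 1 g := by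
    rw [← hfac, hqF']; ring
  rw [hfin, map_add]
  refine J.add_mem (hcQ n) ?_
  rw [Fermat.Agent.S24.qExpansion_discriminant]
  exact coeff_toC_mul_mem' J _ _ hgJ n

/-- **Integral Sturm bound in level one.** -/
theorem intSturm (J : AddSubgroup ℂ) {k : ℤ} (F : ModularForm 𝒮ℒ k)
    (h : ∀ n : ℕ, (12 * n : ℤ) ≤ k → (qExpansion 1 F).coeff n ∈ J) (n : ℕ) :
    (qExpansion 1 F).coeff n ∈ J := by
  rcases lt_or_ge k 0 with hk | hk
  · have : F = 0 := rank_zero_iff_forall_zero.mp (levelOne_neg_weight_rank_zero hk) F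
    subst this
    simp [qExpansion_zero]
  · lift k to ℕ using hk
    exact intSturm_nat J k F (fun n hn => h n (by exact_mod_cast hn)) n

end Fermat.Agent.S16
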