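import Mathlib
import Fermat.Agent.S16.IntSturm

/-!
# S16: basic definitions of the project (no proofs here)

* `sigmaP p k`  : sum of the divisors of `k` prime to `p`
* `EisCong p M f` : the cusp form `f` has integral coefficients, congruent to `sigmaP p k` mod `M`
* `Uop p B`     : the formal `U_p` operator on power series
* `IsPair p k B A` : some `Y ∈ M_k(Γ₀(p))` has `q`-expansion `B` at `∞` and `Y ∣ S` has
  `q^{1/p}`-expansion `A`
* `s3`, `s5`    : `∑ σ₃(n) qⁿ`, `∑ σ₅(n) qⁿ` in `ℤ⟦q⟧`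
-/

set_option autoImplicit false

open UpperHalfPlane ModularForm CongruenceSubgroup ModularFormClass PowerSeries
open scoped MatrixGroups ModularForm

noncomputable section

namespace Fermat.Agent.S16

/-- sum of the divisors of `k` which are prime to `p`. -/
def sigmaP (p k : ℕ) : ℕ := ∑ d ∈ k.divisors with ¬ p ∣ d, d

/-- `f` has integral `q`-coefficients congruent mod `M` to those of the Eisenstein series. -/
def EisCong (p M : ℕ) (f : CuspForm (Gamma0 p) 2) : Prop :=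
  ∀ k : ℕ, 1 ≤ k → ∃ c : ℤ, (qExpansion 1 f).coeff k = (c : ℂ) ∧ (M : ℤ) ∣ c - (sigmaP p k : ℤ)

/-- formal `U_p`. -/
def Uop {R : Type*} [Semiring R] (p : ℕ) (B : PowerSeries R) : PowerSeries R :=
  PowerSeries.mk fun n => B.coeff (p * n)

@[simp] theorem coeff_Uop {R : Type*} [Semiring R] (p : ℕ) (B : PowerSeries R) (n : ℕ) :
    (Uop p B).coeff n = B.coeff (p * n) := by
  simp [Uop]

/-- `IsPair p k B A`: some `Y ∈ M_k(Γ₀(p))` has `q`-expansion `B` (period `1`) and
`Y ∣[k] S` has expansion `A` in `X = q^{1/p}` (period `p`). -/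
def IsPair (p : ℕ) (k : ℤ) (B A : PowerSeries ℂ) : Prop :=
  ∃ Y : ModularForm (Gamma0 p) k,
    qExpansion 1 Y = B ∧ qExpansion (p : ℝ) (⇑Y ∣[k] ModularGroup.S) = A

/-- `∑ σ₃(n) qⁿ`. -/
def s3 : PowerSeries ℤ := PowerSeries.mk fun n => ∑ d ∈ n.divisors, (d : ℤ) ^ 3

/-- `∑ σ₅(n) qⁿ`. -/
def s5 : PowerSeries ℤ := PowerSeries.mk fun n => ∑ d ∈ n.divisors, (d : ℤ) ^ 5

end Fermat.Agent.S16
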