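import Mathlib
import Fermat.Agent.S16.Defs
import Fermat.Prelude.Def_ModularForm_HeckeOperator
import Fermat.Prelude.Def_FLTPrelim_Modularity
import Fermat.Prelude.Thm_UpperHalfPlane_qCoeff_heckeT
import Fermat.Prelude.Thm_UpperHalfPlane_qCoeff_heckeU
import Fermat.Prelude.Thm_ModularForm_periodic_heckeT_comp_ofComplex
import Fermat.Prelude.Thm_ModularForm_periodic_heckeU_comp_ofComplex
import Fermat.Prelude.Thm_ModularForm_mdifferentiable_heckeT
import Fermat.Prelude.Thm_ModularForm_mdifferentiable_heckeU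
import Fermat.Prelude.Thm_ModularForm_isBoundedAtImInfty_heckeT
import Fermat.Prelude.Thm_ModularForm_isBoundedAtImInfty_heckeU
import Fermat.Prelude.Thm_UpperHalfPlane_eq_of_forall_qCoeff_eq
import Fermat.Prelude.Thm_CongruenceSubgroup_one_mem_strictPeriods_Gamma0
import Fermat.Prelude.Thm_ModularFormClass_qCoeff_heckeU

set_option autoImplicit false

open UpperHalfPlane ModularForm EisensteinSeries MatrixGroups Filter Matrix.SpecialLinearGroup
open scoped CongruenceSubgroup Real Manifold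

noncomputable section

namespace Fermat.Agent.S16

theorem SL2Z_det (γ : SL(2, ℤ)) : γ 0 0 * γ 1 1 - γ 0 1 * γ 1 0 = 1 := by
  have := γ.det_coe
  rw [Matrix.det_fin_two] at this
  exact this

theorem exists_SL2Z (a b c d : ℤ) (h : a * d - b * c = 1) :
    ∃ γ : SL(2, ℤ), γ 0 0 = a ∧ γ 0 1 = b ∧ γ 1 0 = c ∧ γ 1 1 = d :=
  ⟨⟨!![a, b; c, d], by rw [Matrix.det_fin_two_of]; exact h⟩, rfl, rfl, rfl, rfl⟩

/-- case `p ∣ c`. -/
theorem diag_mul_of_dvd {p : ℕ} (hp : p ≠ 0) (γ : SL(2, ℤ)) (q : ℤ) (hq : γ 1 0 = p * q) :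
    ∃ γ' : SL(2, ℤ), γ' 1 0 = q ∧ γ' 1 1 = γ 1 1 ∧
      heckeDiagMatrix p * mapGL ℝ γ = mapGL ℝ γ' * heckeDiagMatrix p := by
  have hdet := SL2Z_det γ
  obtain ⟨γ', h00, h01, h10, h11⟩ := exists_SL2Z (γ 0 0) (p * γ 0 1) q (γ 1 1)
    (by linear_combination hdet + γ 0 1 * hq)
  refine ⟨γ', h10, h11, ?_⟩
  apply Matrix.GeneralLinearGroup.ext
  intro i j
  have hqR : ((γ 1 0 : ℤ) : ℝ) = p * q := by exact_mod_cast hq
  fin_cases i <;> fin_cases j <;>
    simp [Matrix.mul_apply, Fin.sum_univ_two, val_heckeDiagMatrix hp, hqR, mul_comm,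
      h00, h01, h10, h11]

/-- case `p ∤ c`. -/
theorem diag_mul_of_not_dvd {p : ℕ} (hp : p.Prime) (γ : SL(2, ℤ)) (hc : ¬ (p : ℤ) ∣ γ 1 0) :
    ∃ (γ' : SL(2, ℤ)) (j : ℕ),
      heckeDiagMatrix p * mapGL ℝ γ = mapGL ℝ γ' * heckeMatrix p j := by
  have hdet := SL2Z_det γ
  have hcop : IsCoprime (γ 1 0) (p : ℤ) := by
    rw [isCoprime_comm]
    exact (Nat.prime_iff_prime_int.mp hp).coprime_iff_not_dvd.mpr hc
  obtain ⟨u, v, huv⟩ := hcop
  obtain ⟨j, r, hj⟩ : ∃ (j : ℕ) (r : ℤ), γ 1 1 - γ 1 0 * j = p * r := by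
    have hp0 : (0 : ℤ) < p := by exact_mod_cast hp.pos
    refine ⟨((u * γ 1 1) % p).toNat, ?_⟩
    have h1 : (((u * γ 1 1) % p).toNat : ℤ) = (u * γ 1 1) % p :=
      Int.toNat_of_nonneg (Int.emod_nonneg _ hp0.ne')
    rw [h1]
    have h2 := Int.emod_add_mul_ediv (u * γ 1 1) p
    refine ⟨v * γ 1 1 + γ 1 0 * ((u * γ 1 1) / p), ?_⟩
    linear_combination (-(γ 1 1)) * huv - γ 1 0 * h2
  obtain ⟨γ', h00, h01, h10, h11⟩ := exists_SL2Z (p * γ 0 0) (γ 0 1 - γ 0 0 * j) (γ 1 0) r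
    (by linear_combination hdet - γ 0 0 * hj)
  refine ⟨γ', j, ?_⟩
  apply Matrix.GeneralLinearGroup.ext
  intro i k
  have hjR : ((γ 1 1 : ℤ) : ℝ) - (γ 1 0 : ℤ) * j = p * r := by exact_mod_cast hj
  fin_cases i <;> fin_cases k <;>
    simp [Matrix.mul_apply, Fin.sum_univ_two, val_heckeDiagMatrix hp.ne_zero,
      val_heckeMatrix hp.ne_zero, h00, h01, h10, h11]
  · ring
  · linear_combination hjR


/-- `24 E = p E₂(p z) - E₂(z)`. -/
def E24 (p : ℕ) : ℍ → ℂ := E2 ∣[(2 : ℤ)] heckeDiagMatrix p - E2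

theorem sub_slash' (k : ℤ) (g : GL (Fin 2) ℝ) (a b : ℍ → ℂ) :
    (a - b) ∣[k] g = a ∣[k] g - b ∣[k] g := by
  rw [sub_eq_add_neg, SlashAction.add_slash, SlashAction.neg_slash, ← sub_eq_add_neg]

theorem D2_slash_diag {p : ℕ} (hp : p ≠ 0) (γ γ' : SL(2, ℤ)) (h10 : γ 1 0 = p * γ' 1 0)
    (h11 : γ' 1 1 = γ 1 1) : (D2 γ') ∣[(2 : ℤ)] heckeDiagMatrix p = D2 γ := by
  funext τ
  rw [slash_heckeDiagMatrix_apply 2 hp]
  simp only [D2]
  rw [ModularGroup.denom_apply, ModularGroup.denom_apply, coe_heckeDiagMatrix_smul hp, h10, h11]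
  push_cast
  rw [zpow_one, ← mul_div_assoc]
  congr 1
  all_goals ring

theorem E2_slash_diag_slash_of_dvd {p : ℕ} (hp : p ≠ 0) (γ : SL(2, ℤ)) (hc : (p : ℤ) ∣ γ 1 0) :
    (E2 ∣[(2 : ℤ)] heckeDiagMatrix p) ∣[(2 : ℤ)] γ =
      E2 ∣[(2 : ℤ)] heckeDiagMatrix p - (1 / (2 * riemannZeta 2)) • D2 γ := by
  obtain ⟨q, hq⟩ := hc
  obtain ⟨γ', h10, h11, hmat⟩ := diag_mul_of_dvd hp γ q hq
  rw [SL_slash, ← SlashAction.slash_mul]
  have : heckeDiagMatrix p * (γ : GL (Fin 2) ℝ) = (γ' : GL (Fin 2) ℝ) * heckeDiagMatrix p := hmat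
  rw [this, SlashAction.slash_mul, ← SL_slash, E2_slash_action, sub_slash', ModularForm.smul_slash,
    σ_heckeDiagMatrix, D2_slash_diag hp γ γ' (by rw [hq, h10]) h11]
  rfl

theorem E24_slash_of_dvd {p : ℕ} (hp : p ≠ 0) (γ : SL(2, ℤ)) (hc : (p : ℤ) ∣ γ 1 0) :
    E24 p ∣[(2 : ℤ)] γ = E24 p := by
  rw [E24, SL_slash, sub_slash', ← SL_slash, ← SL_slash, E2_slash_diag_slash_of_dvd hp γ hc,
    E2_slash_action]
  abel


/-! ### boundedness -/

theorem isBoundedAtImInfty_D2 (γ : SL(2, ℤ)) : IsBoundedAtImInfty (D2 γ) := by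
  rw [isBoundedAtImInfty_iff]
  refine ⟨2 * π, 1, fun z hz => ?_⟩
  simp only [D2]
  rw [ModularGroup.denom_apply]
  by_cases hc : γ 1 0 = 0
  · simp [hc, Real.pi_pos.le]
  have hcR : (1 : ℝ) ≤ |((γ 1 0 : ℤ) : ℝ)| := by
    have : (1 : ℤ) ≤ |γ 1 0| := Int.one_le_abs hc
    exact_mod_cast this
  have h1 : |((γ 1 0 : ℤ) : ℝ)| * 1 ≤ ‖((γ 1 0 : ℤ) : ℂ) * (z : ℂ) + ((γ 1 1 : ℤ) : ℂ)‖ := by
    calc |((γ 1 0 : ℤ) : ℝ)| * 1 ≤ |((γ 1 0 : ℤ) : ℝ)| * z.im := by gcongr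
      _ = |(((γ 1 0 : ℤ) : ℂ) * (z : ℂ) + ((γ 1 1 : ℤ) : ℂ)).im| := by
          simp [abs_mul, abs_of_pos z.im_pos]
      _ ≤ _ := Complex.abs_im_le_norm _
  have hpos : 0 < ‖((γ 1 0 : ℤ) : ℂ) * (z : ℂ) + ((γ 1 1 : ℤ) : ℂ)‖ := by linarith
  rw [norm_div, div_le_iff₀ hpos]
  simp only [norm_mul, Complex.norm_I, Complex.norm_real, Complex.norm_intCast, mul_one,
    Complex.norm_ofNat, Real.norm_eq_abs, abs_of_pos Real.pi_pos]
  have := Real.pi_pos
  nlinarith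

theorem isBoundedAtImInfty_slash_heckeMatrix {f : ℍ → ℂ} (hf : IsBoundedAtImInfty f) (k : ℤ)
    {p : ℕ} (hp : p ≠ 0) (j : ℕ) : IsBoundedAtImInfty (f ∣[k] heckeMatrix p j) := by
  rw [isBoundedAtImInfty_iff] at hf ⊢
  obtain ⟨M, A, h⟩ := hf
  have hp0 : (0 : ℝ) < p := by exact_mod_cast Nat.pos_of_ne_zero hp
  refine ⟨(p : ℝ)⁻¹ * M, p * A, fun z hz => ?_⟩
  rw [slash_heckeMatrix_apply k hp, norm_mul, norm_inv, Complex.norm_natCast]
  gcongr
  apply h
  have him : (heckeMatrix p j • z).im = z.im / p := by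
    have := congrArg Complex.im (coe_heckeMatrix_smul hp j z)
    rw [Complex.div_natCast_im] at this
    simpa using this
  rw [him, le_div_iff₀ hp0]
  linarith

theorem isBoundedAtImInfty_slash_heckeDiagMatrix {f : ℍ → ℂ} (hf : IsBoundedAtImInfty f) (k : ℤ)
    {p : ℕ} (hp : p ≠ 0) : IsBoundedAtImInfty (f ∣[k] heckeDiagMatrix p) := by
  rw [isBoundedAtImInfty_iff] at hf ⊢
  obtain ⟨M, A, h⟩ := hf
  have hp0 : (1 : ℝ) ≤ p := by exact_mod_cast Nat.pos_of_ne_zero hp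
  refine ⟨‖(p : ℂ) ^ (k - 1)‖ * M, max A 0, fun z hz => ?_⟩
  rw [slash_heckeDiagMatrix_apply k hp, norm_mul]
  gcongr
  apply h
  have him : (heckeDiagMatrix p • z).im = p * z.im := by
    have := congrArg Complex.im (coe_heckeDiagMatrix_smul hp z)
    simpa using this
  rw [him]
  have h1 : A ≤ z.im := le_trans (le_max_left _ _) hz
  have h2 : 0 ≤ z.im := z.im_pos.le
  nlinarith


theorem bdd_sub {f g : ℍ → ℂ} (hf : IsBoundedAtImInfty f)
    (hg : IsBoundedAtImInfty g) : IsBoundedAtImInfty (f - g) :=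
  (boundedAtImInftySubalgebra ℂ).sub_mem hf hg

theorem bdd_smul {f : ℍ → ℂ} (c : ℂ) (hf : IsBoundedAtImInfty f) :
    IsBoundedAtImInfty (c • f) :=
  (boundedAtImInftySubalgebra ℂ).smul_mem hf c

theorem isBoundedAtImInfty_E2_slash (γ : SL(2, ℤ)) : IsBoundedAtImInfty (E2 ∣[(2 : ℤ)] γ) := by
  rw [E2_slash_action]
  exact bdd_sub isBoundedAtImInfty_E2 (bdd_smul _ (isBoundedAtImInfty_D2 γ))

theorem isBoundedAtImInfty_E24_slash {p : ℕ} (hp : p.Prime) (γ : SL(2, ℤ)) :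
    IsBoundedAtImInfty (E24 p ∣[(2 : ℤ)] γ) := by
  by_cases hc : (p : ℤ) ∣ γ 1 0
  · rw [E24_slash_of_dvd hp.ne_zero γ hc]
    exact bdd_sub (isBoundedAtImInfty_slash_heckeDiagMatrix isBoundedAtImInfty_E2 2 hp.ne_zero)
      isBoundedAtImInfty_E2
  · obtain ⟨γ', j, hmat⟩ := diag_mul_of_not_dvd hp γ hc
    rw [E24, SL_slash, sub_slash', ← SL_slash E2]
    refine bdd_sub ?_ (isBoundedAtImInfty_E2_slash γ)
    rw [← SlashAction.slash_mul]
    have : heckeDiagMatrix p * (γ : GL (Fin 2) ℝ) = (γ' : GL (Fin 2) ℝ) * heckeMatrix p j := hmat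
    rw [this, SlashAction.slash_mul, ← SL_slash]
    exact isBoundedAtImInfty_slash_heckeMatrix (isBoundedAtImInfty_E2_slash γ') 2 hp.ne_zero j

theorem mdifferentiable_E24 (p : ℕ) : MDiff (E24 p) :=
  (E2_mdifferentiable.slash 2 _).sub E2_mdifferentiable

/-- The Eisenstein series `E = (p E₂(p z) - E₂(z)) / 24` of weight `2` and level `Γ₀(p)`. -/
def EisE (p : ℕ) [hp : Fact p.Prime] : ModularForm (CongruenceSubgroup.Gamma0 p) 2 where
  toFun := (1 / 24 : ℂ) • E24 p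
  slash_action_eq' g hg := by
    obtain ⟨γ, hγ, rfl⟩ := hg
    have hγ' : γ ∈ CongruenceSubgroup.Gamma0 p := hγ
    rw [CongruenceSubgroup.Gamma0_mem, ZMod.intCast_zmod_eq_zero_iff_dvd] at hγ'
    have := E24_slash_of_dvd hp.out.ne_zero γ hγ'
    rw [SL_slash] at this
    have h2 : ((1 / 24 : ℂ) • E24 p) ∣[(2 : ℤ)] γ = (1 / 24 : ℂ) • (E24 p ∣[(2 : ℤ)] γ) :=
      ModularForm.SL_smul_slash 2 γ (E24 p) (1 / 24)
    rw [SL_slash, SL_slash, this] at h2
    exact h2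
  holo' := (mdifferentiable_E24 p).const_smul _
  bdd_at_cusps' {c} hc := by
    rw [Subgroup.IsArithmetic.isCusp_iff_isCusp_SL2Z] at hc
    rw [OnePoint.isBoundedAt_iff_forall_SL2Z hc]
    intro γ _
    have h2 : ((1 / 24 : ℂ) • E24 p) ∣[(2 : ℤ)] γ = (1 / 24 : ℂ) • (E24 p ∣[(2 : ℤ)] γ) :=
      ModularForm.SL_smul_slash 2 γ (E24 p) (1 / 24)
    rw [h2]
    exact bdd_smul _ (isBoundedAtImInfty_E24_slash hp.out γ)


/-! ### `q`-expansions -/

open ModularFormClass Function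

local notation "𝕢" => Function.Periodic.qParam

theorem E2_vadd_one (τ : ℍ) : E2 ((1 : ℝ) +ᵥ τ) = E2 τ := by
  have h := congrFun (E2_slash_action ModularGroup.T) τ
  rw [D2_T, smul_zero, sub_zero, SL_slash_apply, modular_T_smul, ModularGroup.denom_apply] at h
  simpa [ModularGroup.T] using h

theorem periodic_E2 : Periodic (E2 ∘ ofComplex) 1 := by
  intro w
  by_cases! hw : 0 < Complex.im w
  · have : 0 < Complex.im (w + 1) := by simp [hw]
    simp only [comp_apply, ofComplex_apply_of_im_pos this, ofComplex_apply_of_im_pos hw]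
    rw [← E2_vadd_one ⟨w, hw⟩]
    congr 1
    ext
    simp [add_comm]
  · have : Complex.im (w + 1) ≤ 0 := by simpa using hw
    simp [ofComplex_apply_of_im_nonpos this, ofComplex_apply_of_im_nonpos hw]

theorem qExpansion_coeff_unique_fun {f : ℍ → ℂ} {h : ℝ} {c : ℕ → ℂ} (hh : 0 < h)
    (hfanalytic : AnalyticAt ℂ (cuspFunction h f) 0)
    (hf : ∀ τ : ℍ, HasSum (fun m ↦ c m • 𝕢 h τ ^ m) (f τ)) (m : ℕ) :
    (qExpansion h f).coeff m = c m := by
  have h1 := (hasFPowerSeriesOnBall_cuspFunction hh hfanalytic hf).hasFPowerSeriesAt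
  have h2 := hfanalytic.hasFPowerSeriesAt
  have h3 := congr_arg (FormalMultilinearSeries.coeff · m) (h1.eq_formalMultilinearSeries h2)
  simp only [FormalMultilinearSeries.coeff_ofScalars] at h3
  rw [qExpansion_coeff, h3, div_eq_mul_inv, mul_comm]

/-- the coefficients of `E₂`. -/
def cE2 (m : ℕ) : ℂ := if m = 0 then 1 else -24 * (ArithmeticFunction.sigma 1 m : ℂ)

theorem hasSum_cE2 (τ : ℍ) : HasSum (fun m : ℕ ↦ cE2 m • 𝕢 1 (τ : ℂ) ^ m) (E2 τ) := by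
  have := hasSum_qExpansion_E2 (z := τ)
  simpa only [Function.Periodic.qParam, Complex.ofReal_one, div_one, cE2] using this

theorem analyticAt_cuspFunction_E2 : AnalyticAt ℂ (cuspFunction 1 E2) 0 :=
  analyticAt_cuspFunction_zero one_pos periodic_E2 E2_mdifferentiable isBoundedAtImInfty_E2

theorem qCoeff_E2 (n : ℕ) : qCoeff E2 n = cE2 n :=
  qExpansion_coeff_unique_fun one_pos analyticAt_cuspFunction_E2 hasSum_cE2 n

theorem qCoeff_slash_diag {f : ℍ → ℂ} (hper : Periodic (f ∘ ofComplex) 1) (hhol : MDiff f)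
    (hbdd : IsBoundedAtImInfty f) (k : ℤ) {p : ℕ} (hp : p ≠ 0) (n : ℕ) :
    qCoeff (f ∣[k] heckeDiagMatrix p) n =
      if p ∣ n then (p : ℂ) ^ (k - 1) * qCoeff f (n / p) else 0 := by
  have h1 : f ∣[k] heckeDiagMatrix p = heckeT k p f - heckeU k p f := by
    rw [heckeT]; abel
  have hT := analyticAt_cuspFunction_zero one_pos (periodic_heckeT_comp_ofComplex hper k p)
    (mdifferentiable_heckeT hhol k p) (isBoundedAtImInfty_heckeT hbdd k p)
  have hU := analyticAt_cuspFunction_zero one_pos (periodic_heckeU_comp_ofComplex hper k p)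
    (mdifferentiable_heckeU hhol k p) (isBoundedAtImInfty_heckeU hbdd k p)
  have h2 := UpperHalfPlane.qCoeff_heckeT hper hhol hbdd k hp n
  have h3 := UpperHalfPlane.qCoeff_heckeU hper hhol hbdd k hp n
  rw [qCoeff] at h2 h3 ⊢
  rw [h1, qExpansion_sub hT hU, map_sub, h2, h3, coeffHeckeT_eq_coeffHeckeU_add]
  simp


theorem sigma_one_eq_sigmaP_add {p : ℕ} (hp : p ≠ 0) (n : ℕ) :
    ArithmeticFunction.sigma 1 n =
      sigmaP p n + if p ∣ n then p * ArithmeticFunction.sigma 1 (n / p) else 0 := by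
  rw [ArithmeticFunction.sigma_one_apply, sigmaP,
    ← Finset.sum_filter_add_sum_filter_not n.divisors (fun d => ¬ p ∣ d)]
  congr 1
  simp only [not_not]
  split_ifs with h
  · rw [ArithmeticFunction.sigma_one_apply, Finset.mul_sum]
    obtain ⟨m, rfl⟩ := h
    rw [Nat.mul_div_cancel_left _ (Nat.pos_of_ne_zero hp)]
    refine Finset.sum_nbij' (fun d => d / p) (fun e => p * e) ?_ ?_ ?_ ?_ ?_
    · intro d hd
      simp only [Finset.mem_filter, Nat.mem_divisors] at hd ⊢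
      obtain ⟨⟨hd1, hd2⟩, e, rfl⟩ := hd
      rw [Nat.mul_div_cancel_left _ (Nat.pos_of_ne_zero hp)]
      exact ⟨Nat.dvd_of_mul_dvd_mul_left (Nat.pos_of_ne_zero hp) hd1, fun h0 => hd2 (by simp [h0])⟩
    · intro e he
      simp only [Finset.mem_filter, Nat.mem_divisors] at he ⊢
      exact ⟨⟨Nat.mul_dvd_mul_left p he.1, mul_ne_zero hp he.2⟩, dvd_mul_right _ _⟩
    · intro d hd
      simp only [Finset.mem_filter] at hd
      exact Nat.mul_div_cancel' hd.2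
    · intro e _
      exact Nat.mul_div_cancel_left _ (Nat.pos_of_ne_zero hp)
    · intro d hd
      simp only [Finset.mem_filter] at hd
      exact (Nat.mul_div_cancel' hd.2).symm
  · refine Finset.sum_eq_zero fun d hd => ?_
    simp only [Finset.mem_filter, Nat.mem_divisors] at hd
    exact absurd (hd.2.trans hd.1.1) h

theorem sigmaP_mul_self {p : ℕ} (hp : p.Prime) (n : ℕ) : sigmaP p (n * p) = sigmaP p n := by
  rw [sigmaP, sigmaP]
  congr 1
  ext d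
  simp only [Finset.mem_filter, Nat.mem_divisors]
  constructor
  · rintro ⟨⟨h1, h2⟩, h3⟩
    refine ⟨⟨?_, fun h0 => h2 (by simp [h0])⟩, h3⟩
    exact (Nat.Coprime.dvd_mul_right ((Nat.Prime.coprime_iff_not_dvd hp).mpr h3).symm).mp h1
  · rintro ⟨⟨h1, h2⟩, h3⟩
    exact ⟨⟨h1.mul_right p, mul_ne_zero h2 hp.ne_zero⟩, h3⟩

theorem analyticAt_cuspFunction_E2_diag {p : ℕ} (hp : p ≠ 0) :
    AnalyticAt ℂ (cuspFunction 1 (E2 ∣[(2 : ℤ)] heckeDiagMatrix p)) 0 := by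
  have h1 : E2 ∣[(2 : ℤ)] heckeDiagMatrix p = heckeT 2 p E2 - heckeU 2 p E2 := by
    rw [heckeT]; abel
  refine analyticAt_cuspFunction_zero one_pos ?_ (E2_mdifferentiable.slash 2 _)
    (isBoundedAtImInfty_slash_heckeDiagMatrix isBoundedAtImInfty_E2 2 hp)
  rw [h1]
  have hT := periodic_heckeT_comp_ofComplex periodic_E2 2 p
  have hU := periodic_heckeU_comp_ofComplex periodic_E2 2 p
  exact hT.sub hU

theorem qCoeff_E24 {p : ℕ} (hp : p ≠ 0) (n : ℕ) :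
    qCoeff (E24 p) n = if n = 0 then (p : ℂ) - 1 else 24 * (sigmaP p n : ℂ) := by
  have h1 := qCoeff_slash_diag periodic_E2 E2_mdifferentiable isBoundedAtImInfty_E2 2 hp n
  have h2 := qCoeff_E2 n
  rw [qCoeff] at h1 h2 ⊢
  rw [E24, qExpansion_sub (analyticAt_cuspFunction_E2_diag hp) analyticAt_cuspFunction_E2, map_sub,
    h1, h2, qCoeff_E2]
  have h21 : (2 : ℤ) - 1 = 1 := by norm_num
  rw [h21, zpow_one]
  by_cases hn : n = 0
  · subst hn
    simp [cE2]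
  · have h3 := sigma_one_eq_sigmaP_add hp n
    have h3' : (ArithmeticFunction.sigma 1 n : ℂ) = (sigmaP p n : ℂ) +
        if p ∣ n then (p : ℂ) * (ArithmeticFunction.sigma 1 (n / p) : ℂ) else 0 := by
      rw [h3]; split_ifs <;> push_cast <;> ring
    simp only [cE2, hn, if_false]
    rw [h3']
    split_ifs with hd h0
    · exfalso
      obtain ⟨m, rfl⟩ := hd
      rw [Nat.mul_div_cancel_left _ (Nat.pos_of_ne_zero hp)] at h0
      exact hn (by simp [h0])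
    · ring
    · ring

theorem analyticAt_cuspFunction_E24 {p : ℕ} (hp : p ≠ 0) :
    AnalyticAt ℂ (cuspFunction 1 (E24 p)) 0 := by
  rw [E24, cuspFunction_sub (analyticAt_cuspFunction_E2_diag hp).continuousAt
    analyticAt_cuspFunction_E2.continuousAt]
  exact (analyticAt_cuspFunction_E2_diag hp).sub analyticAt_cuspFunction_E2

theorem coe_EisE (p : ℕ) [Fact p.Prime] : ⇑(EisE p) = (1 / 24 : ℂ) • E24 p := rfl

/-- **The `q`-expansion of `E`**: `(p - 1) / 24 + ∑ σ'(n) qⁿ`. -/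
theorem qCoeff_EisE (p : ℕ) [hp : Fact p.Prime] (n : ℕ) :
    qCoeff (EisE p) n = if n = 0 then ((p : ℂ) - 1) / 24 else (sigmaP p n : ℂ) := by
  have h1 := qCoeff_E24 hp.out.ne_zero n
  rw [qCoeff] at h1 ⊢
  rw [coe_EisE, qExpansion_smul (analyticAt_cuspFunction_E24 hp.out.ne_zero), PowerSeries.coeff_smul,
    h1]
  split_ifs <;> simp <;> ring


theorem one_mem_strictPeriods_Gamma0' (N : ℕ) :
    (1 : ℝ) ∈ ((CongruenceSubgroup.Gamma0 N : Subgroup SL(2, ℤ)) :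
      Subgroup (GL (Fin 2) ℝ)).strictPeriods :=
  CongruenceSubgroup.one_mem_strictPeriods_Gamma0 N

theorem periodic_EisE (p : ℕ) [Fact p.Prime] : Periodic (⇑(EisE p) ∘ ofComplex) 1 :=
  SlashInvariantFormClass.periodic_comp_ofComplex (EisE p) (one_mem_strictPeriods_Gamma0' p)

theorem isBoundedAtImInfty_EisE (p : ℕ) [hp : Fact p.Prime] : IsBoundedAtImInfty ⇑(EisE p) := by
  rw [coe_EisE]
  have := isBoundedAtImInfty_E24_slash hp.out 1
  rw [SlashAction.slash_one] at this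
  exact bdd_smul _ this

/-- `U_p E = E`. -/
theorem heckeU_EisE (p : ℕ) [hp : Fact p.Prime] : heckeU 2 p ⇑(EisE p) = ⇑(EisE p) := by
  have hper := periodic_EisE p
  have hhol : MDiff ⇑(EisE p) := (EisE p).holo'
  have hbdd := isBoundedAtImInfty_EisE p
  refine UpperHalfPlane.eq_of_forall_qCoeff_eq (periodic_heckeU_comp_ofComplex hper 2 p)
    (mdifferentiable_heckeU hhol 2 p) (isBoundedAtImInfty_heckeU hbdd 2 p) hper hhol hbdd
    fun n => ?_
  rw [UpperHalfPlane.qCoeff_heckeU hper hhol hbdd 2 hp.out.ne_zero, coeffHeckeU_apply,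
    qCoeff_EisE, qCoeff_EisE, sigmaP_mul_self hp.out]
  by_cases hn : n = 0
  · simp [hn]
  · simp [hn, hp.out.ne_zero]

end Fermat.Agent.S16
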