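import Mathlib
import Fermat.Prelude.Def_CuspForm_HeckeLocal
import Fermat.Prelude.Def_CuspForm_HeckeEvalForms
import Fermat.Prelude.Def_HeckeGalois_EichlerShimura
import Fermat.Prelude.Def_ModularCurve_ModularUnit
import Fermat.Agent.S49.Lattice
import Fermat.Agent.S16.Defs

/-!
# S16, Part 0: the algebra

`𝕋 = heckeLatticeAlgebra p ∅` acting on `L = intLattice p 2`, `J` = image of the Eisenstein ideal.

* `card_eq_of_mem_iff`      : `Nat.card (𝕋 ⧸ J) = n` if `ℤ ∩ J = n ℤ`  (`ℤ → 𝕋 ⧸ J` is onto)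
* `exists_eq_pair`          : the pairing `(t, f) ↦ a₁(t f)` is perfect
* `dvd_of_EisCong`          : (0c) `EisCong p M f` and `x ∈ ℤ ∩ J` imply `M ∣ x`
* `exists_EisCong`          : (0d) if `M` divides all of `ℤ ∩ J` there is `f` with `EisCong p M f`
* `card_statement_of_upper_of_lower`, `card_eq_of_upper_of_EisCong` : the final reduction of S16
-/

set_option autoImplicit false
set_option linter.unusedSectionVars false
open ModularCurve CuspForm CongruenceSubgroup ModularFormClass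

namespace Fermat.Agent.S16.Part0

/-! ### arithmetic of `sigmaP` -/

theorem divisors_prime_mul_eq {ℓ k : ℕ} (hℓ : ℓ.Prime) (hk : k ≠ 0) :
    (ℓ * k).divisors = k.divisors ∪ k.divisors.image (ℓ * ·) := by
  ext d
  simp only [Nat.mem_divisors, Finset.mem_union, Finset.mem_image]
  constructor
  · rintro ⟨hd, -⟩
    by_cases hℓd : ℓ ∣ d
    · obtain ⟨e, rfl⟩ := hℓd
      exact Or.inr ⟨e, ⟨(Nat.mul_dvd_mul_iff_left hℓ.pos).mp hd, hk⟩, rfl⟩
    · exact Or.inl ⟨(Nat.Coprime.dvd_mul_left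
        ((Nat.Prime.coprime_iff_not_dvd hℓ).mpr hℓd).symm).mp hd, hk⟩
  · rintro (⟨hd, -⟩ | ⟨e, ⟨he, -⟩, rfl⟩)
    · exact ⟨Dvd.dvd.mul_left hd ℓ, mul_ne_zero hℓ.ne_zero hk⟩
    · exact ⟨Nat.mul_dvd_mul_left ℓ he, mul_ne_zero hℓ.ne_zero hk⟩

theorem divisors_inter_image {ℓ k : ℕ} (hℓ : ℓ.Prime) (hk : k ≠ 0) :
    k.divisors ∩ k.divisors.image (ℓ * ·) =
      if ℓ ∣ k then (k / ℓ).divisors.image (ℓ * ·) else ∅ := by
  split_ifs with hd
  · obtain ⟨m, rfl⟩ := hd
    have hm : m ≠ 0 := fun h => hk (by simp [h])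
    rw [Nat.mul_div_cancel_left _ hℓ.pos]
    ext d
    simp only [Finset.mem_inter, Nat.mem_divisors, Finset.mem_image]
    constructor
    · rintro ⟨⟨h1, -⟩, e, -, rfl⟩
      exact ⟨e, ⟨(Nat.mul_dvd_mul_iff_left hℓ.pos).mp h1, hm⟩, rfl⟩
    · rintro ⟨e, ⟨he, -⟩, rfl⟩
      exact ⟨⟨Nat.mul_dvd_mul_left ℓ he, hk⟩, e, ⟨Dvd.dvd.mul_left he ℓ, hk⟩, rfl⟩
  · ext d
    simp only [Finset.mem_inter, Nat.mem_divisors, Finset.mem_image, Finset.notMem_empty,
      iff_false]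
    rintro ⟨⟨h1, -⟩, e, -, rfl⟩
    exact hd (dvd_trans (Dvd.intro e rfl) h1)

/-- `sigmaP` as an unrestricted divisor sum -/
theorem sigmaP_eq_sum (p k : ℕ) :
    (sigmaP p k : ℤ) = ∑ d ∈ k.divisors, (if p ∣ d then 0 else (d : ℤ)) := by
  unfold sigmaP
  rw [Finset.sum_filter]
  push_cast
  refine Finset.sum_congr rfl fun d _ => ?_
  by_cases h : p ∣ d <;> simp [h]

theorem sigmaP_one {p : ℕ} (hp : p.Prime) : sigmaP p 1 = 1 := by
  have : ¬ p ∣ 1 := hp.one_lt.ne' ∘ Nat.dvd_one.mp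
  simp [sigmaP, Finset.filter_singleton, this]

theorem sigmaP_mul_self {p : ℕ} (hp : p.Prime) (k : ℕ) : sigmaP p (p * k) = sigmaP p k := by
  rcases Nat.eq_zero_or_pos k with rfl | hk
  · simp
  unfold sigmaP
  congr 1
  ext d
  simp only [Finset.mem_filter, Nat.mem_divisors]
  constructor
  · rintro ⟨⟨h1, -⟩, h2⟩
    exact ⟨⟨(Nat.Coprime.dvd_mul_left
        ((Nat.Prime.coprime_iff_not_dvd hp).mpr h2).symm).mp h1, hk.ne'⟩, h2⟩
  · rintro ⟨⟨h1, -⟩, h2⟩
    exact ⟨⟨Dvd.dvd.mul_left h1 p, mul_ne_zero hp.ne_zero hk.ne'⟩, h2⟩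

theorem sigmaP_mul_prime {p ℓ : ℕ} (hp : p.Prime) (hℓ : ℓ.Prime) (hne : ℓ ≠ p) (k : ℕ) :
    (sigmaP p (ℓ * k) : ℤ) + (ℓ : ℤ) * (if ℓ ∣ k then (sigmaP p (k / ℓ) : ℤ) else 0) =
      (1 + (ℓ : ℤ)) * (sigmaP p k : ℤ) := by
  rcases Nat.eq_zero_or_pos k with rfl | hk
  · simp [sigmaP]
  have hk0 : k ≠ 0 := hk.ne'
  set f : ℕ → ℤ := fun d => if p ∣ d then 0 else (d : ℤ) with hf
  have hfmul : ∀ d, f (ℓ * d) = (ℓ : ℤ) * f d := by
    intro d
    have hiff : p ∣ ℓ * d ↔ p ∣ d := by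
      constructor
      · intro h
        rcases (Nat.Prime.dvd_mul hp).mp h with h1 | h1
        · exact absurd ((Nat.prime_dvd_prime_iff_eq hp hℓ).mp h1).symm hne
        · exact h1
      · exact fun h => Dvd.dvd.mul_left h ℓ
    simp only [hf, hiff]
    split_ifs <;> simp
  have hinj : Function.Injective (ℓ * ·) := fun a b h => Nat.eq_of_mul_eq_mul_left hℓ.pos h
  have himg : ∀ s : Finset ℕ, ∑ d ∈ s.image (ℓ * ·), f d = (ℓ : ℤ) * ∑ d ∈ s, f d := by
    intro s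
    rw [Finset.sum_image (fun a _ b _ h => hinj h), Finset.mul_sum]
    exact Finset.sum_congr rfl fun d _ => hfmul d
  have h := Finset.sum_union_inter (s₁ := k.divisors) (s₂ := k.divisors.image (ℓ * ·)) (f := f)
  rw [← divisors_prime_mul_eq hℓ hk0, divisors_inter_image hℓ hk0, himg] at h
  rw [sigmaP_eq_sum, sigmaP_eq_sum p k]
  split_ifs at h ⊢ with hd
  · rw [himg] at h
    rw [sigmaP_eq_sum]
    linear_combination h
  · rw [Finset.sum_empty] at h
    linear_combination h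


variable (p : ℕ) [Fact p.Prime]

/-- the Hecke algebra acting on the integral lattice -/
abbrev TT : Type := ↥(heckeLatticeAlgebra p ∅)
abbrev LL : Type := ↥(intLattice p 2)

noncomputable def piHom : HeckeAlg →+* TT p :=
  (latticeRestrictHom p ∅).toRingHom.comp (heckeEvalForms p 2)

noncomputable def JJ : Ideal (TT p) := Ideal.map (piHom p) (eisensteinIdeal p)

theorem heckeEvalForms_surjective : Function.Surjective (heckeEvalForms p 2) := by
  rintro ⟨x, hx⟩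
  suffices h : ∃ P, ((heckeEvalForms p 2 P : heckeAlgebra p 2 ∅) :
      Module.End ℂ (CuspForm (Gamma0 p) 2)) = x by
    obtain ⟨P, hP⟩ := h
    exact ⟨P, Subtype.ext hP⟩
  induction hx using Algebra.adjoin_induction with
  | mem x hx =>
    rcases hx with ⟨ℓ, hℓ, hℓN, -, rfl⟩ | ⟨q, hqN, hq, -, rfl⟩
    · refine ⟨heckeGen ⟨ℓ, hℓ⟩, ?_⟩
      rw [heckeEvalForms_heckeGen_of_not_dvd (ℓ := ⟨ℓ, hℓ⟩) hℓN]
      rfl
    · refine ⟨heckeGen ⟨q, hq⟩, ?_⟩
      rw [heckeEvalForms_heckeGen_of_dvd (q := ⟨q, hq⟩) hqN]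
      rfl
  | algebraMap r =>
    refine ⟨MvPolynomial.C r, ?_⟩
    rw [heckeEvalForms_C]
    rfl
  | add x y _ _ hx hy =>
    obtain ⟨P, rfl⟩ := hx
    obtain ⟨Q, rfl⟩ := hy
    exact ⟨P + Q, by rw [map_add]; rfl⟩
  | mul x y _ _ hx hy =>
    obtain ⟨P, rfl⟩ := hx
    obtain ⟨Q, rfl⟩ := hy
    exact ⟨P * Q, by rw [map_mul]; rfl⟩

theorem piHom_surjective : Function.Surjective (piHom p) :=
  (latticeRestrictHom_surjective p ∅).comp (heckeEvalForms_surjective p)

theorem piHom_C (a : ℤ) : piHom p (MvPolynomial.C a) = (a : TT p) := by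
  have : (MvPolynomial.C a : HeckeAlg) = ((a : ℤ) : HeckeAlg) := by simp
  rw [this, map_intCast]

/-- evaluation at the Eisenstein system -/
noncomputable def eisEval : HeckeAlg →+* ℤ :=
  (MvPolynomial.aeval (R := ℤ) (eisensteinSystem p)).toRingHom

omit [Fact p.Prime] in
theorem mem_eisensteinIdeal_iff (P : HeckeAlg) : P ∈ eisensteinIdeal p ↔ eisEval p P = 0 :=
  mem_eigenIdeal_iff _ _

theorem sub_C_mem (P : HeckeAlg) : P - MvPolynomial.C (eisEval p P) ∈ eisensteinIdeal p := by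
  rw [mem_eisensteinIdeal_iff, map_sub]
  simp [eisEval]

theorem mem_JJ_iff (t : TT p) : t ∈ JJ p ↔ ∃ P, eisEval p P = 0 ∧ piHom p P = t := by
  rw [JJ, Ideal.mem_map_iff_of_surjective _ (piHom_surjective p)]
  simp only [mem_eisensteinIdeal_iff]

theorem intCast_surjective : Function.Surjective (Int.castRingHom (TT p ⧸ JJ p)) := by
  intro y
  obtain ⟨t, rfl⟩ := Ideal.Quotient.mk_surjective y
  obtain ⟨P, rfl⟩ := piHom_surjective p t
  refine ⟨eisEval p P, ?_⟩
  have h1 : piHom p P - ((eisEval p P : ℤ) : TT p) ∈ JJ p := by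
    rw [← piHom_C, ← map_sub]
    exact Ideal.mem_map_of_mem _ (sub_C_mem p P)
  have h2 := (Ideal.Quotient.eq (I := JJ p)).mpr h1
  rw [h2]
  simp

theorem card_eq_of_mem_iff (n : ℕ) (h : ∀ x : ℤ, ((x : TT p) ∈ JJ p) ↔ (n : ℤ) ∣ x) :
    Nat.card (TT p ⧸ JJ p) = n := by
  have hker : RingHom.ker (Int.castRingHom (TT p ⧸ JJ p)) = Ideal.span {(n : ℤ)} := by
    ext x
    rw [RingHom.mem_ker, Ideal.mem_span_singleton, ← h x, ← Ideal.Quotient.eq_zero_iff_mem]
    simp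
  have e1 := RingHom.quotientKerEquivOfSurjective (intCast_surjective p)
  have e0 := Ideal.quotEquivOfEq hker
  have e2 := (Int.quotientSpanEquivZMod (n : ℤ))
  rw [← Nat.card_congr e1.toEquiv, Nat.card_congr e0.toEquiv, Nat.card_congr e2.toEquiv]
  simp


/-! ### integer coefficients on the lattice -/

theorem exists_int_coeff (f : LL p) (k : ℕ) :
    ∃ m : ℤ, qCoeff ⇑(f : CuspForm (Gamma0 p) 2) k = (m : ℂ) :=
  (Fermat.Agent.S49.mem_intLattice_iff f.1).mp f.2 k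

noncomputable def aZfun (k : ℕ) (f : LL p) : ℤ := (exists_int_coeff p f k).choose

theorem aZfun_spec (k : ℕ) (f : LL p) :
    qCoeff ⇑(f : CuspForm (Gamma0 p) 2) k = (aZfun p k f : ℂ) :=
  (exists_int_coeff p f k).choose_spec

noncomputable def aZ (k : ℕ) : LL p →ₗ[ℤ] ℤ where
  toFun := aZfun p k
  map_add' f g := by
    have h : ((aZfun p k (f + g) : ℤ) : ℂ) = ((aZfun p k f + aZfun p k g : ℤ) : ℂ) := by
      rw [Int.cast_add, ← aZfun_spec, ← aZfun_spec, ← aZfun_spec]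
      exact Fermat.Agent.S49.qc_add f.1 g.1 k
    exact_mod_cast h
  map_smul' m f := by
    have h : ((aZfun p k (m • f) : ℤ) : ℂ) = ((m * aZfun p k f : ℤ) : ℂ) := by
      rw [Int.cast_mul, ← aZfun_spec, ← aZfun_spec]
      have h2 : ((m • f : LL p) : CuspForm (Gamma0 p) 2) = (m : ℂ) • (f : CuspForm (Gamma0 p) 2) := by
        rw [Submodule.coe_smul]
        exact (Int.cast_smul_eq_zsmul ℂ m _).symm
      rw [h2]
      exact Fermat.Agent.S49.qc_smul _ f.1 k
    simpa using (by exact_mod_cast h : aZfun p k (m • f) = m * aZfun p k f)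

theorem aZ_spec (k : ℕ) (f : LL p) :
    qCoeff ⇑(f : CuspForm (Gamma0 p) 2) k = (aZ p k f : ℂ) := aZfun_spec p k f

theorem aZ_zero (f : LL p) : aZ p 0 f = 0 := by
  have h := aZ_spec p 0 f
  rw [Fermat.Agent.S49.qc_zero] at h
  exact_mod_cast h.symm

theorem LL_ext (f : LL p) (h : ∀ k, 1 ≤ k → aZ p k f = 0) : f = 0 := by
  apply Subtype.ext
  apply Fermat.Agent.S49.qc_ext
  intro n
  rw [aZ_spec]
  rcases Nat.eq_zero_or_pos n with rfl | hn
  · rw [aZ_zero]; simp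
  · rw [h n hn]; simp

/-! ### the generators -/

noncomputable def gen (ℓ : Nat.Primes) : TT p := piHom p (heckeGen ℓ)

theorem aZ_gen_of_ne (ℓ : Nat.Primes) (h : (ℓ : ℕ) ≠ p) (f : LL p) (k : ℕ) :
    aZ p k ((gen p ℓ).1 f) =
      aZ p (ℓ * k) f + (ℓ : ℤ) * (if (ℓ : ℕ) ∣ k then aZ p (k / ℓ) f else 0) := by
  have hnd : ¬ (ℓ : ℕ) ∣ p := fun hd =>
    h ((Nat.prime_dvd_prime_iff_eq ℓ.2 (Fact.out : p.Prime)).mp hd)
  have h1 : (((gen p ℓ).1 f : LL p) : CuspForm (Gamma0 p) 2) = heckeTLin 2 ℓ.2 hnd f.1 := by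
    unfold gen piHom
    rw [RingHom.comp_apply, heckeEvalForms_heckeGen_of_not_dvd hnd]
    rfl
  have h2 := aZ_spec p k ((gen p ℓ).1 f)
  rw [h1, Fermat.Agent.S49.qc_T, aZ_spec] at h2
  split_ifs at h2 ⊢ with hd
  · rw [aZ_spec] at h2
    exact_mod_cast h2.symm
  · exact_mod_cast h2.symm

theorem aZ_gen_self (f : LL p) (k : ℕ) :
    aZ p k ((gen p ⟨p, Fact.out⟩).1 f) = aZ p (p * k) f := by
  have hd : ((⟨p, Fact.out⟩ : Nat.Primes) : ℕ) ∣ p := dvd_rfl
  have h1 : (((gen p ⟨p, Fact.out⟩).1 f : LL p) : CuspForm (Gamma0 p) 2) =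
      heckeULin 2 (dvd_refl p) f.1 := by
    unfold gen piHom
    rw [RingHom.comp_apply, heckeEvalForms_heckeGen_of_dvd hd]
    rfl
  have h2 := aZ_spec p k ((gen p ⟨p, Fact.out⟩).1 f)
  rw [h1, Fermat.Agent.S49.qc_U (Fact.out : p.Prime), aZ_spec] at h2
  exact_mod_cast h2.symm


/-! ### the basic induction -/

/-- Hecke recursion: the coefficients `a_k (t g)` are determined modulo `M` by the `a_1 (t g)`. -/
theorem coeff_induction (M : ℤ) (g : LL p) (B : TT p → ℕ → ℤ)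
    (b1 : ∀ t : TT p, M ∣ aZ p 1 (t.1 g) - B t 1)
    (bT : ∀ (ℓ : Nat.Primes), (ℓ : ℕ) ≠ p → ∀ (t : TT p) (m : ℕ), 1 ≤ m →
      M ∣ B t (ℓ * m) - (B (gen p ℓ * t) m - (ℓ : ℤ) * (if (ℓ : ℕ) ∣ m then B t (m / ℓ) else 0)))
    (bU : ∀ (t : TT p) (m : ℕ), 1 ≤ m → M ∣ B t (p * m) - B (gen p ⟨p, Fact.out⟩ * t) m) :
    ∀ k : ℕ, 1 ≤ k → ∀ t : TT p, M ∣ aZ p k (t.1 g) - B t k := by
  intro k
  induction k using Nat.strong_induction_on with
  | _ k ih =>
    intro hk t
    rcases Nat.eq_or_lt_of_le hk with rfl | hk1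
    · exact b1 t
    · have hne : k ≠ 1 := hk1.ne'
      have hq : (Nat.minFac k).Prime := Nat.minFac_prime hne
      obtain ⟨m, hm⟩ := Nat.minFac_dvd k
      have hmpos : 1 ≤ m := by
        rcases Nat.eq_zero_or_pos m with rfl | hm0
        · omega
        · exact hm0
      have hmlt : m < k := by
        calc m = 1 * m := (one_mul m).symm
          _ < k.minFac * m := Nat.mul_lt_mul_of_pos_right hq.one_lt hmpos
          _ = k := hm.symm
      by_cases hqp : k.minFac = p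
      · -- the `U_p` step
        have h1 := aZ_gen_self p (t.1 g) m
        have h2 := ih m hmlt hmpos (gen p ⟨p, Fact.out⟩ * t)
        have h3 := bU t m hmpos
        have h4 : ((gen p ⟨p, Fact.out⟩ * t : TT p)).1 g = (gen p ⟨p, Fact.out⟩).1 (t.1 g) := rfl
        rw [h4, h1] at h2
        have hk' : k = p * m := by rw [← hqp]; exact hm
        rw [hk']
        have := dvd_sub h2 h3
        have e : aZ p (p * m) (t.1 g) - B t (p * m) =
            (aZ p (p * m) (t.1 g) - B (gen p ⟨p, Fact.out⟩ * t) m) -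
              (B t (p * m) - B (gen p ⟨p, Fact.out⟩ * t) m) := by ring
        rw [e]; exact this
      · set ℓ : Nat.Primes := ⟨k.minFac, hq⟩ with hℓ
        have hℓk : ((ℓ : ℕ)) = k.minFac := rfl
        have h1 := aZ_gen_of_ne p ℓ hqp (t.1 g) m
        have h2 := ih m hmlt hmpos (gen p ℓ * t)
        have h3 := bT ℓ hqp t m hmpos
        have h4 : ((gen p ℓ * t : TT p)).1 g = (gen p ℓ).1 (t.1 g) := rfl
        rw [h4, h1] at h2
        have hk' : k = (ℓ : ℕ) * m := hm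
        rw [hk']
        by_cases hd : (ℓ : ℕ) ∣ m
        · rw [if_pos hd] at h2 h3
          have h5 : 1 ≤ m / (ℓ : ℕ) := Nat.div_pos (Nat.le_of_dvd hmpos hd) ℓ.2.pos
          have h6 : m / (ℓ : ℕ) < k := lt_of_le_of_lt (Nat.div_le_self _ _) hmlt
          have h7 := ih _ h6 h5 t
          have e : aZ p (ℓ * m) (t.1 g) - B t (ℓ * m) =
              (aZ p (ℓ * m) (t.1 g) + (ℓ : ℤ) * aZ p (m / ℓ) (t.1 g) - B (gen p ℓ * t) m)
              - (B t (ℓ * m) - (B (gen p ℓ * t) m - (ℓ : ℤ) * B t (m / ℓ)))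
              - (ℓ : ℤ) * (aZ p (m / ℓ) (t.1 g) - B t (m / ℓ)) := by ring
          rw [e]
          exact dvd_sub (dvd_sub h2 h3) (Dvd.dvd.mul_left h7 _)
        · rw [if_neg hd] at h2 h3
          have e : aZ p (ℓ * m) (t.1 g) - B t (ℓ * m) =
              (aZ p (ℓ * m) (t.1 g) + (ℓ : ℤ) * 0 - B (gen p ℓ * t) m)
              - (B t (ℓ * m) - (B (gen p ℓ * t) m - (ℓ : ℤ) * 0)) := by ring
          rw [e]
          exact dvd_sub h2 h3

/-- special case `B = 0`. -/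
theorem coeff_induction_zero (M : ℤ) (g : LL p) (b1 : ∀ t : TT p, M ∣ aZ p 1 (t.1 g)) :
    ∀ k : ℕ, 1 ≤ k → ∀ t : TT p, M ∣ aZ p k (t.1 g) := by
  intro k hk t
  have := coeff_induction p M g (fun _ _ => 0) (by simpa using b1) (by simp) (by simp) k hk t
  simpa using this

/-! ### Eisenstein sequences -/

/-- The formal Hecke relations of the sequence `σ'(k) = ∑_{d ∣ k, p ∤ d} d`. -/
structure IsEisSeq (s : ℕ → ℤ) : Prop where
  one : s 1 = 1
  mulT : ∀ ℓ : ℕ, ℓ.Prime → ℓ ≠ p → ∀ k : ℕ,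
    s (ℓ * k) + (ℓ : ℤ) * (if ℓ ∣ k then s (k / ℓ) else 0) = (1 + (ℓ : ℤ)) * s k
  mulU : ∀ k : ℕ, s (p * k) = s k

theorem eisEval_heckeGen (ℓ : Nat.Primes) : eisEval p (heckeGen ℓ) = eisensteinSystem p ℓ :=
  aeval_heckeGen _ ℓ

theorem eisensteinSystem_of_ne (ℓ : Nat.Primes) (h : (ℓ : ℕ) ≠ p) :
    eisensteinSystem p ℓ = 1 + ((ℓ : ℕ) : ℤ) :=
  eisensteinSystem_of_not_dvd fun hd =>
    h ((Nat.prime_dvd_prime_iff_eq ℓ.2 (Fact.out : p.Prime)).mp hd)

theorem eisensteinSystem_self : eisensteinSystem p ⟨p, Fact.out⟩ = 1 :=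
  eisensteinSystem_of_dvd (dvd_refl p)

variable {p} in
/-- one Hecke step preserves Eisenstein congruences -/
theorem eisCong_gen {s : ℕ → ℤ} (hs : IsEisSeq p s) (M c : ℤ) (g : LL p)
    (hg : ∀ k, 1 ≤ k → M ∣ aZ p k g - c * s k) (ℓ : Nat.Primes) :
    ∀ k, 1 ≤ k → M ∣ aZ p k ((gen p ℓ).1 g) - (eisensteinSystem p ℓ * c) * s k := by
  intro k hk
  by_cases hℓ : (ℓ : ℕ) = p
  · have hℓ' : ℓ = ⟨p, Fact.out⟩ := Subtype.ext hℓ
    subst hℓ'
    rw [aZ_gen_self, eisensteinSystem_self, one_mul, ← hs.mulU k]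
    exact hg _ (Nat.mul_pos (Fact.out : p.Prime).pos hk)
  · rw [aZ_gen_of_ne p ℓ hℓ, eisensteinSystem_of_ne p ℓ hℓ]
    have h1 := hg (ℓ * k) (Nat.mul_pos ℓ.2.pos hk)
    have h2 := hs.mulT ℓ ℓ.2 hℓ k
    by_cases hd : (ℓ : ℕ) ∣ k
    · rw [if_pos hd] at h2 ⊢
      have h3 := hg (k / ℓ) (Nat.div_pos (Nat.le_of_dvd hk hd) ℓ.2.pos)
      have e : aZ p (ℓ * k) g + (ℓ : ℤ) * aZ p (k / ℓ) g - (1 + ((ℓ : ℕ) : ℤ)) * c * s k =
          (aZ p (ℓ * k) g - c * s (ℓ * k)) + (ℓ : ℤ) * (aZ p (k / ℓ) g - c * s (k / ℓ)) := by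
        linear_combination c * h2
      rw [e]
      exact dvd_add h1 (Dvd.dvd.mul_left h3 _)
    · rw [if_neg hd] at h2 ⊢
      have e : aZ p (ℓ * k) g + (ℓ : ℤ) * 0 - (1 + ((ℓ : ℕ) : ℤ)) * c * s k =
          (aZ p (ℓ * k) g - c * s (ℓ * k)) := by
        linear_combination c * h2
      rw [e]
      exact h1

variable {p} in
theorem eisCong_piHom {s : ℕ → ℤ} (hs : IsEisSeq p s) (M : ℤ) (P : HeckeAlg) :
    ∀ (c : ℤ) (g : LL p), (∀ k, 1 ≤ k → M ∣ aZ p k g - c * s k) →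
      ∀ k, 1 ≤ k → M ∣ aZ p k ((piHom p P).1 g) - (eisEval p P * c) * s k := by
  induction P using MvPolynomial.induction_on with
  | C a =>
    intro c g hg k hk
    have h1 : (piHom p (MvPolynomial.C a)).1 g = a • g := by
      rw [piHom_C]
      simp
    have h2 : eisEval p (MvPolynomial.C a) = a := by simp [eisEval]
    rw [h1, h2, map_smul, smul_eq_mul]
    have e : a * aZ p k g - a * c * s k = a * (aZ p k g - c * s k) := by ring
    rw [e]
    exact Dvd.dvd.mul_left (hg k hk) _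
  | add P Q hP hQ =>
    intro c g hg k hk
    have h1 : (piHom p (P + Q)).1 g = (piHom p P).1 g + (piHom p Q).1 g := by
      rw [map_add]; rfl
    rw [h1, map_add, map_add]
    have e : aZ p k ((piHom p P).1 g) + aZ p k ((piHom p Q).1 g) -
        (eisEval p P + eisEval p Q) * c * s k =
        (aZ p k ((piHom p P).1 g) - eisEval p P * c * s k) +
        (aZ p k ((piHom p Q).1 g) - eisEval p Q * c * s k) := by ring
    rw [e]
    exact dvd_add (hP c g hg k hk) (hQ c g hg k hk)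
  | mul_X P ℓ hP =>
    intro c g hg k hk
    have h1 : (piHom p (P * MvPolynomial.X ℓ)).1 g = (piHom p P).1 ((gen p ℓ).1 g) := by
      rw [map_mul]; rfl
    have h2 : eisEval p (P * MvPolynomial.X ℓ) = eisEval p P * eisensteinSystem p ℓ := by
      rw [map_mul]
      congr 1
      exact eisEval_heckeGen p ℓ
    rw [h1, h2, mul_assoc (eisEval p P)]
    exact hP _ _ (eisCong_gen hs M c g hg ℓ) k hk

variable {p} in
/-- (0c) an Eisenstein congruence modulo `M` in the lattice forces `M ∣ x` for all integers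
`x` in the Eisenstein ideal. -/
theorem dvd_of_eisCong {s : ℕ → ℤ} (hs : IsEisSeq p s) (M x : ℤ) (f : LL p)
    (hf : ∀ k, 1 ≤ k → M ∣ aZ p k f - s k) (hx : (x : TT p) ∈ JJ p) : M ∣ x := by
  obtain ⟨P, hP0, hP⟩ := (mem_JJ_iff p _).mp hx
  have h1 := eisCong_piHom hs M P 1 f (by simpa using hf) 1 le_rfl
  rw [hP0, hP] at h1
  have h2 : ((x : TT p)).1 f = x • f := by simp
  rw [h2, map_smul, smul_eq_mul] at h1
  have h3 := hf 1 le_rfl
  rw [hs.one] at h3
  have e : x = (x * aZ p 1 f - 0 * 1 * s 1) - x * (aZ p 1 f - 1) := by ring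
  rw [e]
  exact dvd_sub h1 (Dvd.dvd.mul_left h3 _)


/-! ### the pairing `(t, f) ↦ a_1 (t f)` -/

noncomputable def pair : TT p →ₗ[ℤ] LL p →ₗ[ℤ] ℤ :=
  (LinearMap.llcomp ℤ (LL p) (LL p) ℤ (aZ p 1)) ∘ₗ (heckeLatticeAlgebra p ∅).val.toLinearMap

theorem pair_apply (t : TT p) (f : LL p) : pair p t f = aZ p 1 (t.1 f) := rfl

theorem eq_zero_of_pair_eq_zero (f : LL p) (h : ∀ t : TT p, aZ p 1 (t.1 f) = 0) : f = 0 := by
  apply LL_ext
  intro k hk
  have := coeff_induction_zero p 0 f (by simpa using h) k hk 1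
  simpa using this

theorem pair_flip_injective : Function.Injective (pair p).flip := by
  rw [injective_iff_map_eq_zero]
  intro f hf
  apply eq_zero_of_pair_eq_zero
  intro t
  have := LinearMap.congr_fun hf t
  simpa [pair_apply] using this

theorem pair_injective : Function.Injective (pair p) := by
  rw [injective_iff_map_eq_zero]
  intro t ht
  apply Subtype.ext
  apply LinearMap.ext
  intro f
  apply eq_zero_of_pair_eq_zero
  intro s
  have h1 : s.1 (t.1 f) = t.1 (s.1 f) := by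
    have : (s * t : TT p) = t * s := mul_comm s t
    exact congrArg (fun u : TT p => u.1 f) this
  rw [h1]
  have := LinearMap.congr_fun ht (s.1 f)
  simpa [pair_apply] using this

theorem finrank_LL_eq_finrank_TT : Module.finrank ℤ (LL p) = Module.finrank ℤ (TT p) := by
  have := intLattice.moduleFinite p
  have := intLattice.moduleFree p
  apply le_antisymm
  · have := LinearMap.finrank_le_finrank_of_injective (pair_flip_injective p)
    rwa [Module.finrank_linearMap, Module.finrank_self, mul_one] at this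
  · have := LinearMap.finrank_le_finrank_of_injective (pair_injective p)
    rwa [Module.finrank_linearMap, Module.finrank_self, mul_one] at this

/-- every functional on the Hecke algebra has a nonzero multiple represented by a form -/
theorem exists_smul_eq_pair (lam : TT p →ₗ[ℤ] ℤ) :
    ∃ (d : ℤ) (g : LL p), d ≠ 0 ∧ ∀ t : TT p, aZ p 1 (t.1 g) = d * lam t := by
  have := intLattice.moduleFinite p
  have := intLattice.moduleFree p
  set N := LinearMap.range (pair p).flip with hN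
  have h1 : Module.finrank ℤ N = Module.finrank ℤ (LL p) :=
    LinearMap.finrank_range_of_inj (pair_flip_injective p)
  have h2 := Submodule.finrank_quotient_add_finrank N
  rw [h1, Module.finrank_linearMap, Module.finrank_self, mul_one, finrank_LL_eq_finrank_TT] at h2
  have h3 : Module.finrank ℤ ((TT p →ₗ[ℤ] ℤ) ⧸ N) = 0 := by omega
  rw [Module.finrank_eq_zero_iff_isTorsion] at h3
  obtain ⟨d, hd⟩ := @h3 (Submodule.Quotient.mk lam)
  have hd' : (d : ℤ) • lam ∈ N := by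
    rw [← Submodule.Quotient.mk_eq_zero, Submodule.Quotient.mk_smul]
    exact hd
  obtain ⟨g, hg⟩ := hd'
  refine ⟨d, g, nonZeroDivisors.coe_ne_zero d, fun t => ?_⟩
  have := LinearMap.congr_fun hg t
  simpa [pair_apply] using this

/-- saturation of the lattice -/
theorem exists_eq_smul_of_dvd (d : ℤ) (hd : d ≠ 0) (g : LL p)
    (h : ∀ k, 1 ≤ k → d ∣ aZ p k g) : ∃ f : LL p, g = d • f := by
  have hdC : (d : ℂ) ≠ 0 := by exact_mod_cast hd
  have hmem : ((d : ℂ)⁻¹ • (g : CuspForm (Gamma0 p) 2)) ∈ intLattice p 2 := by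
    rw [Fermat.Agent.S49.mem_intLattice_iff]
    intro n
    rw [Fermat.Agent.S49.qc_smul, aZ_spec]
    rcases Nat.eq_zero_or_pos n with rfl | hn
    · exact ⟨0, by rw [aZ_zero]; simp⟩
    · obtain ⟨c, hc⟩ := h n hn
      refine ⟨c, ?_⟩
      rw [hc]
      push_cast
      field_simp
  refine ⟨⟨_, hmem⟩, ?_⟩
  apply Subtype.ext
  rw [Submodule.coe_smul]
  change (g : CuspForm (Gamma0 p) 2) = d • ((d : ℂ)⁻¹ • (g : CuspForm (Gamma0 p) 2))
  rw [← Int.cast_smul_eq_zsmul ℂ d, smul_smul, mul_inv_cancel₀ hdC, one_smul]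

/-- **Perfectness** of the pairing: every functional on the Hecke algebra is `t ↦ a_1 (t f)`. -/
theorem exists_eq_pair (lam : TT p →ₗ[ℤ] ℤ) :
    ∃ f : LL p, ∀ t : TT p, aZ p 1 (t.1 f) = lam t := by
  obtain ⟨d, g, hd, hg⟩ := exists_smul_eq_pair p lam
  have h1 : ∀ k, 1 ≤ k → d ∣ aZ p k g := by
    intro k hk
    have := coeff_induction_zero p d g (fun t => ⟨lam t, hg t⟩) k hk 1
    simpa using this
  obtain ⟨f, rfl⟩ := exists_eq_smul_of_dvd p d hd g h1
  refine ⟨f, fun t => ?_⟩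
  have := hg t
  rw [map_smul, map_smul, smul_eq_mul] at this
  exact mul_left_cancel₀ hd this


/-! ### (0d): existence of the Eisenstein congruence -/

theorem mk_piHom (P : HeckeAlg) :
    Ideal.Quotient.mk (JJ p) (piHom p P) = ((eisEval p P : ℤ) : TT p ⧸ JJ p) := by
  have h1 : piHom p P - ((eisEval p P : ℤ) : TT p) ∈ JJ p := by
    rw [← piHom_C, ← map_sub]
    exact Ideal.mem_map_of_mem _ (sub_C_mem p P)
  have h2 := (Ideal.Quotient.eq (I := JJ p)).mpr h1
  rw [h2]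
  simp

/-- the Eisenstein character modulo `M`. -/
theorem exists_eisChar (M : ℕ) (hM : ∀ x : ℤ, (x : TT p) ∈ JJ p → (M : ℤ) ∣ x) :
    ∃ χ : TT p →+* ZMod M, ∀ P : HeckeAlg, χ (piHom p P) = ((eisEval p P : ℤ) : ZMod M) := by
  have hker : RingHom.ker (Int.castRingHom (TT p ⧸ JJ p)) ≤ RingHom.ker (Int.castRingHom (ZMod M)) := by
    intro x hx
    rw [RingHom.mem_ker] at hx ⊢
    have h1 : (x : TT p) ∈ JJ p := by
      rw [← Ideal.Quotient.eq_zero_iff_mem]
      simpa using hx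
    simpa using (ZMod.intCast_zmod_eq_zero_iff_dvd x M).mpr (hM x h1)
  set ψ : TT p ⧸ JJ p →+* ZMod M :=
    RingHom.liftOfSurjective (Int.castRingHom (TT p ⧸ JJ p)) (intCast_surjective p)
      ⟨Int.castRingHom (ZMod M), hker⟩ with hψ
  have hψ' : ∀ x : ℤ, ψ ((x : ℤ) : TT p ⧸ JJ p) = (x : ZMod M) := by
    intro x
    have := RingHom.liftOfRightInverse_comp_apply (Int.castRingHom (TT p ⧸ JJ p)) _
      (Function.rightInverse_surjInv (intCast_surjective p)) ⟨Int.castRingHom (ZMod M), hker⟩ x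
    simpa using this
  refine ⟨ψ.comp (Ideal.Quotient.mk (JJ p)), fun P => ?_⟩
  rw [RingHom.comp_apply, mk_piHom, hψ']

variable {p} in
/-- (0d) if `M` divides all integers of the Eisenstein ideal, there is a form in the lattice
congruent to the Eisenstein sequence modulo `M`. -/
theorem exists_eisCong {s : ℕ → ℤ} (hs : IsEisSeq p s) (M : ℕ)
    (hM : ∀ x : ℤ, (x : TT p) ∈ JJ p → (M : ℤ) ∣ x) :
    ∃ f : LL p, ∀ k, 1 ≤ k → (M : ℤ) ∣ aZ p k f - s k := by
  obtain ⟨χ, hχ⟩ := exists_eisChar p M hM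
  obtain ⟨lam, hlam⟩ := Module.projective_lifting_property
    ((Int.castAddHom (ZMod M)).toIntLinearMap) (χ.toAddMonoidHom.toIntLinearMap)
    (fun y => by
      obtain ⟨x, hx⟩ := ZMod.intCast_surjective y
      exact ⟨x, by simp [hx]⟩)
  have hlam' : ∀ t : TT p, ((lam t : ℤ) : ZMod M) = χ t := by
    intro t
    have := LinearMap.congr_fun hlam t
    simpa using this
  have hgen : ∀ (ℓ : Nat.Primes) (t : TT p),
      (M : ℤ) ∣ lam (gen p ℓ * t) - eisensteinSystem p ℓ * lam t := by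
    intro ℓ t
    rw [← ZMod.intCast_zmod_eq_zero_iff_dvd]
    push_cast
    rw [hlam', hlam', map_mul, gen, hχ, eisEval_heckeGen, sub_self]
  have hone : (M : ℤ) ∣ lam 1 - 1 := by
    rw [← ZMod.intCast_zmod_eq_zero_iff_dvd]
    push_cast
    rw [hlam', map_one, sub_self]
  obtain ⟨f, hf⟩ := exists_eq_pair p lam
  refine ⟨f, fun k hk => ?_⟩
  have key := coeff_induction p (M : ℤ) f (fun t k => lam t * s k)
    (fun t => by simp [hf t, hs.one])
    (fun ℓ hℓ t m _ => by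
      have h1 := hgen ℓ t
      rw [eisensteinSystem_of_ne p ℓ hℓ] at h1
      have h2 := hs.mulT ℓ ℓ.2 hℓ m
      by_cases hd : (ℓ : ℕ) ∣ m
      · simp only [if_pos hd] at h2 ⊢
        have e : lam t * s (ℓ * m) - (lam (gen p ℓ * t) * s m - (ℓ : ℤ) * (lam t * s (m / ℓ))) =
            - s m * (lam (gen p ℓ * t) - (1 + ((ℓ : ℕ) : ℤ)) * lam t) := by
          linear_combination lam t * h2
        rw [e]
        exact Dvd.dvd.mul_left h1 _
      · simp only [if_neg hd] at h2 ⊢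
        have e : lam t * s (ℓ * m) - (lam (gen p ℓ * t) * s m - (ℓ : ℤ) * 0) =
            - s m * (lam (gen p ℓ * t) - (1 + ((ℓ : ℕ) : ℤ)) * lam t) := by
          linear_combination lam t * h2
        rw [e]
        exact Dvd.dvd.mul_left h1 _)
    (fun t m _ => by
      have h1 := hgen ⟨p, Fact.out⟩ t
      rw [eisensteinSystem_self, one_mul] at h1
      simp only [hs.mulU m]
      have e : lam t * s m - lam (gen p ⟨p, Fact.out⟩ * t) * s m =
          - s m * (lam (gen p ⟨p, Fact.out⟩ * t) - lam t) := by ring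
      rw [e]
      exact Dvd.dvd.mul_left h1 _)
    k hk 1
  have e : aZ p k f - s k = (aZ p k ((1 : TT p).1 f) - lam 1 * s k) + s k * (lam 1 - 1) := by
    have : (1 : TT p).1 f = f := rfl
    rw [this]; ring
  rw [e]
  exact dvd_add key (Dvd.dvd.mul_left hone _)


/-! ### interface with `sigmaP` and `EisCong` -/

theorem isEisSeq_sigmaP : IsEisSeq p (fun k => (sigmaP p k : ℤ)) where
  one := by simp [sigmaP_one (Fact.out : p.Prime)]
  mulT ℓ hℓ hne k := sigmaP_mul_prime (Fact.out : p.Prime) hℓ hne k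
  mulU k := by simp [sigmaP_mul_self (Fact.out : p.Prime) k]

variable {p} in
theorem mem_intLattice_of_EisCong {M : ℕ} {f : CuspForm (Gamma0 p) 2} (hf : EisCong p M f) :
    f ∈ intLattice p 2 := by
  rw [Fermat.Agent.S49.mem_intLattice_iff]
  intro n
  rcases Nat.eq_zero_or_pos n with rfl | hn
  · exact ⟨0, by rw [Fermat.Agent.S49.qc_zero]; simp⟩
  · obtain ⟨c, hc, -⟩ := hf n hn
    exact ⟨c, hc⟩

variable {p} in
theorem dvd_aZ_sub_of_EisCong {M : ℕ} {f : CuspForm (Gamma0 p) 2} (hf : EisCong p M f) :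
    ∀ k, 1 ≤ k → (M : ℤ) ∣ aZ p k ⟨f, mem_intLattice_of_EisCong hf⟩ - (sigmaP p k : ℤ) := by
  intro k hk
  obtain ⟨c, hc, hdvd⟩ := hf k hk
  have h1 : ((aZ p k ⟨f, mem_intLattice_of_EisCong hf⟩ : ℤ) : ℂ) = (c : ℂ) := by
    rw [← aZ_spec]
    exact hc
  have h2 : aZ p k ⟨f, mem_intLattice_of_EisCong hf⟩ = c := by exact_mod_cast h1
  rw [h2]
  exact hdvd

variable {p} in
/-- (0c) -/
theorem dvd_of_EisCong {M : ℕ} {f : CuspForm (Gamma0 p) 2} (hf : EisCong p M f) (x : ℤ)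
    (hx : (x : TT p) ∈ JJ p) : (M : ℤ) ∣ x :=
  dvd_of_eisCong (isEisSeq_sigmaP p) M x ⟨f, mem_intLattice_of_EisCong hf⟩ (dvd_aZ_sub_of_EisCong hf) hx

/-- (0d) -/
theorem exists_EisCong (M : ℕ) (hM : ∀ x : ℤ, (x : TT p) ∈ JJ p → (M : ℤ) ∣ x) :
    ∃ f : CuspForm (Gamma0 p) 2, EisCong p M f := by
  obtain ⟨f, hf⟩ := exists_eisCong (isEisSeq_sigmaP p) M hM
  exact ⟨f.1, fun k hk => ⟨aZ p k f, aZ_spec p k f, hf k hk⟩⟩

/-- There is a largest modulus (possibly `0`) of an Eisenstein congruence: the generator of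
`ℤ ∩ J`. -/
theorem exists_generator :
    ∃ m : ℕ, ∀ x : ℤ, (x : TT p) ∈ JJ p ↔ (m : ℤ) ∣ x := by
  set I : Ideal ℤ := RingHom.ker (Int.castRingHom (TT p ⧸ JJ p)) with hI
  have hprin : I.IsPrincipal := IsPrincipalIdealRing.principal I
  obtain ⟨a, ha⟩ := hprin
  refine ⟨a.natAbs, fun x => ?_⟩
  have h1 : (x : TT p) ∈ JJ p ↔ x ∈ I := by
    rw [hI, RingHom.mem_ker, ← Ideal.Quotient.eq_zero_iff_mem]
    simp
  rw [h1, ha, Int.natAbs_dvd]
  exact Submodule.mem_span_singleton.trans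
    ⟨fun ⟨c, hc⟩ => ⟨c, by rw [← hc, smul_eq_mul, mul_comm]⟩,
     fun ⟨c, hc⟩ => ⟨c, by rw [hc, smul_eq_mul, mul_comm]⟩⟩

/-- **Final reduction of S16.**  The cardinality of `𝕋 / I` is `n` as soon as
* (upper bound) every Eisenstein congruence modulus divides `n`;
* (lower bound) `n` divides every integer of the Eisenstein ideal. -/
theorem card_eq_of_upper_of_lower (n : ℕ)
    (upper : ∀ (M : ℕ) (f : CuspForm (Gamma0 p) 2), EisCong p M f → M ∣ n)
    (lower : ∀ x : ℤ, (x : TT p) ∈ JJ p → (n : ℤ) ∣ x) :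
    Nat.card (TT p ⧸ JJ p) = n := by
  obtain ⟨m, hm⟩ := exists_generator p
  obtain ⟨f, hf⟩ := exists_EisCong p m (fun x hx => (hm x).mp hx)
  have h1 : m ∣ n := upper m f hf
  have h2 : (n : ℤ) ∣ (m : ℤ) := lower m ((hm m).mpr dvd_rfl)
  have h3 : m = n := Nat.dvd_antisymm h1 (by exact_mod_cast h2)
  subst h3
  exact card_eq_of_mem_iff p m hm

/-- variant: the lower bound given by an Eisenstein congruence modulo `n`. -/
theorem card_eq_of_upper_of_EisCong (n : ℕ)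
    (upper : ∀ (M : ℕ) (f : CuspForm (Gamma0 p) 2), EisCong p M f → M ∣ n)
    (lower : ∃ f : CuspForm (Gamma0 p) 2, EisCong p n f) :
    Nat.card (TT p ⧸ JJ p) = n := by
  obtain ⟨f, hf⟩ := lower
  exact card_eq_of_upper_of_lower p n upper (fun x hx => dvd_of_EisCong hf x hx)

/-- The statement in the exact shape of S16. -/
theorem card_statement_of_upper_of_lower
    (upper : ∀ (M : ℕ) (f : CuspForm (Gamma0 p) 2), EisCong p M f → M ∣ eisensteinNumerator p)
    (lower : ∀ x : ℤ, (x : TT p) ∈ JJ p → (eisensteinNumerator p : ℤ) ∣ x) :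
    Nat.card (↥(heckeLatticeAlgebra p ∅) ⧸
        Ideal.map ((latticeRestrictHom p ∅).toRingHom.comp (heckeEvalForms p 2))
          (eisensteinIdeal p)) = eisensteinNumerator p :=
  card_eq_of_upper_of_lower p _ upper lower

end Fermat.Agent.S16.Part0
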