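import Mathlib
import Fermat.Agent.S16.Defs

set_option autoImplicit false

open UpperHalfPlane ModularForm CongruenceSubgroup ModularFormClass PowerSeries EisensteinSeries
open scoped MatrixGroups ModularForm

noncomputable section

namespace Fermat.Agent.S16

theorem coeff_s3 (n : ℕ) : s3.coeff n = ∑ d ∈ n.divisors, (d : ℤ) ^ 3 := by simp [s3]
theorem coeff_s5 (n : ℕ) : s5.coeff n = ∑ d ∈ n.divisors, (d : ℤ) ^ 5 := by simp [s5]
theorem coeff_zero_s3 : s3.coeff 0 = 0 := by simp [s3]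
theorem coeff_zero_s5 : s5.coeff 0 = 0 := by simp [s5]
theorem coeff_one_s3 : s3.coeff 1 = 1 := by simp [s3]
theorem coeff_one_s5 : s5.coeff 1 = 1 := by simp [s5]

theorem coeff_prime_s3 {p : ℕ} (hp : p.Prime) : s3.coeff p = 1 + (p : ℤ) ^ 3 := by
  rw [coeff_s3, hp.sum_divisors]
  simp [add_comm]

theorem qExpansion_E4_eq : qExpansion 1 E₄ = toC (1 + 240 * s3) := by
  rw [Fermat.Agent.S24.qExpansion_E₄]
  congr 1
  ext n
  have h240 : (240 : PowerSeries ℤ) = PowerSeries.C (240 : ℤ) := by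
    simp
  rw [ModularCurve.eisenstein4, PowerSeries.coeff_mk, map_add, h240, PowerSeries.coeff_C_mul,
    coeff_s3, PowerSeries.coeff_one]
  split_ifs with h
  · subst h; simp
  · simp

theorem qExpansion_E6_eq : qExpansion 1 E₆ = toC (1 - 504 * s5) := by
  rw [qExpansion_E₆]
  congr 1
  ext n
  have h504 : (504 : PowerSeries ℤ) = PowerSeries.C (504 : ℤ) := by
    simp
  rw [eis6, PowerSeries.coeff_mk, map_sub, h504, PowerSeries.coeff_C_mul,
    coeff_s5, PowerSeries.coeff_one]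
  split_ifs with h
  · subst h; simp
  · simp

theorem eis46_four_dvd (d : ℤ) : (4 : ℤ) ∣ 5 * d ^ 3 + 7 * d ^ 5 := by
  have h : ∀ r : ZMod 4, 5 * r ^ 3 + 7 * r ^ 5 = 0 := by decide
  have h2 := h (d : ZMod 4)
  have h3 : ((5 * d ^ 3 + 7 * d ^ 5 : ℤ) : ZMod 4) = 0 := by
    push_cast
    exact h2
  exact_mod_cast (ZMod.intCast_zmod_eq_zero_iff_dvd _ 4).mp h3

/-- `w = (5 s₃ + 7 s₅)/4` is integral, `w = 3 q + ...`. -/
theorem exists_w : ∃ w : PowerSeries ℤ, 5 * s3 + 7 * s5 = 4 * w ∧ w.coeff 0 = 0 ∧ w.coeff 1 = 3 := by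
  have h5 : (5 : PowerSeries ℤ) = PowerSeries.C (5 : ℤ) := by simp
  have h7 : (7 : PowerSeries ℤ) = PowerSeries.C (7 : ℤ) := by simp
  have h4 : (4 : PowerSeries ℤ) = PowerSeries.C (4 : ℤ) := by simp
  refine ⟨PowerSeries.mk fun n => (∑ d ∈ n.divisors, (5 * (d : ℤ) ^ 3 + 7 * (d : ℤ) ^ 5)) / 4,
    ?_, by simp, by simp⟩
  ext n
  have hd : (4 : ℤ) ∣ ∑ d ∈ n.divisors, (5 * (d : ℤ) ^ 3 + 7 * (d : ℤ) ^ 5) :=
    Finset.dvd_sum fun d _ => eis46_four_dvd (d : ℤ)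
  rw [map_add, h5, h7, h4, PowerSeries.coeff_C_mul, PowerSeries.coeff_C_mul,
    PowerSeries.coeff_C_mul, coeff_s3, coeff_s5, PowerSeries.coeff_mk,
    Int.mul_ediv_cancel' hd, Finset.sum_add_distrib,
    Finset.mul_sum, Finset.mul_sum]

/-- every level one form of weight 4 is a multiple of `E₄`. -/
theorem weight_four_eq (F : ModularForm 𝒮ℒ 4) :
    qExpansion 1 F = (qExpansion 1 F).coeff 0 • toC (1 + 240 * s3) := by
  obtain ⟨c, hc⟩ : ∃ c, c • E₄ = F :=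
    (finrank_eq_one_iff_of_nonzero' E₄ (E_ne_zero _ ⟨2, rfl⟩)).mp
      (Module.rank_eq_one_iff_finrank_eq_one.mp levelOne_weight_four_rank_one) _
  have h1 : qExpansion 1 F = c • qExpansion 1 E₄ := by
    rw [← ModularForm.qExpansion_smul one_pos one_mem_strictPeriods_SL c E₄,
      show (c • E₄ : ℍ → ℂ) = F from congrArg DFunLike.coe hc]
  have h2 : (qExpansion 1 F).coeff 0 = c := by
    rw [h1, PowerSeries.coeff_smul, E_qExpansion_coeff_zero _ ⟨2, rfl⟩, smul_eq_mul, mul_one]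
  rw [h2, h1, qExpansion_E4_eq]

end Fermat.Agent.S16
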