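import Mathlib
import Fermat.Agent.S16.Defs

set_option autoImplicit false
set_option linter.unusedSectionVars false

open UpperHalfPlane ModularForm CongruenceSubgroup ModularFormClass PowerSeries EisensteinSeries
open scoped MatrixGroups ModularForm Manifold Topology

noncomputable section

namespace Fermat.Agent.S16

variable {p : ℕ} [NeZero p] {k : ℤ}

open Matrix.SpecialLinearGroup (mapGL)

/-- `SL₂(ℤ)` as the subgroup `𝒮ℒ` of `GL₂(ℝ)`. -/
def toSL (g : SL(2, ℤ)) : 𝒮ℒ := ⟨mapGL ℝ g, ⟨g, rfl⟩⟩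

theorem toSL_surjective : Function.Surjective toSL := by
  rintro ⟨_, g, rfl⟩
  exact ⟨g, rfl⟩

theorem mk_toSL_eq_iff (g g' : SL(2, ℤ)) :
    (QuotientGroup.mk (toSL g) : 𝒮ℒ ⧸ ((Gamma0 p).map (mapGL ℝ)).subgroupOf 𝒮ℒ)
      = QuotientGroup.mk (toSL g') ↔ g⁻¹ * g' ∈ Gamma0 p := by
  rw [QuotientGroup.eq, Subgroup.mem_subgroupOf]
  have h : (((toSL g)⁻¹ * toSL g' : 𝒮ℒ) : GL (Fin 2) ℝ) = mapGL ℝ (g⁻¹ * g') := by
    simp [toSL]
  rw [h]
  exact Subgroup.mem_map_iff_mem Matrix.SpecialLinearGroup.mapGL_injective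

/-- the representatives. -/
def cosetRep (p : ℕ) : Option (Fin p) → SL(2, ℤ)
  | none => 1
  | some j => (ModularGroup.S * ModularGroup.T ^ (j : ℕ))⁻¹

theorem coe_S_mul_T_pow (n : ℕ) :
    ((ModularGroup.S * ModularGroup.T ^ n : SL(2, ℤ)) : Matrix (Fin 2) (Fin 2) ℤ)
      = !![0, -1; 1, (n : ℤ)] := by
  rw [← zpow_natCast, Matrix.SpecialLinearGroup.coe_mul, ModularGroup.coe_T_zpow, ModularGroup.coe_S]
  ext i j
  fin_cases i <;> fin_cases j <;> simp [Matrix.mul_apply, Fin.sum_univ_two]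

theorem S_mul_T_pow_mul_apply (n : ℕ) (γ : SL(2, ℤ)) :
    (ModularGroup.S * ModularGroup.T ^ n * γ) 1 0 = γ 0 0 + n * γ 1 0 := by
  rw [Matrix.SpecialLinearGroup.coe_mul, coe_S_mul_T_pow]
  simp [Matrix.mul_apply, Fin.sum_univ_two]

theorem S_mul_T_pow_notMem (hp : p.Prime) (n : ℕ) :
    ModularGroup.S * ModularGroup.T ^ n ∉ Gamma0 p := by
  rw [Gamma0_mem, coe_S_mul_T_pow]
  have : Fact (1 < p) := ⟨hp.one_lt⟩
  simp

theorem S_T_mul_inv_apply (i j : ℕ) :
    (ModularGroup.S * ModularGroup.T ^ i * (ModularGroup.S * ModularGroup.T ^ j)⁻¹) 1 0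
      = (j : ℤ) - i := by
  have h := coe_S_mul_T_pow j
  have h00 : (ModularGroup.S * ModularGroup.T ^ j)⁻¹ 0 0 = (j : ℤ) := by
    rw [Matrix.SpecialLinearGroup.SL2_inv_expl]
    change (ModularGroup.S * ModularGroup.T ^ j : SL(2, ℤ)) 1 1 = _
    rw [h]; rfl
  have h10 : (ModularGroup.S * ModularGroup.T ^ j)⁻¹ 1 0 = -1 := by
    rw [Matrix.SpecialLinearGroup.SL2_inv_expl]
    change -(ModularGroup.S * ModularGroup.T ^ j : SL(2, ℤ)) 1 0 = _
    rw [h]; rfl
  rw [S_mul_T_pow_mul_apply, h00, h10]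
  ring

/-- the map from the explicit index set to the coset space. -/
def cosetMap (p : ℕ) (x : Option (Fin p)) : 𝒮ℒ ⧸ ((Gamma0 p).map (mapGL ℝ)).subgroupOf 𝒮ℒ :=
  QuotientGroup.mk (toSL (cosetRep p x))

theorem cosetMap_injective (hp : p.Prime) : Function.Injective (cosetMap p) := by
  intro x y hxy
  rw [cosetMap, cosetMap, mk_toSL_eq_iff] at hxy
  rcases x with _ | i <;> rcases y with _ | j
  · rfl
  · exfalso
    simp only [cosetRep, inv_one, one_mul] at hxy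
    exact S_mul_T_pow_notMem hp _ (by simpa using inv_mem hxy)
  · exfalso
    simp only [cosetRep, inv_inv, mul_one] at hxy
    exact S_mul_T_pow_notMem hp _ hxy
  · simp only [cosetRep, inv_inv] at hxy
    rw [Gamma0_mem, S_T_mul_inv_apply] at hxy
    have h1 : ((j : ℕ) : ZMod p) = ((i : ℕ) : ZMod p) := by
      push_cast at hxy
      exact sub_eq_zero.mp hxy
    rw [ZMod.natCast_eq_natCast_iff'] at h1
    rw [Nat.mod_eq_of_lt j.2, Nat.mod_eq_of_lt i.2] at h1
    exact congrArg some (Fin.ext h1.symm)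

theorem cosetMap_surjective (hp : p.Prime) : Function.Surjective (cosetMap p) := by
  have : Fact p.Prime := ⟨hp⟩
  intro q
  obtain ⟨h, rfl⟩ := QuotientGroup.mk_surjective q
  obtain ⟨γ, rfl⟩ := toSL_surjective h
  by_cases hc : ((γ 1 0 : ℤ) : ZMod p) = 0
  · refine ⟨none, ?_⟩
    rw [cosetMap, mk_toSL_eq_iff]
    simpa [cosetRep, Gamma0_mem] using hc
  · let t : ZMod p := -((γ 0 0 : ℤ) : ZMod p) * ((γ 1 0 : ℤ) : ZMod p)⁻¹
    refine ⟨some ⟨t.val, ZMod.val_lt t⟩, ?_⟩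
    rw [cosetMap, mk_toSL_eq_iff]
    simp only [cosetRep, inv_inv]
    rw [Gamma0_mem, S_mul_T_pow_mul_apply]
    push_cast
    rw [ZMod.natCast_zmod_val]
    simp only [t]
    field_simp
    ring

/-- the explicit parametrisation of the coset space. -/
def cosetEquiv (hp : p.Prime) :
    Option (Fin p) ≃ 𝒮ℒ ⧸ ((Gamma0 p).map (mapGL ℝ)).subgroupOf 𝒮ℒ :=
  Equiv.ofBijective (cosetMap p) ⟨cosetMap_injective hp, cosetMap_surjective hp⟩

/-- index of `Γ₀(p)` in `SL₂(ℤ)`, in the form needed for `ModularForm.norm`. -/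
theorem card_quotient (hp : p.Prime) :
    Nat.card (𝒮ℒ ⧸ ((Gamma0 p).map (mapGL ℝ)).subgroupOf 𝒮ℒ) = p + 1 := by
  rw [← Nat.card_congr (cosetEquiv hp)]
  simp

theorem quotientFunc_cosetMap (Y : ModularForm (Gamma0 p) k) (x : Option (Fin p)) :
    SlashInvariantForm.quotientFunc Y (cosetMap p x) = ⇑Y ∣[k] (cosetRep p x)⁻¹ := by
  rw [cosetMap]
  change SlashInvariantForm.quotientFunc Y ⟦toSL (cosetRep p x)⟧ = _
  rw [SlashInvariantForm.quotientFunc_mk, ModularForm.SL_slash, map_inv]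
  rfl

/-- Mathlib's trace to level one, with the explicit representatives `1, S T^j`. -/
theorem coe_trace_eq (hp : p.Prime) (Y : ModularForm (Gamma0 p) k) :
    ⇑(ModularForm.trace 𝒮ℒ Y) =
      ⇑Y + ∑ j ∈ Finset.range p, ⇑Y ∣[k] (ModularGroup.S * ModularGroup.T ^ j) := by
  rw [ModularForm.coe_trace]
  let _ := Fintype.ofFinite (𝒮ℒ ⧸ ((Gamma0 p).map (mapGL ℝ)).subgroupOf 𝒮ℒ)
  rw [← Equiv.sum_comp (cosetEquiv hp), Fintype.sum_option]
  have h0 : SlashInvariantForm.quotientFunc Y (cosetEquiv hp none) = ⇑Y := by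
    change SlashInvariantForm.quotientFunc Y (cosetMap p none) = _
    rw [quotientFunc_cosetMap]
    simp [cosetRep]
  have h1 : ∀ j : Fin p, SlashInvariantForm.quotientFunc Y (cosetEquiv hp (some j))
      = ⇑Y ∣[k] (ModularGroup.S * ModularGroup.T ^ (j : ℕ)) := by
    intro j
    change SlashInvariantForm.quotientFunc Y (cosetMap p (some j)) = _
    rw [quotientFunc_cosetMap]
    simp [cosetRep]
  rw [h0, Finset.sum_congr rfl fun j _ => h1 j,
    Fin.sum_univ_eq_sum_range (fun j => ⇑Y ∣[k] (ModularGroup.S * ModularGroup.T ^ j)) p]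

/-- Mathlib's norm to level one, with the explicit representatives `1, S T^j`. -/
theorem coe_norm_eq (hp : p.Prime) (Y : ModularForm (Gamma0 p) k) :
    ⇑(ModularForm.norm 𝒮ℒ Y) =
      ⇑Y * ∏ j ∈ Finset.range p, ⇑Y ∣[k] (ModularGroup.S * ModularGroup.T ^ j) := by
  rw [ModularForm.coe_norm]
  let _ := Fintype.ofFinite (𝒮ℒ ⧸ ((Gamma0 p).map (mapGL ℝ)).subgroupOf 𝒮ℒ)
  rw [← Equiv.prod_comp (cosetEquiv hp), Fintype.prod_option]
  have h0 : SlashInvariantForm.quotientFunc Y (cosetEquiv hp none) = ⇑Y := by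
    change SlashInvariantForm.quotientFunc Y (cosetMap p none) = _
    rw [quotientFunc_cosetMap]
    simp [cosetRep]
  have h1 : ∀ j : Fin p, SlashInvariantForm.quotientFunc Y (cosetEquiv hp (some j))
      = ⇑Y ∣[k] (ModularGroup.S * ModularGroup.T ^ (j : ℕ)) := by
    intro j
    change SlashInvariantForm.quotientFunc Y (cosetMap p (some j)) = _
    rw [quotientFunc_cosetMap]
    simp [cosetRep]
  rw [h0, Finset.prod_congr rfl fun j _ => h1 j,
    Fin.prod_univ_eq_prod_range (fun j => ⇑Y ∣[k] (ModularGroup.S * ModularGroup.T ^ j)) p]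

end Fermat.Agent.S16
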