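import Mathlib
import Fermat.Agent.S16.Defs
import Fermat.Prelude.Thm_UpperHalfPlane_qExpansion_coeff_nat_mul

set_option autoImplicit false
set_option linter.unusedVariables false

open UpperHalfPlane ModularForm CongruenceSubgroup ModularFormClass PowerSeries EisensteinSeries
open scoped MatrixGroups ModularForm Manifold Topology

noncomputable section

namespace Fermat.Agent.S16

/-- Holomorphic, `h`-periodic functions on the upper half plane, bounded at `i∞`. -/
structure NiceP (h : ℝ) (g : ℍ → ℂ) : Prop where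
  per : Function.Periodic (g ∘ ofComplex) h
  holo : MDiff g
  bdd : IsBoundedAtImInfty g

variable {p : ℕ} {k : ℤ} {h : ℝ} {f g : ℍ → ℂ}

theorem NiceP.analyticAt (hh : 0 < h) (hg : NiceP h g) : AnalyticAt ℂ (cuspFunction h g) 0 :=
  analyticAt_cuspFunction_zero hh hg.per hg.holo hg.bdd

theorem NiceP.mul (hf : NiceP h f) (hg : NiceP h g) : NiceP h (f * g) where
  per := hf.per.mul hg.per
  holo := hf.holo.mul hg.holo
  bdd := hf.bdd.mul hg.bdd

theorem NiceP.add (hf : NiceP h f) (hg : NiceP h g) : NiceP h (f + g) where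
  per := hf.per.add hg.per
  holo := hf.holo.add hg.holo
  bdd := hf.bdd.add hg.bdd

theorem NiceP.const (c : ℂ) : NiceP h (fun _ => c) where
  per := fun _ => rfl
  holo := mdifferentiable_const
  bdd := Filter.const_boundedAtFilter _ c

/-- periodicity in terms of the action of `ℝ` on `ℍ`. -/
theorem periodP_periodic_of_vadd (H : ∀ τ : ℍ, g (h +ᵥ τ) = g τ) :
    Function.Periodic (g ∘ ofComplex) h := by
  intro w
  by_cases! hw : 0 < w.im
  · have hw' : 0 < (w + h).im := by simp [hw]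
    simp only [Function.comp_apply, ofComplex_apply_of_im_pos hw', ofComplex_apply_of_im_pos hw]
    rw [← H ⟨w, hw⟩]
    congr 1
    ext
    simp [add_comm]
  · have hw' : (w + h).im ≤ 0 := by simpa using hw
    simp [ofComplex_apply_of_im_nonpos hw', ofComplex_apply_of_im_nonpos hw]

theorem periodP_vadd_of_periodic (H : Function.Periodic (g ∘ ofComplex) h) (τ : ℍ) :
    g (h +ᵥ τ) = g τ := by
  have h1 := H (τ : ℂ)
  simp only [Function.comp_apply, ofComplex_apply] at h1
  rw [← h1]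
  congr 1
  have h2 : ((τ : ℂ) + (h : ℂ)) = ((h +ᵥ τ : ℍ) : ℂ) := by
    rw [coe_vadd, add_comm]
  rw [h2, ofComplex_apply]

theorem NiceP.vadd (hf : NiceP h f) (τ : ℍ) : f (h +ᵥ τ) = f τ :=
  periodP_vadd_of_periodic hf.per τ

theorem NiceP.sum {ι : Type*} (s : Finset ι) (F : ι → ℍ → ℂ) (hF : ∀ i ∈ s, NiceP h (F i)) :
    NiceP h (∑ i ∈ s, F i) := by
  classical
  induction s using Finset.induction_on with
  | empty => exact NiceP.const (h := h) 0
  | insert a s ha ih =>
    rw [Finset.sum_insert ha]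
    exact (hF a (Finset.mem_insert_self a s)).add
      (ih fun i hi => hF i (Finset.mem_insert_of_mem hi))

theorem NiceP.qExpansion_sum (hh : 0 < h) {ι : Type*} (s : Finset ι) (F : ι → ℍ → ℂ)
    (hF : ∀ i ∈ s, NiceP h (F i)) :
    qExpansion h (∑ i ∈ s, F i) = ∑ i ∈ s, qExpansion h (F i) := by
  classical
  induction s using Finset.induction_on with
  | empty => simpa using qExpansion_zero h
  | insert a s ha ih =>
    have h1 := hF a (Finset.mem_insert_self a s)
    have h2 : ∀ i ∈ s, NiceP h (F i) := fun i hi => hF i (Finset.mem_insert_of_mem hi)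
    rw [Finset.sum_insert ha, Finset.sum_insert ha,
      qExpansion_add (h1.analyticAt hh) ((NiceP.sum s F h2).analyticAt hh), ih h2]

theorem NiceP.prod {ι : Type*} (s : Finset ι) (F : ι → ℍ → ℂ) (hF : ∀ i ∈ s, NiceP h (F i)) :
    NiceP h (∏ i ∈ s, F i) := by
  classical
  induction s using Finset.induction_on with
  | empty => exact NiceP.const (h := h) 1
  | insert a s ha ih =>
    rw [Finset.prod_insert ha]
    exact (hF a (Finset.mem_insert_self a s)).mul
      (ih fun i hi => hF i (Finset.mem_insert_of_mem hi))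

theorem NiceP.qExpansion_prod (hh : 0 < h) {ι : Type*} (s : Finset ι) (F : ι → ℍ → ℂ)
    (hF : ∀ i ∈ s, NiceP h (F i)) :
    qExpansion h (∏ i ∈ s, F i) = ∏ i ∈ s, qExpansion h (F i) := by
  classical
  induction s using Finset.induction_on with
  | empty => simpa using qExpansion_one h
  | insert a s ha ih =>
    have h1 := hF a (Finset.mem_insert_self a s)
    have h2 : ∀ i ∈ s, NiceP h (F i) := fun i hi => hF i (Finset.mem_insert_of_mem hi)
    rw [Finset.prod_insert ha, Finset.prod_insert ha,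
      qExpansion_mul (h1.analyticAt hh) ((NiceP.prod s F h2).analyticAt hh), ih h2]

theorem periodP_one_mem_strictPeriods (N : ℕ) :
    (1 : ℝ) ∈ ((Gamma0 N : Subgroup SL(2, ℤ)) : Subgroup (GL (Fin 2) ℝ)).strictPeriods := by
  simp

/-- a form of level `Γ₀(p)` is nice of period `1`. -/
theorem niceP_one (Y : ModularForm (Gamma0 p) k) : NiceP 1 ⇑Y := by
  have h1 := periodP_one_mem_strictPeriods p
  have : Fact (IsCusp OnePoint.infty ((Gamma0 p : Subgroup SL(2, ℤ)) : Subgroup (GL (Fin 2) ℝ))) :=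
    ⟨Subgroup.isCusp_of_mem_strictPeriods one_pos h1⟩
  exact ⟨SlashInvariantFormClass.periodic_comp_ofComplex Y h1, ModularFormClass.holo Y,
    ModularFormClass.bdd_at_infty Y⟩

/-- slashing with `T ^ j` is translation by `j`. -/
theorem periodP_slash_T_pow_apply (f : ℍ → ℂ) (k : ℤ) (j : ℕ) (τ : ℍ) :
    (f ∣[k] (ModularGroup.T ^ j)) τ = f ((j : ℝ) +ᵥ τ) := by
  rw [SL_slash_apply, ← zpow_natCast, modular_T_zpow_smul]
  have hd : denom ((ModularGroup.T ^ (j : ℤ) : SL(2, ℤ)) : GL (Fin 2) ℝ) τ = 1 := by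
    rw [ModularGroup.denom_apply, ModularGroup.coe_T_zpow]
    simp
  rw [hd]
  simp

/-- `Y ∣ S` is nice of period `p`. -/
theorem niceP_slash_S (hp : p ≠ 0) (Y : ModularForm (Gamma0 p) k) :
    NiceP p (⇑Y ∣[k] ModularGroup.S) := by
  have : NeZero p := ⟨hp⟩
  refine ⟨periodP_periodic_of_vadd fun τ => ?_, ?_, ModularFormClass.bdd_at_infty_slash Y _⟩
  · rw [← periodP_slash_T_pow_apply (⇑Y ∣[k] ModularGroup.S) k p τ, ← SlashAction.slash_mul]
    have hγ : ModularGroup.S * ModularGroup.T ^ p * ModularGroup.S⁻¹ ∈ Gamma0 p := by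
      rw [Gamma0_mem, ← zpow_natCast]
      have : (ModularGroup.S * ModularGroup.T ^ (p : ℤ) * ModularGroup.S⁻¹ : SL(2, ℤ)) 1 0
          = -(p : ℤ) := by
        rw [Matrix.SpecialLinearGroup.coe_mul, Matrix.SpecialLinearGroup.coe_mul,
          ModularGroup.coe_T_zpow, Matrix.SpecialLinearGroup.coe_inv, ModularGroup.coe_S]
        simp [Matrix.mul_apply, Fin.sum_univ_two, Matrix.adjugate_fin_two]
      rw [this]
      simp
    have hY : ⇑Y ∣[k] (ModularGroup.S * ModularGroup.T ^ p * ModularGroup.S⁻¹) = ⇑Y := by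
      rw [SL_slash]
      exact Y.slash_action_eq' _ (Subgroup.mem_map_of_mem _ hγ)
    have e : ModularGroup.S * ModularGroup.T ^ p
        = (ModularGroup.S * ModularGroup.T ^ p * ModularGroup.S⁻¹) * ModularGroup.S := by
      group
    rw [e, SlashAction.slash_mul, hY]
  · rw [SL_slash]
    exact (ModularFormClass.holo Y).slash k _

/-- period `1` implies period `p`, and the expansion is expanded. -/
theorem NiceP.of_one (hp : p ≠ 0) (hf : NiceP 1 f) : NiceP p f := by
  refine ⟨?_, hf.holo, hf.bdd⟩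
  have := hf.per.nat_mul p
  simpa using this

theorem NiceP.qExpansion_of_one (hp : p ≠ 0) (hf : NiceP 1 f) :
    qExpansion (p : ℝ) f = PowerSeries.expand p hp (qExpansion 1 f) := by
  ext n
  have h1 := UpperHalfPlane.qExpansion_coeff_nat_mul one_pos hf.per hf.holo hf.bdd
    (Nat.pos_of_ne_zero hp) n
  rw [mul_one] at h1
  rw [h1, PowerSeries.coeff_expand]

theorem periodP_slash_T_pow_eq (f : ℍ → ℂ) (k : ℤ) (j : ℕ) :
    f ∣[k] (ModularGroup.T ^ j) = fun τ => f ((j : ℝ) +ᵥ τ) :=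
  funext fun τ => periodP_slash_T_pow_apply f k j τ

/-- translation by `j`. -/
theorem NiceP.slash_T_pow (hf : NiceP h f) (j : ℕ) : NiceP h (f ∣[k] (ModularGroup.T ^ j)) := by
  refine ⟨periodP_periodic_of_vadd fun τ => ?_, ?_, ?_⟩
  · rw [periodP_slash_T_pow_apply, periodP_slash_T_pow_apply, vadd_comm, hf.vadd]
  · rw [SL_slash]
    exact hf.holo.slash k _
  · rw [periodP_slash_T_pow_eq]
    have ht : Filter.Tendsto (fun τ : ℍ => (j : ℝ) +ᵥ τ) atImInfty atImInfty := by
      rw [atImInfty, Filter.tendsto_comap_iff]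
      have : (im ∘ fun τ : ℍ => (j : ℝ) +ᵥ τ) = im := by
        funext τ
        simp
      rw [this]
      exact Filter.tendsto_comap
    exact hf.bdd.comp_tendsto ht

theorem periodP_qParam_vadd (p j : ℕ) (τ : ℍ) :
    Function.Periodic.qParam (p : ℝ) (((j : ℝ) +ᵥ τ : ℍ) : ℂ)
      = Complex.exp (2 * Real.pi * Complex.I * j / p)
        * Function.Periodic.qParam (p : ℝ) (τ : ℂ) := by
  rw [Function.Periodic.qParam, Function.Periodic.qParam, ← Complex.exp_add, coe_vadd]
  congr 1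
  push_cast
  ring

theorem NiceP.hasSum_slash_T_pow (hp : p ≠ 0) (hf : NiceP p f) (j : ℕ) (τ : ℍ) :
    HasSum (fun m : ℕ => (Complex.exp (2 * Real.pi * Complex.I * j / p) ^ m
      * (qExpansion (p : ℝ) f).coeff m) • Function.Periodic.qParam (p : ℝ) (τ : ℂ) ^ m)
      ((f ∣[k] (ModularGroup.T ^ j)) τ) := by
  have hp0 : (0 : ℝ) < p := by exact_mod_cast Nat.pos_of_ne_zero hp
  rw [periodP_slash_T_pow_apply]
  have h1 := hasSum_qExpansion hp0 hf.per hf.holo hf.bdd ((j : ℝ) +ᵥ τ)
  rw [periodP_qParam_vadd] at h1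
  convert h1 using 2 with m
  rw [mul_pow, smul_eq_mul, smul_eq_mul]
  ring

/-- uniqueness of `q`-expansion coefficients, for plain functions. -/
theorem periodP_coeff_unique {g : ℍ → ℂ} {c : ℕ → ℂ} (hh : 0 < h)
    (hg : AnalyticAt ℂ (cuspFunction h g) 0)
    (hs : ∀ τ : ℍ, HasSum (fun m => c m • Function.Periodic.qParam h (τ : ℂ) ^ m) (g τ)) (m : ℕ) :
    c m = (qExpansion h g).coeff m := by
  let _ : FunLike (ℍ → ℂ) ℍ ℂ := ⟨fun f => f, fun _ _ h => h⟩
  exact UpperHalfPlane.qExpansion_coeff_unique g hh hg hs m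

theorem NiceP.qExpansion_slash_T_pow (hp : p ≠ 0) (hf : NiceP p f) (j : ℕ) :
    qExpansion (p : ℝ) (f ∣[k] (ModularGroup.T ^ j)) =
      PowerSeries.rescale (Complex.exp (2 * Real.pi * Complex.I * j / p)) (qExpansion (p : ℝ) f) := by
  have hp0 : (0 : ℝ) < p := by exact_mod_cast Nat.pos_of_ne_zero hp
  ext m
  rw [PowerSeries.coeff_rescale]
  exact (periodP_coeff_unique hp0 ((hf.slash_T_pow (k := k) j).analyticAt hp0)
    (hf.hasSum_slash_T_pow (k := k) hp j) m).symm

/-- the sum of the `p` translates has period `1`, and its expansion is `p • U_p`. -/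
theorem NiceP.sum_slash_T_pow (hp : p ≠ 0) (hf : NiceP p f) :
    NiceP 1 (∑ j ∈ Finset.range p, f ∣[k] (ModularGroup.T ^ j)) := by
  have hs := NiceP.sum (Finset.range p) (fun j => f ∣[k] (ModularGroup.T ^ j))
    (fun j _ => hf.slash_T_pow (k := k) j)
  refine ⟨periodP_periodic_of_vadd fun τ => ?_, hs.holo, hs.bdd⟩
  simp only [Finset.sum_apply, periodP_slash_T_pow_apply]
  have e : ∀ j : ℕ, f ((j : ℝ) +ᵥ ((1 : ℝ) +ᵥ τ)) = f (((j + 1 : ℕ) : ℝ) +ᵥ τ) := by
    intro j
    rw [vadd_vadd]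
    push_cast
    rfl
  simp only [e]
  have H := (Finset.sum_range_succ' (fun j : ℕ => f ((j : ℝ) +ᵥ τ)) p).symm.trans
    (Finset.sum_range_succ (fun j : ℕ => f ((j : ℝ) +ᵥ τ)) p)
  have h0 : f (((0 : ℕ) : ℝ) +ᵥ τ) = f ((p : ℝ) +ᵥ τ) := by
    rw [hf.vadd]; simp
  rw [h0] at H
  exact add_right_cancel H

theorem NiceP.qExpansion_sum_slash_T_pow (hp : p ≠ 0) (hf : NiceP p f) :
    qExpansion 1 (∑ j ∈ Finset.range p, f ∣[k] (ModularGroup.T ^ j)) =
      (p : ℂ) • Uop p (qExpansion (p : ℝ) f) := by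
  have hp0 : (0 : ℝ) < p := by exact_mod_cast Nat.pos_of_ne_zero hp
  have hpc : (p : ℂ) ≠ 0 := by exact_mod_cast hp
  have h1 := (hf.sum_slash_T_pow (k := k) hp).qExpansion_of_one hp
  rw [NiceP.qExpansion_sum hp0 (Finset.range p) (fun j => f ∣[k] (ModularGroup.T ^ j))
    (fun j _ => hf.slash_T_pow (k := k) j)] at h1
  ext n
  rw [← PowerSeries.coeff_expand_mul p hp, ← h1, map_sum]
  simp only [hf.qExpansion_slash_T_pow hp, PowerSeries.coeff_rescale]
  have e : ∀ j : ℕ, Complex.exp (2 * Real.pi * Complex.I * j / p) ^ (p * n) = 1 := by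
    intro j
    rw [← Complex.exp_nat_mul]
    have : ((p * n : ℕ) : ℂ) * (2 * Real.pi * Complex.I * j / p)
        = ((n * j : ℕ) : ℂ) * (2 * Real.pi * Complex.I) := by
      push_cast
      field_simp
    rw [this]
    exact Complex.exp_nat_mul_two_pi_mul_I _
  simp only [e, one_mul, Finset.sum_const, Finset.card_range]
  simp [Uop]

end Fermat.Agent.S16
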