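import Mathlib
import Fermat.Agent.S16.Defs
import Fermat.Agent.S16.PeriodP
import Fermat.Agent.S16.Cosets

set_option autoImplicit false

open UpperHalfPlane ModularForm CongruenceSubgroup ModularFormClass PowerSeries EisensteinSeries
open scoped MatrixGroups ModularForm

noncomputable section

namespace Fermat.Agent.S16

variable {p : ℕ} {k : ℤ} {B A : PowerSeries ℂ}

theorem slash_S_mul_T_pow (f : ℍ → ℂ) (j : ℕ) :
    f ∣[k] (ModularGroup.S * ModularGroup.T ^ j) =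
      (f ∣[k] ModularGroup.S) ∣[k] (ModularGroup.T ^ j) :=
  SlashAction.slash_mul k _ _ f

theorem niceP_levelOne {w : ℤ} (F : ModularForm 𝒮ℒ w) : NiceP 1 ⇑F where
  per := SlashInvariantFormClass.periodic_comp_ofComplex F one_mem_strictPeriods_SL
  holo := ModularFormClass.holo F
  bdd := ModularFormClass.bdd_at_infty F

/-- **Trace principle**: `Y + ∑_j Y∣ST^j` is a level one form. -/
theorem exists_trace (hp : p.Prime) (h : IsPair p k B A) :
    ∃ F : ModularForm 𝒮ℒ k, qExpansion 1 F = B + (p : ℂ) • Uop p A := by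
  obtain ⟨Y, hB, hA⟩ := h
  have : NeZero p := ⟨hp.ne_zero⟩
  refine ⟨ModularForm.trace 𝒮ℒ Y, ?_⟩
  have hS : NiceP p (⇑Y ∣[k] ModularGroup.S) := niceP_slash_S hp.ne_zero Y
  rw [coe_trace_eq hp Y]
  simp only [slash_S_mul_T_pow]
  rw [qExpansion_add ((niceP_one Y).analyticAt one_pos)
    ((hS.sum_slash_T_pow hp.ne_zero).analyticAt one_pos),
    hS.qExpansion_sum_slash_T_pow hp.ne_zero, hB, hA]

/-- **Norm**: `Y * ∏_j Y∣ST^j` is a level one form of weight `k (p+1)`. -/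
theorem exists_norm (hp : p.Prime) (h : IsPair p k B A) :
    ∃ N : ModularForm 𝒮ℒ (k * (p + 1)),
      PowerSeries.expand p hp.ne_zero (qExpansion 1 N) =
        PowerSeries.expand p hp.ne_zero B *
          ∏ j ∈ Finset.range p,
            PowerSeries.rescale (Complex.exp (2 * Real.pi * Complex.I * j / p)) A := by
  obtain ⟨Y, hB, hA⟩ := h
  have : NeZero p := ⟨hp.ne_zero⟩
  have hpos : (0 : ℝ) < p := by exact_mod_cast hp.pos
  have hw : k * (Nat.card (𝒮ℒ ⧸ ((Gamma0 p).map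
      (Matrix.SpecialLinearGroup.mapGL ℝ)).subgroupOf 𝒮ℒ) : ℤ) = k * (p + 1) := by
    rw [card_quotient hp]; push_cast; ring
  refine ⟨ModularForm.mcast hw (ModularForm.norm 𝒮ℒ Y), ?_⟩
  have hS : NiceP p (⇑Y ∣[k] ModularGroup.S) := niceP_slash_S hp.ne_zero Y
  have hY1 : NiceP 1 ⇑Y := niceP_one Y
  have hcoe : (⇑(ModularForm.mcast hw (ModularForm.norm 𝒮ℒ Y)) : ℍ → ℂ) =
      ⇑Y * ∏ j ∈ Finset.range p, (⇑Y ∣[k] ModularGroup.S) ∣[k] (ModularGroup.T ^ j) := by
    have : (⇑(ModularForm.mcast hw (ModularForm.norm 𝒮ℒ Y)) : ℍ → ℂ) =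
        ⇑(ModularForm.norm 𝒮ℒ Y) := rfl
    rw [this, coe_norm_eq hp Y]
    simp only [slash_S_mul_T_pow]
  have hN1 : NiceP 1 (⇑(ModularForm.mcast hw (ModularForm.norm 𝒮ℒ Y)) : ℍ → ℂ) :=
    niceP_levelOne _
  rw [← hN1.qExpansion_of_one hp.ne_zero, hcoe,
    qExpansion_mul ((hY1.of_one hp.ne_zero).analyticAt hpos)
      ((NiceP.prod _ _ fun j _ => hS.slash_T_pow j).analyticAt hpos),
    hY1.qExpansion_of_one hp.ne_zero, hB,
    NiceP.qExpansion_prod hpos _ _ fun j _ => hS.slash_T_pow j]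
  congr 1
  refine Finset.prod_congr rfl fun j _ => ?_
  rw [hS.qExpansion_slash_T_pow hp.ne_zero, hA]

end Fermat.Agent.S16
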