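import Mathlib
import Fermat.Agent.S16.Defs
import Fermat.Agent.S16.Trace
import Fermat.Prelude.Def_ModularForm_HeckeOperatorForms
import Fermat.Prelude.Thm_ModularFormClass_qCoeff_heckeU

set_option autoImplicit false

open UpperHalfPlane ModularForm CongruenceSubgroup ModularFormClass PowerSeries EisensteinSeries
open scoped MatrixGroups ModularForm Pointwise

noncomputable section

namespace Fermat.Agent.S16

open Matrix.SpecialLinearGroup (mapGL)

variable {p : ℕ}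

theorem fricke_one_mem_strictPeriods (N : ℕ) :
    (1 : ℝ) ∈ ((Gamma0 N).map (mapGL ℝ)).strictPeriods := by
  simp

/-- `U_p G` is again a form. -/
theorem exists_Uop (hp : p.Prime) (G : ModularForm (Gamma0 p) 2) :
    ∃ G' : ModularForm (Gamma0 p) 2, qExpansion 1 G' = Uop p (qExpansion 1 G) := by
  have : NeZero p := ⟨hp.ne_zero⟩
  refine ⟨ModularForm.heckeULin 2 (dvd_refl p) G, ?_⟩
  ext n
  have h := ModularFormClass.qCoeff_heckeU G (fricke_one_mem_strictPeriods p) hp.ne_zero n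
  rw [coeff_Uop, mul_comm]
  exact h

/-- The Fricke matrix `W = S * diag(p,1) = [[0,-1],[p,0]]`. -/
def frickeW (p : ℕ) : GL (Fin 2) ℝ := mapGL ℝ ModularGroup.S * heckeDiagMatrix p

theorem exists_fricke_conj (hp : p ≠ 0) {γ : SL(2, ℤ)} (hγ : γ ∈ Gamma0 p) :
    ∃ δ ∈ Gamma0 p, frickeW p * mapGL ℝ γ = mapGL ℝ δ * frickeW p := by
  rw [Gamma0_mem, ZMod.intCast_zmod_eq_zero_iff_dvd] at hγ
  obtain ⟨c', hc'⟩ := hγ
  have hdet : γ 0 0 * γ 1 1 - γ 0 1 * γ 1 0 = 1 := by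
    have := γ.det_coe
    rwa [Matrix.det_fin_two] at this
  obtain ⟨δ, hδ⟩ : ∃ δ : SL(2, ℤ),
      (δ : Matrix (Fin 2) (Fin 2) ℤ) = !![γ 1 1, -c'; -(p * γ 0 1), γ 0 0] := by
    refine ⟨⟨!![γ 1 1, -c'; -(p * γ 0 1), γ 0 0], ?_⟩, rfl⟩
    rw [Matrix.det_fin_two_of]
    rw [hc'] at hdet
    linear_combination hdet
  refine ⟨δ, ?_, ?_⟩
  · rw [Gamma0_mem, ZMod.intCast_zmod_eq_zero_iff_dvd]
    have : δ 1 0 = -(p * γ 0 1) := by
      have := congrFun (congrFun hδ 1) 0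
      simpa using this
    rw [this]
    exact ⟨-γ 0 1, by ring⟩
  · apply Units.ext
    unfold frickeW
    simp only [Units.val_mul, val_heckeDiagMatrix hp]
    ext i j
    fin_cases i <;> fin_cases j <;>
      simp [Matrix.mul_apply, Fin.sum_univ_two, hc', hδ, ModularGroup.coe_S] <;> ring

open ConjAct in
theorem fricke_Gamma0_le_conj (hp : p ≠ 0) :
    (Gamma0 p).map (mapGL ℝ) ≤ toConjAct (frickeW p)⁻¹ • (Gamma0 p).map (mapGL ℝ) := by
  rintro _ ⟨γ, hγ, rfl⟩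
  obtain ⟨δ, hδ, h⟩ := exists_fricke_conj hp hγ
  rw [map_inv, Subgroup.mem_inv_pointwise_smul_iff, toConjAct_smul, h, mul_inv_cancel_right]
  exact ⟨δ, hδ, rfl⟩

/-- `G ∣ W` as a modular form on `Γ₀(p)`. -/
def fricke (hp : p ≠ 0) (G : ModularForm (Gamma0 p) 2) : ModularForm (Gamma0 p) 2 where
  toFun := ⇑G ∣[(2 : ℤ)] frickeW p
  slash_action_eq' γ hγ :=
    (ModularForm.translate G (frickeW p)).slash_action_eq' γ (fricke_Gamma0_le_conj hp hγ)
  holo' := (ModularForm.translate G (frickeW p)).holo'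
  bdd_at_cusps' hc :=
    (ModularForm.translate G (frickeW p)).bdd_at_cusps' (hc.mono (fricke_Gamma0_le_conj hp))

theorem coe_fricke (hp : p ≠ 0) (G : ModularForm (Gamma0 p) 2) :
    ⇑(fricke hp G) = ⇑G ∣[(2 : ℤ)] frickeW p := rfl

theorem fricke_apply (hp : p ≠ 0) (G : ModularForm (Gamma0 p) 2) (τ : ℍ) :
    fricke hp G τ = (p : ℂ) * (⇑G ∣[(2 : ℤ)] ModularGroup.S) (heckeDiagMatrix p • τ) := by
  rw [coe_fricke, frickeW, SlashAction.slash_mul, slash_heckeDiagMatrix_apply 2 hp,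
    show (2 : ℤ) - 1 = 1 by norm_num, zpow_one]
  rfl

theorem fricke_coeff_unique {h : ℝ} {f : ℍ → ℂ} {c : ℕ → ℂ} (hh : 0 < h)
    (hfanalytic : AnalyticAt ℂ (cuspFunction h f) 0)
    (hf : ∀ τ : ℍ, HasSum (fun m ↦ c m • Function.Periodic.qParam h τ ^ m) (f τ)) (m : ℕ) :
    c m = (qExpansion h f).coeff m := by
  have h1 := (hasFPowerSeriesOnBall_cuspFunction hh hfanalytic hf).hasFPowerSeriesAt
  have h2 := hfanalytic.hasFPowerSeriesAt
  have h3 := congr_arg (FormalMultilinearSeries.coeff · m) (h1.eq_formalMultilinearSeries h2)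
  simp only [FormalMultilinearSeries.coeff_ofScalars] at h3
  rw [h3, qExpansion_coeff]
  simp [div_eq_inv_mul]

theorem qExpansion_fricke (hp : p ≠ 0) (G : ModularForm (Gamma0 p) 2) :
    qExpansion 1 (fricke hp G) =
      (p : ℂ) • qExpansion (p : ℝ) (⇑G ∣[(2 : ℤ)] ModularGroup.S) := by
  have hpos : (0 : ℝ) < p := by exact_mod_cast Nat.pos_of_ne_zero hp
  have hpc : (p : ℂ) ≠ 0 := by exact_mod_cast hp
  have hn := niceP_slash_S hp G
  ext n
  have hsum : ∀ τ : ℍ, HasSum (fun m : ℕ =>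
      ((p : ℂ) * (qExpansion (p : ℝ) (⇑G ∣[(2 : ℤ)] ModularGroup.S)).coeff m) •
        Function.Periodic.qParam 1 τ ^ m) (fricke hp G τ) := by
    intro τ
    have h := hasSum_qExpansion hpos hn.per hn.holo hn.bdd (heckeDiagMatrix p • τ)
    rw [fricke_apply]
    have hq : Function.Periodic.qParam (p : ℝ) ((heckeDiagMatrix p • τ : ℍ) : ℂ) =
        Function.Periodic.qParam 1 (τ : ℂ) := by
      rw [coe_heckeDiagMatrix_smul hp]
      unfold Function.Periodic.qParam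
      congr 1
      push_cast
      field_simp
    rw [hq] at h
    have h2 := h.mul_left (p : ℂ)
    have hfun : (fun m : ℕ =>
        ((p : ℂ) * (qExpansion (p : ℝ) (⇑G ∣[(2 : ℤ)] ModularGroup.S)).coeff m) •
          Function.Periodic.qParam 1 (τ : ℂ) ^ m) = fun i => (p : ℂ) *
        ((qExpansion (p : ℝ) (⇑G ∣[(2 : ℤ)] ModularGroup.S)).coeff i •
          Function.Periodic.qParam 1 (τ : ℂ) ^ i) := by
      funext m
      simp only [smul_eq_mul, mul_assoc]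
    rw [hfun]
    exact h2
  rw [← ModularFormClass.qExpansion_coeff_unique one_pos (fricke_one_mem_strictPeriods p) hsum n]
  simp

theorem frickeW_mul_S (hp : p ≠ 0) :
    frickeW p * mapGL ℝ ModularGroup.S = mapGL ℝ (-1 : SL(2, ℤ)) * heckeMatrix p 0 := by
  apply Units.ext
  unfold frickeW
  simp only [Units.val_mul, val_heckeDiagMatrix hp, val_heckeMatrix hp]
  ext i j
  fin_cases i <;> fin_cases j <;>
    simp [Matrix.mul_apply, Fin.sum_univ_two, ModularGroup.coe_S]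

theorem fricke_slash_S (hp : p ≠ 0) (G : ModularForm (Gamma0 p) 2) :
    ⇑(fricke hp G) ∣[(2 : ℤ)] ModularGroup.S = ⇑G ∣[(2 : ℤ)] heckeMatrix p 0 := by
  change (⇑G ∣[(2 : ℤ)] frickeW p) ∣[(2 : ℤ)] mapGL ℝ ModularGroup.S = _
  rw [← SlashAction.slash_mul, frickeW_mul_S hp, SlashAction.slash_mul]
  congr 1
  apply SlashInvariantFormClass.slash_action_eq G
  refine ⟨-1, ?_, rfl⟩
  change (-1 : SL(2, ℤ)) ∈ Gamma0 p
  rw [Gamma0_mem]
  simp

theorem qExpansion_fricke_slash_S (hp : p ≠ 0) (G : ModularForm (Gamma0 p) 2) :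
    qExpansion (p : ℝ) (⇑(fricke hp G) ∣[(2 : ℤ)] ModularGroup.S) =
      (p : ℂ)⁻¹ • qExpansion 1 G := by
  have hpos : (0 : ℝ) < p := by exact_mod_cast Nat.pos_of_ne_zero hp
  have hpc : (p : ℂ) ≠ 0 := by exact_mod_cast hp
  have hn := niceP_slash_S hp (fricke hp G)
  have hG := niceP_one G
  ext n
  have hsum : ∀ τ : ℍ, HasSum (fun m : ℕ => ((p : ℂ)⁻¹ * (qExpansion 1 G).coeff m) •
        Function.Periodic.qParam (p : ℝ) τ ^ m)
      ((⇑(fricke hp G) ∣[(2 : ℤ)] ModularGroup.S) τ) := by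
    intro τ
    have h := hasSum_qExpansion one_pos hG.per hG.holo hG.bdd (heckeMatrix p 0 • τ)
    rw [fricke_slash_S, slash_heckeMatrix_apply 2 hp]
    have hq : Function.Periodic.qParam 1 ((heckeMatrix p 0 • τ : ℍ) : ℂ) =
        Function.Periodic.qParam (p : ℝ) (τ : ℂ) := by
      rw [coe_heckeMatrix_smul hp]
      unfold Function.Periodic.qParam
      congr 1
      push_cast
      field_simp
      ring
    rw [hq] at h
    have h2 := h.mul_left (p : ℂ)⁻¹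
    have hfun : (fun m : ℕ => ((p : ℂ)⁻¹ * (qExpansion 1 G).coeff m) •
          Function.Periodic.qParam (p : ℝ) (τ : ℂ) ^ m) = fun i => (p : ℂ)⁻¹ *
        ((qExpansion 1 G).coeff i • Function.Periodic.qParam (p : ℝ) (τ : ℂ) ^ i) := by
      funext m
      simp only [smul_eq_mul, mul_assoc]
    rw [hfun]
    exact h2
  rw [← fricke_coeff_unique hpos (hn.analyticAt hpos) hsum n]
  simp

theorem levelOne_weight_two_eq_zero (F : ModularForm 𝒮ℒ 2) : F = 0 :=
  rank_zero_iff_forall_zero.mp levelOne_weight_two_rank_zero F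

theorem Uop_smul (c : ℂ) (B : PowerSeries ℂ) : Uop p (c • B) = c • Uop p B := by
  ext n; simp

/-- the key relation: `p • A + U_p g = 0`. -/
theorem fricke_key (hp : p.Prime) (G : ModularForm (Gamma0 p) 2) :
    qExpansion (p : ℝ) (⇑G ∣[(2 : ℤ)] ModularGroup.S) =
      (-(p : ℂ)⁻¹) • Uop p (qExpansion 1 G) := by
  have hpc : (p : ℂ) ≠ 0 := by exact_mod_cast hp.ne_zero
  have hpair : IsPair p 2 ((p : ℂ) • qExpansion (p : ℝ) (⇑G ∣[(2 : ℤ)] ModularGroup.S))
      ((p : ℂ)⁻¹ • qExpansion 1 G) :=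
    ⟨fricke hp.ne_zero G, qExpansion_fricke hp.ne_zero G, qExpansion_fricke_slash_S hp.ne_zero G⟩
  obtain ⟨F, hF⟩ := exists_trace hp hpair
  rw [levelOne_weight_two_eq_zero F] at hF
  have h0 : qExpansion 1 (⇑(0 : ModularForm 𝒮ℒ 2)) = 0 := by
    rw [FunLike.coe_zero]; exact qExpansion_zero 1
  rw [h0, Uop_smul, smul_smul, mul_inv_cancel₀ hpc, one_smul] at hF
  have h1 : (p : ℂ) • qExpansion (p : ℝ) (⇑G ∣[(2 : ℤ)] ModularGroup.S) =
      -Uop p (qExpansion 1 G) := eq_neg_of_add_eq_zero_left hF.symm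
  calc qExpansion (p : ℝ) (⇑G ∣[(2 : ℤ)] ModularGroup.S)
      = (p : ℂ)⁻¹ • ((p : ℂ) • qExpansion (p : ℝ) (⇑G ∣[(2 : ℤ)] ModularGroup.S)) := by
        rw [smul_smul, inv_mul_cancel₀ hpc, one_smul]
    _ = (-(p : ℂ)⁻¹) • Uop p (qExpansion 1 G) := by rw [h1, smul_neg, _root_.neg_smul]

/-- **K1**: `G ∣ S = - p⁻¹ (U_p G)(z/p)` for `G ∈ M₂(Γ₀(p))`. -/
theorem isPair_weight_two (hp : p.Prime) (G : ModularForm (Gamma0 p) 2) :
    IsPair p 2 (qExpansion 1 G) ((-(p : ℂ)⁻¹) • Uop p (qExpansion 1 G)) :=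
  ⟨G, rfl, fricke_key hp G⟩

/-- `U_p² = 1` on `M₂(Γ₀(p))`. -/
theorem Uop_Uop_weight_two (hp : p.Prime) (G : ModularForm (Gamma0 p) 2) :
    Uop p (Uop p (qExpansion 1 G)) = qExpansion 1 G := by
  have hpc : (p : ℂ) ≠ 0 := by exact_mod_cast hp.ne_zero
  obtain ⟨F, hF⟩ := exists_trace hp (isPair_weight_two hp G)
  rw [levelOne_weight_two_eq_zero F] at hF
  have h0 : qExpansion 1 (⇑(0 : ModularForm 𝒮ℒ 2)) = 0 := by
    rw [FunLike.coe_zero]; exact qExpansion_zero 1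
  rw [h0, Uop_smul, smul_smul, mul_neg, mul_inv_cancel₀ hpc, _root_.neg_smul, one_smul] at hF
  exact (eq_of_sub_eq_zero (by rw [← sub_eq_add_neg] at hF; exact hF.symm)).symm

end Fermat.Agent.S16
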