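import Mathlib
import Fermat.Agent.S16.Defs
import Fermat.Agent.S16.PeriodP

set_option autoImplicit false

open UpperHalfPlane ModularForm CongruenceSubgroup ModularFormClass PowerSeries EisensteinSeries
open scoped MatrixGroups ModularForm

noncomputable section

namespace Fermat.Agent.S16

variable {p : ℕ} {k k₁ k₂ : ℤ} {B A B₁ A₁ B₂ A₂ : PowerSeries ℂ}

theorem IsPair.add [NeZero p] (h₁ : IsPair p k B₁ A₁) (h₂ : IsPair p k B₂ A₂) :
    IsPair p k (B₁ + B₂) (A₁ + A₂) := by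
  obtain ⟨Y₁, rfl, rfl⟩ := h₁
  obtain ⟨Y₂, rfl, rfl⟩ := h₂
  have hp : p ≠ 0 := NeZero.ne p
  have hp' : (0 : ℝ) < p := by exact_mod_cast Nat.pos_of_ne_zero hp
  refine ⟨Y₁ + Y₂, ?_, ?_⟩
  · rw [FunLike.coe_add]
    exact qExpansion_add ((niceP_one Y₁).analyticAt one_pos) ((niceP_one Y₂).analyticAt one_pos)
  · rw [FunLike.coe_add, SlashAction.add_slash]
    exact qExpansion_add ((niceP_slash_S hp Y₁).analyticAt hp') ((niceP_slash_S hp Y₂).analyticAt hp')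

theorem IsPair.smul [NeZero p] (c : ℂ) (h : IsPair p k B A) : IsPair p k (c • B) (c • A) := by
  obtain ⟨Y, rfl, rfl⟩ := h
  have hp : p ≠ 0 := NeZero.ne p
  have hp' : (0 : ℝ) < p := by exact_mod_cast Nat.pos_of_ne_zero hp
  refine ⟨c • Y, ?_, ?_⟩
  · rw [FunLike.coe_smul]
    exact qExpansion_smul ((niceP_one Y).analyticAt one_pos) c
  · rw [FunLike.coe_smul, ModularForm.SL_smul_slash]
    exact qExpansion_smul ((niceP_slash_S hp Y).analyticAt hp') c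

theorem IsPair.mul [NeZero p] (h₁ : IsPair p k₁ B₁ A₁) (h₂ : IsPair p k₂ B₂ A₂) :
    IsPair p (k₁ + k₂) (B₁ * B₂) (A₁ * A₂) := by
  obtain ⟨Y₁, rfl, rfl⟩ := h₁
  obtain ⟨Y₂, rfl, rfl⟩ := h₂
  have hp : p ≠ 0 := NeZero.ne p
  have hp' : (0 : ℝ) < p := by exact_mod_cast Nat.pos_of_ne_zero hp
  refine ⟨Y₁.mul Y₂, ?_, ?_⟩
  · rw [ModularForm.coe_mul]
    exact qExpansion_mul ((niceP_one Y₁).analyticAt one_pos) ((niceP_one Y₂).analyticAt one_pos)
  · rw [ModularForm.coe_mul, ModularForm.mul_slash_SL2]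
    exact qExpansion_mul ((niceP_slash_S hp Y₁).analyticAt hp') ((niceP_slash_S hp Y₂).analyticAt hp')

theorem IsPair.sub [NeZero p] (h₁ : IsPair p k B₁ A₁) (h₂ : IsPair p k B₂ A₂) :
    IsPair p k (B₁ - B₂) (A₁ - A₂) := by
  have h := h₁.add (h₂.smul (-1))
  simpa [sub_eq_add_neg] using h

/-- a level one form, seen in level `p`. -/
theorem isPair_levelOne (hp : p ≠ 0) (F : ModularForm 𝒮ℒ k) :
    IsPair p k (qExpansion 1 F) (PowerSeries.expand p hp (qExpansion 1 F)) := by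
  have hle : ((Gamma0 p : Subgroup SL(2, ℤ)) : Subgroup (GL (Fin 2) ℝ)) ≤ 𝒮ℒ := by
    rintro _ ⟨γ, -, rfl⟩
    exact ⟨γ, rfl⟩
  let Y : ModularForm (Gamma0 p) k :=
    { toFun := F
      slash_action_eq' := fun γ hγ => F.slash_action_eq' γ (hle hγ)
      holo' := F.holo'
      bdd_at_cusps' := fun hc => F.bdd_at_cusps' (hc.mono hle) }
  have hY : (⇑Y : ℍ → ℂ) = F := rfl
  refine ⟨Y, rfl, ?_⟩
  have hS : (⇑Y ∣[k] ModularGroup.S) = ⇑Y := by
    rw [hY]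
    exact F.slash_action_eq' _ ⟨ModularGroup.S, rfl⟩
  rw [hS]
  exact (niceP_one Y).qExpansion_of_one hp

end Fermat.Agent.S16
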