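import Mathlib
import Fermat.Agent.S16.Defs
import Fermat.Agent.S16.Eis46
import Fermat.Agent.S16.Pair
import Fermat.Agent.S16.Trace
import Fermat.Agent.S16.Fricke

set_option autoImplicit false

open UpperHalfPlane ModularForm CongruenceSubgroup ModularFormClass PowerSeries EisensteinSeries
open scoped MatrixGroups ModularForm

noncomputable section

namespace Fermat.Agent.S16

/-- `g ∈ ℤ⟦q⟧` is the `q`-expansion of a form in `M₂(Γ₀(p))`. -/
def IsM2 (p : ℕ) (g : PowerSeries ℤ) : Prop :=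
  ∃ G : ModularForm (Gamma0 p) 2, qExpansion 1 G = toC g

variable {p : ℕ} {g : PowerSeries ℤ}

theorem toC_Uop (p : ℕ) (g : PowerSeries ℤ) : toC (Uop p g) = Uop p (toC g) := by
  ext n
  simp [toC]

theorem toC_injective : Function.Injective toC :=
  PowerSeries.map_injective _ Int.cast_injective

theorem IsM2.hat (hp : p.Prime) (h : IsM2 p g) : IsM2 p (Uop p g) := by
  obtain ⟨G, hG⟩ := h
  obtain ⟨G', hG'⟩ := exists_Uop hp G
  exact ⟨G', by rw [hG', hG, toC_Uop]⟩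

theorem IsM2.hat_hat (hp : p.Prime) (h : IsM2 p g) : Uop p (Uop p g) = g := by
  obtain ⟨G, hG⟩ := h
  apply toC_injective
  rw [toC_Uop, toC_Uop, ← hG]
  exact Uop_Uop_weight_two hp G

theorem IsM2.isPair (hp : p.Prime) (h : IsM2 p g) :
    IsPair p 2 (toC g) ((-(p : ℂ)⁻¹) • toC (Uop p g)) := by
  obtain ⟨G, hG⟩ := h
  have := isPair_weight_two hp G
  rw [hG] at this
  rwa [toC_Uop]

theorem isPair_E4 (hp : p ≠ 0) :
    IsPair p 4 (toC (1 + 240 * s3)) (toC (PowerSeries.expand p hp (1 + 240 * s3))) := by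
  have := isPair_levelOne hp E₄
  rw [qExpansion_E4_eq] at this
  rwa [show toC (PowerSeries.expand p hp (1 + 240 * s3)) =
    PowerSeries.expand p hp (toC (1 + 240 * s3)) from PowerSeries.map_expand _ _ _ _]

theorem isPair_E6 (hp : p ≠ 0) :
    IsPair p 6 (toC (1 - 504 * s5)) (toC (PowerSeries.expand p hp (1 - 504 * s5))) := by
  have := isPair_levelOne hp E₆
  rw [qExpansion_E6_eq] at this
  rwa [show toC (PowerSeries.expand p hp (1 - 504 * s5)) =
    PowerSeries.expand p hp (toC (1 - 504 * s5)) from PowerSeries.map_expand _ _ _ _]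

/-- transport of `IsPair` along an equality of weights. -/
theorem IsPair.congr_weight {k k' : ℤ} {B A : PowerSeries ℂ} (hk : k = k')
    (h : IsPair p k B A) : IsPair p k' B A := hk ▸ h

/-- the pair `(p g, - ĝ)` of weight two. -/
theorem IsM2.isPair_mul_p (hp : p.Prime) (h : IsM2 p g) :
    IsPair p 2 (toC ((p : PowerSeries ℤ) * g)) (toC (- Uop p g)) := by
  have : NeZero p := ⟨hp.ne_zero⟩
  have h1 := (h.isPair hp).smul (p : ℂ)
  have hp0 : (p : ℂ) ≠ 0 := Nat.cast_ne_zero.mpr hp.ne_zero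
  have e1 : (p : ℂ) • toC g = toC ((p : PowerSeries ℤ) * g) := by
    show (p : ℂ) • toC g = PowerSeries.map (Int.castRingHom ℂ) ((p : PowerSeries ℤ) * g)
    rw [map_mul, map_natCast, PowerSeries.smul_eq_C_mul]
    congr 1
  have e2 : (p : ℂ) • ((-(p : ℂ)⁻¹) • toC (Uop p g)) = toC (- Uop p g) := by
    rw [smul_smul]
    have : (p : ℂ) * (-(p : ℂ)⁻¹) = -1 := by field_simp
    rw [this]
    simp [toC]
  rwa [e1, e2] at h1

/-- `(p G)^r` : pair `(p^r g^r, (-1)^r ĝ^r)`. -/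
theorem IsM2.isPair_pow (hp : p.Prime) (h : IsM2 p g) (r : ℕ) :
    IsPair p (2 * r) (toC (((p : PowerSeries ℤ) * g) ^ r)) (toC ((- Uop p g) ^ r)) := by
  have : NeZero p := ⟨hp.ne_zero⟩
  induction r with
  | zero =>
    have := isPair_levelOne hp.ne_zero (1 : ModularForm 𝒮ℒ 0)
    rw [ModularForm.qExpansion_one] at this
    simpa [toC] using this
  | succ r ih =>
    have h2 := ih.mul (h.isPair_mul_p hp)
    refine IsPair.congr_weight (k := 2 * (r : ℤ) + 2) (by push_cast; ring) ?_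
    simpa [toC, pow_succ] using h2

/-- **trace identity** `p g² + U_p(ĝ²) = (p+1) a₀² E₄`. -/
theorem IsM2.trace_sq (hp : p.Prime) (h : IsM2 p g) :
    (p : PowerSeries ℤ) * g ^ 2 + Uop p ((Uop p g) ^ 2) =
      PowerSeries.C (((p : ℤ) + 1) * (g.coeff 0) ^ 2) * (1 + 240 * s3) := by
  have : NeZero p := ⟨hp.ne_zero⟩
  have hp0 : (p : ℂ) ≠ 0 := Nat.cast_ne_zero.mpr hp.ne_zero
  have h1 : IsPair p 4 _ _ := IsPair.congr_weight (by norm_num) ((h.isPair hp).mul (h.isPair hp))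
  obtain ⟨F, hF⟩ := exists_trace hp h1
  have h4 := weight_four_eq F
  rw [hF] at h4
  set a := toC g with ha
  set b := toC (Uop p g) with hb
  set E := toC (1 + 240 * s3) with hE
  have hU : Uop p ((-(p : ℂ)⁻¹ • b) * (-(p : ℂ)⁻¹ • b)) = ((p : ℂ)⁻¹) ^ 2 • Uop p (b * b) := by
    rw [smul_mul_smul_comm]
    ext n
    simp only [coeff_Uop, PowerSeries.coeff_smul, smul_eq_mul]
    ring
  have ha0 : a.coeff 0 = (g.coeff 0 : ℂ) := by simp [ha, toC]
  have hb0 : b.coeff 0 = (g.coeff 0 : ℂ) := by simp [hb, toC]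
  have hc0 : (a * a + (p : ℂ) • Uop p ((-(p : ℂ)⁻¹ • b) * (-(p : ℂ)⁻¹ • b))).coeff 0 =
      (g.coeff 0 : ℂ) ^ 2 + (p : ℂ)⁻¹ * (g.coeff 0 : ℂ) ^ 2 := by
    rw [hU]
    have haa : (a * a).coeff 0 = (g.coeff 0 : ℂ) ^ 2 := by
      rw [PowerSeries.coeff_mul]; simp [ha0, pow_two]
    have hbb : (b * b).coeff 0 = (g.coeff 0 : ℂ) ^ 2 := by
      rw [PowerSeries.coeff_mul]; simp [hb0, pow_two]
    simp only [map_add, PowerSeries.coeff_smul, coeff_Uop, mul_zero, smul_eq_mul, haa, hbb]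
    field_simp
  rw [hc0, hU] at h4
  apply toC_injective
  have hL : toC ((p : PowerSeries ℤ) * g ^ 2 + Uop p ((Uop p g) ^ 2)) =
      (p : ℂ) • (a * a + (p : ℂ) • ((p : ℂ)⁻¹) ^ 2 • Uop p (b * b)) := by
    have e1 : toC ((p : PowerSeries ℤ) * g ^ 2) = (p : ℂ) • (a * a) := by
      show PowerSeries.map (Int.castRingHom ℂ) ((p : PowerSeries ℤ) * g ^ 2) = _
      rw [map_mul, map_natCast, PowerSeries.smul_eq_C_mul, map_pow, pow_two]
      congr 1
    have e2 : toC (Uop p ((Uop p g) ^ 2)) = Uop p (b * b) := by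
      rw [toC_Uop]
      congr 1
      show PowerSeries.map (Int.castRingHom ℂ) ((Uop p g) ^ 2) = _
      rw [map_pow, pow_two]
    show PowerSeries.map (Int.castRingHom ℂ) _ = _
    rw [map_add]
    change toC ((p : PowerSeries ℤ) * g ^ 2) + toC (Uop p ((Uop p g) ^ 2)) = _
    rw [e1, e2]
    rw [smul_add, smul_smul, smul_smul]
    have : (p : ℂ) * (p : ℂ) * ((p : ℂ)⁻¹) ^ 2 = 1 := by field_simp
    rw [this, one_smul]
  have hR : toC (PowerSeries.C (((p : ℤ) + 1) * (g.coeff 0) ^ 2) * (1 + 240 * s3)) =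
      (p : ℂ) • (((g.coeff 0 : ℂ) ^ 2 + (p : ℂ)⁻¹ * (g.coeff 0 : ℂ) ^ 2) • E) := by
    show PowerSeries.map (Int.castRingHom ℂ) _ = _
    rw [map_mul, smul_smul, PowerSeries.smul_eq_C_mul, PowerSeries.map_C]
    congr 2
    simp only [eq_intCast]
    push_cast
    field_simp
  rw [hL, hR, h4]

end Fermat.Agent.S16
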