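import Mathlib
import Fermat.Agent.S16.Defs
import Fermat.Agent.S16.Trace

set_option autoImplicit false

open UpperHalfPlane ModularForm CongruenceSubgroup ModularFormClass PowerSeries EisensteinSeries
open scoped MatrixGroups ModularForm

noncomputable section

namespace Fermat.Agent.S16

/-- formal part 1: over a field, the product vanishes only if one of the two series does. -/
theorem normPrinciple_formal {κ : Type*} [Field κ] {p : ℕ} (hp : p ≠ 0) (b c : PowerSeries κ)
    (z : ℕ → κ) (hz : ∀ j, z j ≠ 0)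
    (h0 : PowerSeries.expand p hp b * ∏ j ∈ Finset.range p, PowerSeries.rescale (z j) c = 0) :
    c = 0 ∨ b = 0 := by
  rcases mul_eq_zero.mp h0 with h | h
  · right
    ext n
    have := congrArg (PowerSeries.coeff (p * n)) h
    rwa [PowerSeries.coeff_expand_mul] at this
  · left
    obtain ⟨j, _, hj⟩ := Finset.prod_eq_zero_iff.mp h
    exact PowerSeries.rescale_injective (hz j) (by rw [hj, map_zero])

/-- formal part 2: the product is divisible by `X ^ (p * p)`. -/
theorem coeff_mul_prod_rescale_eq_zero {κ : Type*} [CommRing κ] {p : ℕ} (a c : PowerSeries κ)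
    (z : ℕ → κ) (hc : ∀ i < p, c.coeff i = 0) (i : ℕ) (hi : i < p * p) :
    (a * ∏ j ∈ Finset.range p, PowerSeries.rescale (z j) c).coeff i = 0 := by
  have h1 : ∀ j ∈ Finset.range p, (PowerSeries.X : PowerSeries κ) ^ p ∣
      PowerSeries.rescale (z j) c := by
    intro j _
    rw [PowerSeries.X_pow_dvd_iff]
    intro m hm
    rw [PowerSeries.coeff_rescale, hc m hm, mul_zero]
  have h2 : (PowerSeries.X : PowerSeries κ) ^ (p * p) ∣
      ∏ j ∈ Finset.range p, PowerSeries.rescale (z j) c := by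
    have := Finset.prod_dvd_prod_of_dvd (fun _ => (PowerSeries.X : PowerSeries κ) ^ p) _ h1
    simpa [← pow_mul] using this
  exact PowerSeries.X_pow_dvd_iff.mp (Dvd.dvd.mul_left h2 a) i hi

variable {p ℓ : ℕ} {k : ℤ}

/-- **Norm principle** (a mod `ℓ` valence inequality). -/
theorem normPrinciple (hp : p.Prime) (hℓ : ℓ.Prime) (hk : k * (p + 1) < 12 * p)
    (b c : PowerSeries ℤ) (h : IsPair p k (toC b) (toC c))
    (hc : ∀ i < p, (ℓ : ℤ) ∣ c.coeff i) :
    (∀ n, (ℓ : ℤ) ∣ c.coeff n) ∨ (∀ n, (ℓ : ℤ) ∣ b.coeff n) := by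
  obtain ⟨N, hN⟩ := exists_norm hp h
  -- the ring of algebraic integers and a maximal ideal over `ℓ`
  let R := integralClosure ℤ ℂ
  have hmaxℓ : (Ideal.span {(ℓ : ℤ)}).IsMaximal :=
    PrincipalIdealRing.isMaximal_of_irreducible
      (Int.prime_iff_natAbs_prime.mpr (by simpa using hℓ)).irreducible
  obtain ⟨𝔪, h𝔪max, h𝔪⟩ := Ideal.exists_ideal_over_maximal_of_isIntegral (S := R)
    (Ideal.span {(ℓ : ℤ)}) (by
      have : RingHom.ker (algebraMap ℤ R) = ⊥ :=
        (RingHom.injective_iff_ker_eq_bot _).mp (FaithfulSMul.algebraMap_injective ℤ R)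
      rw [this]; exact bot_le)
  have hmem : ∀ x : ℤ, ((x : R) ∈ 𝔪 ↔ (ℓ : ℤ) ∣ x) := by
    intro x
    rw [← Ideal.mem_span_singleton, ← h𝔪, Ideal.mem_comap]
    simp
  let κ := R ⧸ 𝔪
  let _ : Field κ := Ideal.Quotient.field 𝔪
  let φ : R →+* κ := Ideal.Quotient.mk 𝔪
  let ι : R →+* ℂ := (R.val : R →ₐ[ℤ] ℂ).toRingHom
  have hι : Function.Injective ι := Subtype.val_injective
  have hφ : ∀ x : R, φ x = 0 ↔ x ∈ 𝔪 := fun x => Ideal.Quotient.eq_zero_iff_mem
  -- roots of unity
  have hzpow : ∀ j : ℕ, (Complex.exp (2 * Real.pi * Complex.I * j / p)) ^ p = 1 := by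
    intro j
    rw [← Complex.exp_nat_mul]
    have hp0 : (p : ℂ) ≠ 0 := by exact_mod_cast hp.ne_zero
    have : (p : ℂ) * (2 * Real.pi * Complex.I * j / p) = j * (2 * Real.pi * Complex.I) := by
      field_simp
    rw [this]
    exact Complex.exp_nat_mul_two_pi_mul_I j
  have hzint : ∀ j : ℕ, Complex.exp (2 * Real.pi * Complex.I * j / p) ∈ R := by
    intro j
    exact IsIntegral.of_pow hp.pos (by rw [hzpow j]; exact isIntegral_one)
  let z : ℕ → R := fun j => ⟨_, hzint j⟩
  have hz1 : ∀ j, z j ^ p = 1 := fun j => Subtype.ext (by simpa [z] using hzpow j)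
  have hz0 : ∀ j, φ (z j) ≠ 0 := by
    intro j h0
    have := congrArg φ (hz1 j)
    rw [map_pow, h0, zero_pow hp.ne_zero, map_one] at this
    exact zero_ne_one this
  let bR : PowerSeries R := b.map (Int.castRingHom R)
  let cR : PowerSeries R := c.map (Int.castRingHom R)
  let P : PowerSeries R := PowerSeries.expand p hp.ne_zero bR *
    ∏ j ∈ Finset.range p, PowerSeries.rescale (z j) cR
  have hbι : bR.map ι = toC b := by
    ext n; simp [bR, toC]
  have hcι : cR.map ι = toC c := by
    ext n; simp [cR, toC]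
  have hPι : P.map ι = PowerSeries.expand p hp.ne_zero (qExpansion 1 N) := by
    rw [hN]
    simp only [P, map_mul, map_prod, PowerSeries.map_expand, hbι]
    congr 1
  have hPφ : P.map φ = PowerSeries.expand p hp.ne_zero (bR.map φ) *
      ∏ j ∈ Finset.range p, PowerSeries.rescale (φ (z j)) (cR.map φ) := by
    simp only [P, map_mul, map_prod, PowerSeries.map_expand]
    congr 1
  have hcφ : ∀ i < p, (cR.map φ).coeff i = 0 := by
    intro i hi
    rw [PowerSeries.coeff_map, hφ, PowerSeries.coeff_map]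
    exact (hmem _).mpr (hc i hi)
  have hlow : ∀ i < p * p, P.coeff i ∈ 𝔪 := by
    intro i hi
    rw [← hφ, ← PowerSeries.coeff_map, hPφ]
    exact coeff_mul_prod_rescale_eq_zero _ _ _ hcφ i hi
  let J : AddSubgroup ℂ := 𝔪.toAddSubgroup.map ι.toAddMonoidHom
  have hJ : ∀ x : R, ι x ∈ J ↔ x ∈ 𝔪 := by
    intro x
    constructor
    · rintro ⟨y, hy, hxy⟩
      have : y = x := hι hxy
      exact this ▸ hy
    · intro hx
      exact ⟨x, hx, rfl⟩
  have hcoeffN : ∀ n, (qExpansion 1 N).coeff n = ι (P.coeff (p * n)) := by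
    intro n
    rw [← PowerSeries.coeff_map, hPι, PowerSeries.coeff_expand_mul]
  have hall : ∀ n, (qExpansion 1 N).coeff n ∈ J := by
    refine intSturm J N fun n hn => ?_
    rw [hcoeffN, hJ]
    apply hlow
    have hnp : (n : ℤ) < p := by
      have : (12 * n : ℤ) < 12 * p := lt_of_le_of_lt hn hk
      linarith
    have hnp' : n < p := by exact_mod_cast hnp
    exact Nat.mul_lt_mul_of_pos_left hnp' hp.pos
  have hP0 : P.map φ = 0 := by
    ext i
    rw [PowerSeries.coeff_map, map_zero, hφ]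
    by_cases hi : p ∣ i
    · obtain ⟨n, rfl⟩ := hi
      rw [← hJ, ← hcoeffN]
      exact hall n
    · have : ι (P.coeff i) = 0 := by
        rw [← PowerSeries.coeff_map, hPι, PowerSeries.coeff_expand_of_not_dvd _ _ _ hi]
      have : P.coeff i = 0 := hι (by rw [this, map_zero])
      rw [this]
      exact 𝔪.zero_mem
  rw [hPφ] at hP0
  rcases normPrinciple_formal hp.ne_zero _ _ _ hz0 hP0 with h0 | h0
  · left
    intro n
    rw [← hmem, ← hφ]
    have := congrArg (PowerSeries.coeff n) h0
    simpa [cR] using this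
  · right
    intro n
    rw [← hmem, ← hφ]
    have := congrArg (PowerSeries.coeff n) h0
    simpa [bR] using this

end Fermat.Agent.S16
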