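import Mathlib
import Fermat.Agent.S16.M2
import Fermat.Agent.S16.NormPrinciple

set_option autoImplicit false

open UpperHalfPlane ModularForm CongruenceSubgroup ModularFormClass PowerSeries EisensteinSeries
open scoped MatrixGroups ModularForm

noncomputable section

namespace Fermat.Agent.S16

variable {p ℓ : ℕ} {g : PowerSeries ℤ}

/-- reduction mod `ℓ` of an integral power series. -/
abbrev redA1 (ℓ : ℕ) (Q : PowerSeries ℤ) : PowerSeries (ZMod ℓ) :=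
  Q.map (Int.castRingHom (ZMod ℓ))

theorem dvd_coeff_iff_redA1 (ℓ : ℕ) (Q : PowerSeries ℤ) (n : ℕ) :
    (ℓ : ℤ) ∣ Q.coeff n ↔ (redA1 ℓ Q).coeff n = 0 := by
  rw [redA1, PowerSeries.coeff_map, eq_intCast, ZMod.intCast_zmod_eq_zero_iff_dvd]

theorem redA1_eq_C (ℓ : ℕ) (Q : PowerSeries ℤ) (h : ∀ n, 1 ≤ n → (ℓ : ℤ) ∣ Q.coeff n) :
    redA1 ℓ Q = C ((Q.coeff 0 : ℤ) : ZMod ℓ) := by
  ext n
  rcases Nat.eq_zero_or_pos n with rfl | hn
  · simp [redA1]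
  · rw [(dvd_coeff_iff_redA1 ℓ Q n).1 (h n hn), PowerSeries.coeff_C, if_neg (by omega)]

theorem cast_240_ne_zero_A1 (hℓ : ℓ.Prime) (hℓ7 : 7 ≤ ℓ) : (240 : ZMod ℓ) ≠ 0 := by
  intro h
  have h1 : ((240 : ℕ) : ZMod ℓ) = 0 := by exact_mod_cast h
  rw [ZMod.natCast_eq_zero_iff] at h1
  have h2 : ℓ ∣ 2 ^ 4 * 3 * 5 := by simpa using h1
  rcases (Nat.Prime.dvd_mul hℓ).1 h2 with h3 | h3
  · rcases (Nat.Prime.dvd_mul hℓ).1 h3 with h4 | h4
    · have := Nat.le_of_dvd (by norm_num) (hℓ.dvd_of_dvd_pow h4)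
      omega
    · have := Nat.le_of_dvd (by norm_num) h4
      omega
  · have := Nat.le_of_dvd (by norm_num) h3
    omega

/-- `ℓ ≥ 7` (`ℓ = p` allowed): norm principle with `Y = p² G² - a₀² E₄`. -/
theorem caseA1 (hp : p.Prime) (hp5 : 5 ≤ p) (hℓ : ℓ.Prime) (hℓ7 : 7 ≤ ℓ) (hg : IsM2 p g)
    (hdiv : ∀ n, 1 ≤ n → (ℓ : ℤ) ∣ g.coeff n) : (ℓ : ℤ) ∣ g.coeff 0 := by
  by_contra ha
  have : NeZero p := ⟨hp.ne_zero⟩
  have : Fact ℓ.Prime := ⟨hℓ⟩
  obtain ⟨a, ha_def⟩ : ∃ a, a = g.coeff 0 := ⟨_, rfl⟩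
  rw [← ha_def] at ha
  obtain ⟨E, hE⟩ : ∃ E : PowerSeries ℤ, E = 1 + 240 * s3 := ⟨_, rfl⟩
  obtain ⟨b, hb⟩ : ∃ b : PowerSeries ℤ, b = ((p : PowerSeries ℤ) * g) ^ 2 - C (a ^ 2) * E :=
    ⟨_, rfl⟩
  obtain ⟨c, hc⟩ : ∃ c : PowerSeries ℤ,
    c = (- Uop p g) ^ 2 - C (a ^ 2) * PowerSeries.expand p hp.ne_zero E := ⟨_, rfl⟩
  have hpair : IsPair p 4 (toC b) (toC c) := by
    have h1 : IsPair p 4 (toC (((p : PowerSeries ℤ) * g) ^ 2)) (toC ((- Uop p g) ^ 2)) := by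
      have := hg.isPair_pow hp 2
      norm_num at this
      simpa using this
    have h2 := (isPair_E4 hp.ne_zero).smul ((a : ℂ) ^ 2)
    have h3 := IsPair.sub h1 h2
    have e1 : toC b = toC (((p : PowerSeries ℤ) * g) ^ 2) - ((a : ℂ) ^ 2) • toC (1 + 240 * s3) := by
      rw [hb, hE, toC, map_sub, map_mul, PowerSeries.map_C, PowerSeries.smul_eq_C_mul]
      simp
    have e2 : toC c = toC ((- Uop p g) ^ 2) -
        ((a : ℂ) ^ 2) • toC (PowerSeries.expand p hp.ne_zero (1 + 240 * s3)) := by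
      rw [hc, hE, toC, map_sub, map_mul, PowerSeries.map_C, PowerSeries.smul_eq_C_mul]
      simp
    rw [e1, e2]
    exact h3
  -- reductions mod ℓ
  have ha0 : ((a : ℤ) : ZMod ℓ) ≠ 0 := by
    rwa [Ne, ZMod.intCast_zmod_eq_zero_iff_dvd]
  have rg : redA1 ℓ g = C ((a : ℤ) : ZMod ℓ) := by
    rw [redA1_eq_C ℓ g hdiv, ha_def]
  have rgh : redA1 ℓ (Uop p g) = C ((a : ℤ) : ZMod ℓ) := by
    rw [redA1_eq_C ℓ (Uop p g), coeff_Uop, mul_zero, ha_def]
    intro n hn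
    rw [coeff_Uop]
    exact hdiv _ (Nat.mul_pos hp.pos hn)
  have rE0 : (redA1 ℓ E).coeff 0 = 1 := by
    rw [redA1, PowerSeries.coeff_map, hE]
    have : (240 * s3 : PowerSeries ℤ) = C (240 : ℤ) * s3 := by
      rw [map_ofNat]
    rw [map_add, this, PowerSeries.coeff_C_mul, coeff_zero_s3, PowerSeries.coeff_one]
    simp
  have rE1 : (redA1 ℓ E).coeff 1 = 240 := by
    rw [redA1, PowerSeries.coeff_map, hE]
    have : (240 * s3 : PowerSeries ℤ) = C (240 : ℤ) * s3 := by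
      rw [map_ofNat]
    rw [map_add, this, PowerSeries.coeff_C_mul, coeff_one_s3, PowerSeries.coeff_one]
    simp
  have rc : redA1 ℓ c = C (((a : ℤ) : ZMod ℓ) ^ 2) *
      (1 - PowerSeries.expand p hp.ne_zero (redA1 ℓ E)) := by
    rw [hc, redA1, map_sub, map_pow, map_neg, map_mul, PowerSeries.map_expand, PowerSeries.map_C]
    change (- redA1 ℓ (Uop p g)) ^ 2 - _ = _
    rw [rgh]
    simp only [eq_intCast, map_pow]
    ring
  have rb : redA1 ℓ b = C (((p : ZMod ℓ) * ((a : ℤ) : ZMod ℓ)) ^ 2) -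
      C (((a : ℤ) : ZMod ℓ) ^ 2) * redA1 ℓ E := by
    rw [hb, redA1, map_sub, map_pow, map_mul, map_mul, PowerSeries.map_C]
    change (_ * redA1 ℓ g) ^ 2 - _ = _
    rw [rg]
    simp only [eq_intCast, map_pow, map_mul, map_natCast]
  have hlt : ∀ i < p, (ℓ : ℤ) ∣ c.coeff i := by
    intro i hi
    rw [dvd_coeff_iff_redA1, rc, PowerSeries.coeff_C_mul, map_sub]
    rcases Nat.eq_zero_or_pos i with rfl | hi0
    · have := PowerSeries.coeff_expand_mul p hp.ne_zero (redA1 ℓ E) 0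
      rw [mul_zero] at this
      rw [this, rE0]
      simp
    · rw [PowerSeries.coeff_expand_of_not_dvd p hp.ne_zero _
        (fun h => by have := Nat.le_of_dvd hi0 h; omega), PowerSeries.coeff_one,
        if_neg (by omega)]
      simp
  have hcp : ¬ (ℓ : ℤ) ∣ c.coeff p := by
    rw [dvd_coeff_iff_redA1, rc, PowerSeries.coeff_C_mul, map_sub]
    have := PowerSeries.coeff_expand_mul p hp.ne_zero (redA1 ℓ E) 1
    rw [mul_one] at this
    rw [this, rE1, PowerSeries.coeff_one, if_neg hp.ne_zero]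
    simp only [zero_sub, mul_neg, neg_eq_zero, mul_eq_zero, not_or]
    exact ⟨pow_ne_zero _ ha0, cast_240_ne_zero_A1 hℓ hℓ7⟩
  have hb1 : ¬ (ℓ : ℤ) ∣ b.coeff 1 := by
    rw [dvd_coeff_iff_redA1, rb, map_sub, PowerSeries.coeff_C_mul, rE1, PowerSeries.coeff_C,
      if_neg one_ne_zero]
    simp only [zero_sub, neg_eq_zero, mul_eq_zero, not_or]
    exact ⟨pow_ne_zero _ ha0, cast_240_ne_zero_A1 hℓ hℓ7⟩
  have hk : (4 : ℤ) * (p + 1) < 12 * p := by
    have : (5 : ℤ) ≤ p := by exact_mod_cast hp5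
    linarith
  rcases normPrinciple hp hℓ hk b c hpair hlt with h | h
  · exact hcp (h p)
  · exact hb1 (h 1)

end Fermat.Agent.S16
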