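import Mathlib
import Fermat.Agent.S16.M2
import Fermat.Agent.S16.NormPrinciple

set_option autoImplicit false

open UpperHalfPlane ModularForm CongruenceSubgroup ModularFormClass PowerSeries EisensteinSeries
open scoped MatrixGroups ModularForm

noncomputable section

namespace Fermat.Agent.S16

variable {p ℓ : ℕ} {g : PowerSeries ℤ}

/-- powers of a series which is constant mod `m` are constant mod `m`. -/
theorem caseA2_dvd_coeff_pow (m : ℤ) (f : PowerSeries ℤ) (h : ∀ n, 1 ≤ n → m ∣ f.coeff n)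
    (r : ℕ) : ∀ n, 1 ≤ n → m ∣ (f ^ r).coeff n := by
  induction r with
  | zero =>
    intro n hn
    rw [pow_zero, PowerSeries.coeff_one, if_neg (by omega)]
    exact dvd_zero _
  | succ r ih =>
    intro n hn
    rw [pow_succ, PowerSeries.coeff_mul]
    refine Finset.dvd_sum fun x hx => ?_
    rw [Finset.HasAntidiagonal.mem_antidiagonal] at hx
    by_cases h1 : 1 ≤ x.1
    · exact Dvd.dvd.mul_right (ih _ h1) _
    · exact Dvd.dvd.mul_left (h _ (by omega)) _

/-- `ℓ = 5` (`p = 5` allowed): norm principle with `Y = p³ G³ + a₀³ E₆`. -/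
theorem caseA2 (hp : p.Prime) (hp5 : 5 ≤ p) (hg : IsM2 p g)
    (hdiv : ∀ n, 1 ≤ n → (5 : ℤ) ∣ g.coeff n) : (5 : ℤ) ∣ g.coeff 0 := by
  have : NeZero p := ⟨hp.ne_zero⟩
  have h504 : (504 : PowerSeries ℤ) = PowerSeries.C (504 : ℤ) := by simp
  have hpC : (p : PowerSeries ℤ) = PowerSeries.C (p : ℤ) := by simp
  set a := g.coeff 0 with ha
  -- it suffices that `5 ∣ 504 a³`
  have hfin : (5 : ℤ) ∣ a ^ 3 * (-504) → (5 : ℤ) ∣ a := by
    intro h
    have h5 : Prime (5 : ℤ) := by norm_num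
    rcases h5.dvd_or_dvd h with h1 | h1
    · exact h5.dvd_of_dvd_pow h1
    · norm_num at h1
  set b : PowerSeries ℤ := ((p : PowerSeries ℤ) * g) ^ 3 + PowerSeries.C (a ^ 3) * (1 - 504 * s5)
    with hb
  set c : PowerSeries ℤ := (- Uop p g) ^ 3 +
    PowerSeries.C (a ^ 3) * PowerSeries.expand p hp.ne_zero (1 - 504 * s5) with hc
  have hpair : IsPair p 6 (toC b) (toC c) := by
    have h1 := hg.isPair_pow hp 3
    have e6 : (2 * ((3 : ℕ) : ℤ)) = 6 := by norm_num
    rw [e6] at h1
    have h2 := (isPair_E6 hp.ne_zero).smul (((a ^ 3 : ℤ) : ℂ))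
    have h3 := h1.add h2
    have eb : toC b = toC (((p : PowerSeries ℤ) * g) ^ 3) +
        (((a ^ 3 : ℤ) : ℂ)) • toC (1 - 504 * s5) := by
      rw [hb, toC, map_add, map_mul, PowerSeries.map_C, PowerSeries.smul_eq_C_mul]
      rfl
    have ec : toC c = toC ((- Uop p g) ^ 3) +
        (((a ^ 3 : ℤ) : ℂ)) • toC (PowerSeries.expand p hp.ne_zero (1 - 504 * s5)) := by
      rw [hc, toC, map_add, map_mul, PowerSeries.map_C, PowerSeries.smul_eq_C_mul]
      rfl
    rw [eb, ec]
    exact h3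
  -- `ĝ` is constant mod 5
  have hhat : ∀ n, 1 ≤ n → (5 : ℤ) ∣ (- Uop p g).coeff n := by
    intro n hn
    rw [map_neg, coeff_Uop, dvd_neg]
    exact hdiv _ (Nat.mul_pos hp.pos hn)
  have hhat3 := caseA2_dvd_coeff_pow 5 _ hhat 3
  have hpg : ∀ n, 1 ≤ n → (5 : ℤ) ∣ ((p : PowerSeries ℤ) * g).coeff n := by
    intro n hn
    rw [hpC, PowerSeries.coeff_C_mul]
    exact Dvd.dvd.mul_left (hdiv n hn) _
  have hpg3 := caseA2_dvd_coeff_pow 5 _ hpg 3
  have hc0 : c.coeff 0 = 0 := by
    rw [hc, map_add, PowerSeries.coeff_C_mul, PowerSeries.coeff_zero_eq_constantCoeff_apply,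
      PowerSeries.coeff_zero_eq_constantCoeff_apply, map_pow, map_neg,
      PowerSeries.constantCoeff_expand, ← PowerSeries.coeff_zero_eq_constantCoeff_apply,
      ← PowerSeries.coeff_zero_eq_constantCoeff_apply, coeff_Uop, mul_zero, map_sub, h504,
      PowerSeries.coeff_C_mul, coeff_zero_s5, PowerSeries.coeff_one, if_pos rfl, ← ha]
    ring
  have hclt : ∀ i < p, (5 : ℤ) ∣ c.coeff i := by
    intro i hi
    rcases Nat.eq_zero_or_pos i with rfl | hi0
    · rw [hc0]; exact dvd_zero _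
    · rw [hc, map_add, PowerSeries.coeff_C_mul,
        PowerSeries.coeff_expand_of_not_dvd p hp.ne_zero _ (Nat.not_dvd_of_pos_of_lt hi0 hi),
        mul_zero, add_zero]
      exact hhat3 i hi0
  have hk : (6 : ℤ) * ((p : ℤ) + 1) < 12 * (p : ℤ) := by
    have : (5 : ℤ) ≤ (p : ℤ) := by exact_mod_cast hp5
    linarith
  rcases normPrinciple hp (by norm_num : Nat.Prime 5) hk b c hpair
    (by exact_mod_cast hclt) with hall | hall
  · -- coefficient `p` of `c`
    have h1 : (5 : ℤ) ∣ c.coeff p := by exact_mod_cast hall p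
    have h2 : c.coeff p = ((- Uop p g) ^ 3).coeff p + a ^ 3 * (-504) := by
      have e : (PowerSeries.expand p hp.ne_zero (1 - 504 * s5)).coeff p = -504 := by
        have := PowerSeries.coeff_expand_mul p hp.ne_zero (1 - 504 * s5 : PowerSeries ℤ) 1
        rw [mul_one] at this
        rw [this, map_sub, h504, PowerSeries.coeff_C_mul, coeff_one_s5, PowerSeries.coeff_one,
          if_neg one_ne_zero]
        norm_num
      rw [hc, map_add, PowerSeries.coeff_C_mul, e]
    rw [h2] at h1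
    exact hfin ((dvd_add_right (hhat3 p hp.pos)).mp h1)
  · -- coefficient `1` of `b`
    have h1 : (5 : ℤ) ∣ b.coeff 1 := by exact_mod_cast hall 1
    have h2 : b.coeff 1 = (((p : PowerSeries ℤ) * g) ^ 3).coeff 1 + a ^ 3 * (-504) := by
      rw [hb, map_add, PowerSeries.coeff_C_mul, map_sub, h504, PowerSeries.coeff_C_mul,
        coeff_one_s5, PowerSeries.coeff_one, if_neg one_ne_zero]
      norm_num
    rw [h2] at h1
    exact hfin ((dvd_add_right (hpg3 1 le_rfl)).mp h1)

end Fermat.Agent.S16
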