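import Mathlib
import Fermat.Agent.S16.M2
import Fermat.Agent.S16.NormPrinciple

set_option autoImplicit false

open UpperHalfPlane ModularForm CongruenceSubgroup ModularFormClass PowerSeries EisensteinSeries
open scoped MatrixGroups ModularForm

noncomputable section

namespace Fermat.Agent.S16

variable {p ℓ : ℕ} {g : PowerSeries ℤ}

theorem caseA3_coeff_three_mul (x : PowerSeries ℤ) (n : ℕ) :
    ((3 : PowerSeries ℤ) * x).coeff n = 3 * x.coeff n := by
  have h3 : (3 : PowerSeries ℤ) = PowerSeries.C (3 : ℤ) := (map_ofNat (PowerSeries.C (R := ℤ)) 3).symm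
  rw [h3, PowerSeries.coeff_C_mul]

/-- dividing an integral series by `3` after passing to `ℂ`. -/
theorem caseA3_third_smul {x y : PowerSeries ℤ} (h : x = 3 * y) :
    (1 / 3 : ℂ) • toC x = toC y := by
  subst h
  ext n
  rw [map_smul, PowerSeries.coeff_map, PowerSeries.coeff_map, caseA3_coeff_three_mul]
  simp

/-- scalar multiplication by an integer, after passing to `ℂ`. -/
theorem caseA3_int_smul (a : ℤ) (x : PowerSeries ℤ) :
    (a : ℂ) • toC x = toC (PowerSeries.C a * x) := by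
  ext n
  rw [map_smul, PowerSeries.coeff_map, PowerSeries.coeff_map, PowerSeries.coeff_C_mul]
  simp

/-- a series whose higher coefficients are divisible by `9`. -/
theorem caseA3_exists_h (hdiv : ∀ n, 1 ≤ n → (9 : ℤ) ∣ g.coeff n) :
    ∃ h : PowerSeries ℤ, h.coeff 0 = 0 ∧ g = PowerSeries.C (g.coeff 0) + 9 * h := by
  refine ⟨PowerSeries.mk fun n => if n = 0 then 0 else g.coeff n / 9, by simp, ?_⟩
  have h9 : (9 : PowerSeries ℤ) = PowerSeries.C (9 : ℤ) := (map_ofNat (PowerSeries.C (R := ℤ)) 9).symm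
  ext n
  rw [h9, map_add, PowerSeries.coeff_C_mul, PowerSeries.coeff_mk, PowerSeries.coeff_C]
  by_cases hn : n = 0
  · subst hn; simp
  · rw [if_neg hn, if_neg hn, zero_add, Int.mul_ediv_cancel' (hdiv n (Nat.one_le_iff_ne_zero.mpr hn))]

/-- `ℓ = 3`, `G ≡ a₀ mod 9`: norm principle with `Y = (p² G² - a₀² E₄)/3`. -/
theorem caseA3 (hp : p.Prime) (hp5 : 5 ≤ p) (hg : IsM2 p g)
    (hdiv : ∀ n, 1 ≤ n → (9 : ℤ) ∣ g.coeff n) : (3 : ℤ) ∣ g.coeff 0 := by
  by_contra hna
  have : NeZero p := ⟨hp.ne_zero⟩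
  obtain ⟨h, hh0, hgh⟩ := caseA3_exists_h hdiv
  set a : ℤ := g.coeff 0 with ha
  -- `ĝ = a + 9 ĥ`
  have hhat : Uop p g = PowerSeries.C a + 9 * Uop p h := by
    have h9 : (9 : PowerSeries ℤ) = PowerSeries.C (9 : ℤ) :=
      (map_ofNat (PowerSeries.C (R := ℤ)) 9).symm
    ext n
    rw [coeff_Uop, h9, map_add, PowerSeries.coeff_C_mul, coeff_Uop, PowerSeries.coeff_C]
    conv_lhs => rw [hgh]
    rw [h9, map_add, PowerSeries.coeff_C_mul, PowerSeries.coeff_C]
    by_cases hn : n = 0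
    · subst hn; simp
    · rw [if_neg hn, if_neg (Nat.mul_ne_zero hp.ne_zero hn)]
  -- `p² - 1 = 3 t`
  obtain ⟨t, ht⟩ : ∃ t : ℤ, (p : ℤ) ^ 2 - 1 = 3 * t := by
    have h3 : ¬ 3 ∣ p := by
      intro h3
      have := (Nat.prime_dvd_prime_iff_eq Nat.prime_three hp).mp h3
      omega
    have hmod : p % 3 = 1 ∨ p % 3 = 2 := by omega
    have : ((p : ℤ) ^ 2 - 1) % 3 = 0 := by
      have hp' : (p : ℤ) % 3 = 1 ∨ (p : ℤ) % 3 = 2 := by omega
      rcases hp' with h | h <;> simp [pow_two, Int.sub_emod, Int.mul_emod, h]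
    exact Int.dvd_of_emod_eq_zero this
  set hh : PowerSeries ℤ := Uop p h with hhh
  set e3 : PowerSeries ℤ := PowerSeries.expand p hp.ne_zero s3 with he3
  -- the two integral series
  set b : PowerSeries ℤ := PowerSeries.C (t * a ^ 2) + 3 * (2 * (p : PowerSeries ℤ) ^ 2 * PowerSeries.C a * h
      + 9 * (p : PowerSeries ℤ) ^ 2 * h ^ 2) - PowerSeries.C (80 * a ^ 2) * s3 with hb
  set c : PowerSeries ℤ := 3 * (2 * PowerSeries.C a * hh + 9 * hh ^ 2)
      - PowerSeries.C (80 * a ^ 2) * e3 with hc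
  have hpC : (p : PowerSeries ℤ) = PowerSeries.C (p : ℤ) := by simp
  have hb3 : ((p : PowerSeries ℤ) * g) ^ 2 - PowerSeries.C (a ^ 2) * (1 + 240 * s3) = 3 * b := by
    have htC : (p : PowerSeries ℤ) ^ 2 - 1 = 3 * PowerSeries.C t := by
      have := congrArg (PowerSeries.C (R := ℤ)) ht
      rw [map_sub, map_pow, map_one, map_mul, map_natCast, map_ofNat] at this
      exact this
    have hp2 : (p : PowerSeries ℤ) ^ 2 = 1 + 3 * PowerSeries.C t := by
      linear_combination htC
    rw [hb, hgh]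
    simp only [map_mul, map_pow, map_ofNat]
    linear_combination (PowerSeries.C a) ^ 2 * hp2
  have hc3 : (- Uop p g) ^ 2 - PowerSeries.C (a ^ 2) * PowerSeries.expand p hp.ne_zero (1 + 240 * s3)
      = 3 * c := by
    rw [hc, hhat, map_add, map_one, map_mul, ← he3]
    have : PowerSeries.expand p hp.ne_zero (240 : PowerSeries ℤ) = 240 := map_ofNat _ 240
    rw [this]
    simp only [map_mul, map_pow, map_ofNat]
    ring
  -- the pair
  have hpair : IsPair p 4 (toC b) (toC c) := by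
    have h2 := hg.isPair_pow hp 2
    have h2' : IsPair p 4 (toC (((p : PowerSeries ℤ) * g) ^ 2)) (toC ((- Uop p g) ^ 2)) := by
      have e : (2 * ((2 : ℕ) : ℤ)) = 4 := by norm_num
      rw [e] at h2
      exact h2
    have h4 := (isPair_E4 (p := p) hp.ne_zero).smul ((a ^ 2 : ℤ) : ℂ)
    rw [caseA3_int_smul, caseA3_int_smul] at h4
    have h5 := (h2'.sub h4).smul (1 / 3 : ℂ)
    have e1 : toC (((p : PowerSeries ℤ) * g) ^ 2) - toC (PowerSeries.C (a ^ 2) * (1 + 240 * s3))
        = toC (((p : PowerSeries ℤ) * g) ^ 2 - PowerSeries.C (a ^ 2) * (1 + 240 * s3)) :=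
      (map_sub _ _ _).symm
    have e2 : toC ((- Uop p g) ^ 2)
          - toC (PowerSeries.C (a ^ 2) * PowerSeries.expand p hp.ne_zero (1 + 240 * s3))
        = toC ((- Uop p g) ^ 2
          - PowerSeries.C (a ^ 2) * PowerSeries.expand p hp.ne_zero (1 + 240 * s3)) :=
      (map_sub _ _ _).symm
    rw [e1, e2, caseA3_third_smul hb3, caseA3_third_smul hc3] at h5
    exact h5
  -- `3 ∤ 80 a²`
  have hna2 : ¬ (3 : ℤ) ∣ 80 * a ^ 2 := by
    intro hd
    have h3p : Prime (3 : ℤ) := Int.prime_three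
    rcases h3p.dvd_or_dvd hd with h | h
    · omega
    · exact hna (h3p.dvd_of_dvd_pow h)
  have hccoeff : ∀ n, c.coeff n = 3 * (2 * PowerSeries.C a * hh + 9 * hh ^ 2).coeff n
      - 80 * a ^ 2 * e3.coeff n := by
    intro n
    rw [hc, map_sub, caseA3_coeff_three_mul, PowerSeries.coeff_C_mul]
  have hbcoeff : b.coeff 1 = 3 * (2 * (p : PowerSeries ℤ) ^ 2 * PowerSeries.C a * h
      + 9 * (p : PowerSeries ℤ) ^ 2 * h ^ 2).coeff 1 - 80 * a ^ 2 := by
    rw [hb, map_sub, map_add, caseA3_coeff_three_mul, PowerSeries.coeff_C_mul, coeff_one_s3,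
      PowerSeries.coeff_C, if_neg one_ne_zero]
    ring
  have hk : (4 : ℤ) * ((p : ℤ) + 1) < 12 * (p : ℤ) := by
    have : (5 : ℤ) ≤ p := by exact_mod_cast hp5
    linarith
  rcases normPrinciple hp Nat.prime_three hk b c hpair (by
      intro i hi
      rw [hccoeff i]
      have he : e3.coeff i = 0 := by
        rw [he3, PowerSeries.coeff_expand]
        split_ifs with hd
        · have hi0 : i = 0 := Nat.eq_zero_of_dvd_of_lt hd hi
          subst hi0
          simpa using coeff_zero_s3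
        · rfl
      rw [he, mul_zero, sub_zero]
      exact Dvd.intro _ rfl) with hall | hall
  · apply hna2
    have h1 := hall p
    rw [hccoeff p] at h1
    have he : e3.coeff p = 1 := by
      rw [he3]
      have := PowerSeries.coeff_expand_mul p hp.ne_zero s3 1
      rw [mul_one] at this
      rw [this, coeff_one_s3]
    rw [he, mul_one] at h1
    have h2 : (3 : ℤ) ∣ 3 * (2 * PowerSeries.C a * hh + 9 * hh ^ 2).coeff p := Dvd.intro _ rfl
    have := (Int.dvd_sub h2 h1)
    simpa using this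
  · apply hna2
    have h1 := hall 1
    rw [hbcoeff] at h1
    have h2 : (3 : ℤ) ∣ 3 * (2 * (p : PowerSeries ℤ) ^ 2 * PowerSeries.C a * h
      + 9 * (p : PowerSeries ℤ) ^ 2 * h ^ 2).coeff 1 := Dvd.intro _ rfl
    have := (Int.dvd_sub h2 h1)
    simpa using this

end Fermat.Agent.S16
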