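import Mathlib
import Fermat.Agent.S16.M2
import Fermat.Agent.S16.NormPrinciple

set_option autoImplicit false

open UpperHalfPlane ModularForm CongruenceSubgroup ModularFormClass PowerSeries EisensteinSeries
open scoped MatrixGroups ModularForm

noncomputable section

namespace Fermat.Agent.S16

variable {p ℓ : ℕ} {g : PowerSeries ℤ}

/-- if all higher coefficients of `g` are divisible by `3`, then
`(g²)_n ≡ 2 g₀ g_n mod 9` for `n ≥ 1`. -/
theorem caseA4_sq_coeff (g : PowerSeries ℤ) (hdiv : ∀ n, 1 ≤ n → (3 : ℤ) ∣ g.coeff n)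
    (n : ℕ) (hn : 1 ≤ n) :
    ∃ c : ℤ, (g ^ 2).coeff n = 2 * g.coeff 0 * g.coeff n + 9 * c := by
  set a : ℤ := g.coeff 0 with ha
  set h : PowerSeries ℤ := PowerSeries.mk fun n => if n = 0 then 0 else g.coeff n / 3 with hh
  have hg : g = PowerSeries.C a + PowerSeries.C 3 * h := by
    ext m
    rcases Nat.eq_zero_or_pos m with rfl | hm
    · simp [hh, ha]
    · have hm0 : m ≠ 0 := by omega
      rw [map_add, PowerSeries.coeff_C_mul, PowerSeries.coeff_C, if_neg hm0, hh,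
        PowerSeries.coeff_mk, if_neg hm0, Int.mul_ediv_cancel' (hdiv m hm), zero_add]
  have hn0 : n ≠ 0 := by omega
  have hgn : g.coeff n = 3 * h.coeff n := by
    conv_lhs => rw [hg]
    rw [map_add, PowerSeries.coeff_C_mul, PowerSeries.coeff_C, if_neg hn0, zero_add]
  have hsq : g ^ 2 = PowerSeries.C (a ^ 2) + PowerSeries.C (6 * a) * h
      + PowerSeries.C 9 * h ^ 2 := by
    conv_lhs => rw [hg]
    have e1 : (PowerSeries.C (a ^ 2) : PowerSeries ℤ) = PowerSeries.C a ^ 2 := by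
      rw [map_pow]
    have e2 : (PowerSeries.C (6 * a) : PowerSeries ℤ)
        = 2 * PowerSeries.C 3 * PowerSeries.C a := by
      rw [show (6 * a : ℤ) = 2 * 3 * a by ring, map_mul, map_mul]; simp
    have e3 : (PowerSeries.C 9 : PowerSeries ℤ) = PowerSeries.C 3 ^ 2 := by
      rw [← map_pow]; norm_num
    rw [e1, e2, e3]; ring
  refine ⟨(h ^ 2).coeff n, ?_⟩
  rw [hsq, map_add, map_add, PowerSeries.coeff_C_mul, PowerSeries.coeff_C_mul,
    PowerSeries.coeff_C, if_neg hn0, hgn]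
  ring

/-- the trace identity read modulo `9` at the coefficient `n ≥ 1`. -/
theorem caseA4_key (hp : p.Prime) (hg : IsM2 p g)
    (hdiv : ∀ n, 1 ≤ n → (3 : ℤ) ∣ g.coeff n) (n : ℕ) (hn : 1 ≤ n) :
    (9 : ℤ) ∣ 2 * g.coeff 0 * ((p : ℤ) + 1) * g.coeff n
      - 240 * ((p : ℤ) + 1) * (g.coeff 0) ^ 2 * s3.coeff n := by
  have hn0 : n ≠ 0 := by omega
  have hpn : 1 ≤ p * n := Nat.mul_pos hp.pos hn
  have hdiv' : ∀ m, 1 ≤ m → (3 : ℤ) ∣ (Uop p g).coeff m := by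
    intro m hm
    rw [coeff_Uop]
    exact hdiv _ (Nat.mul_pos hp.pos hm)
  obtain ⟨c, hc⟩ := caseA4_sq_coeff g hdiv n hn
  obtain ⟨c', hc'⟩ := caseA4_sq_coeff (Uop p g) hdiv' (p * n) hpn
  have h0 : (Uop p g).coeff 0 = g.coeff 0 := by rw [coeff_Uop, Nat.mul_zero]
  have h1 : (Uop p g).coeff (p * n) = g.coeff n := by
    rw [← coeff_Uop, hg.hat_hat hp]
  have ht := congrArg (fun F : PowerSeries ℤ => F.coeff n) (hg.trace_sq hp)
  have hpC : ((p : ℕ) : PowerSeries ℤ) = PowerSeries.C (p : ℤ) := by simp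
  have h240 : (240 : PowerSeries ℤ) = PowerSeries.C 240 := by simp
  rw [hpC, map_add, PowerSeries.coeff_C_mul, coeff_Uop, hc, hc', h0, h1,
    PowerSeries.coeff_C_mul, map_add, PowerSeries.coeff_one, if_neg hn0, h240,
    PowerSeries.coeff_C_mul] at ht
  refine ⟨-((p : ℤ) * c + c'), ?_⟩
  linear_combination ht

/-- `ℓ = 3`, `p ≡ 1 mod 3`, `G ≡ a₀ mod 3`: trace identity. -/
theorem caseA4 (hp : p.Prime) (hp3 : p % 3 = 1) (hg : IsM2 p g)
    (hdiv : ∀ n, 1 ≤ n → (3 : ℤ) ∣ g.coeff n) : (3 : ℤ) ∣ g.coeff 0 := by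
  have hdiv' : ∀ m, 1 ≤ m → (3 : ℤ) ∣ (Uop p g).coeff m := by
    intro m hm
    rw [coeff_Uop]
    exact hdiv _ (Nat.mul_pos hp.pos hm)
  have k1 := caseA4_key hp hg hdiv p hp.pos
  have k2 := caseA4_key hp (hg.hat hp) hdiv' 1 le_rfl
  rw [coeff_Uop, coeff_Uop, Nat.mul_zero, Nat.mul_one, coeff_one_s3] at k2
  rw [coeff_prime_s3 hp] at k1
  obtain ⟨t, ht⟩ : ∃ t : ℤ, (p : ℤ) = 3 * t + 1 := by
    refine ⟨((p / 3 : ℕ) : ℤ), ?_⟩
    have := Nat.div_add_mod p 3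
    rw [hp3] at this
    exact_mod_cast this.symm
  set a : ℤ := g.coeff 0 with ha
  have k3 := dvd_sub k2 k1
  have k4 : (9 : ℤ) ∣ 240 * ((p : ℤ) + 1) * (p : ℤ) ^ 3 * a ^ 2 := by
    have : 2 * a * ((p : ℤ) + 1) * g.coeff p - 240 * ((p : ℤ) + 1) * a ^ 2 * 1
        - (2 * a * ((p : ℤ) + 1) * g.coeff p - 240 * ((p : ℤ) + 1) * a ^ 2 * (1 + (p : ℤ) ^ 3))
        = 240 * ((p : ℤ) + 1) * (p : ℤ) ^ 3 * a ^ 2 := by ring
    rwa [this] at k3
  have k5 : (3 : ℤ) ∣ a ^ 2 := by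
    obtain ⟨u, hu⟩ := k4
    rw [ht] at hu
    -- 240 (3t+2)(3t+1)^3 a^2 = 9 u
    have : (3 : ℤ) ∣ 80 * (3 * t + 1 + 1) * (3 * t + 1) ^ 3 * a ^ 2 := ⟨u, by linarith⟩
    have e : 80 * (3 * t + 1 + 1) * (3 * t + 1) ^ 3 * a ^ 2
        = a ^ 2 + 3 * ((53 + 80 * (27 * t ^ 4 + 45 * t ^ 3 + 27 * t ^ 2 + 7 * t)) * a ^ 2) := by
      ring
    rw [e] at this
    exact (dvd_add_left (Dvd.intro _ rfl)).mp this
  exact Int.prime_three.dvd_of_dvd_pow k5

end Fermat.Agent.S16
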