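import Mathlib
import Fermat.Agent.S16.M2
import Fermat.Agent.S16.NormPrinciple

set_option autoImplicit false

open UpperHalfPlane ModularForm CongruenceSubgroup ModularFormClass PowerSeries EisensteinSeries
open scoped MatrixGroups ModularForm

noncomputable section

namespace Fermat.Agent.S16

variable {p ℓ : ℕ} {g : PowerSeries ℤ}

namespace A5

theorem pairZ_mul [NeZero p] {k₁ k₂ k : ℤ} {b₁ c₁ b₂ c₂ : PowerSeries ℤ} (hk : k₁ + k₂ = k)
    (h₁ : IsPair p k₁ (toC b₁) (toC c₁)) (h₂ : IsPair p k₂ (toC b₂) (toC c₂)) :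
    IsPair p k (toC (b₁ * b₂)) (toC (c₁ * c₂)) := by
  subst hk
  simpa [toC, map_mul] using h₁.mul h₂

theorem pairZ_sub [NeZero p] {k : ℤ} {b₁ c₁ b₂ c₂ : PowerSeries ℤ}
    (h₁ : IsPair p k (toC b₁) (toC c₁)) (h₂ : IsPair p k (toC b₂) (toC c₂)) :
    IsPair p k (toC (b₁ - b₂)) (toC (c₁ - c₂)) := by
  simpa [toC, map_sub] using h₁.sub h₂

theorem toC_C_mul (n : ℤ) (b : PowerSeries ℤ) : toC (C n * b) = (n : ℂ) • toC b := by
  rw [toC, map_mul, PowerSeries.map_C, PowerSeries.smul_eq_C_mul]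
  simp

theorem pairZ_smul [NeZero p] {k : ℤ} {b c : PowerSeries ℤ} (n : ℤ)
    (h : IsPair p k (toC b) (toC c)) : IsPair p k (toC (C n * b)) (toC (C n * c)) := by
  rw [toC_C_mul, toC_C_mul]
  exact h.smul _

theorem pairZ_div [NeZero p] {k : ℤ} {b c : PowerSeries ℤ} (n : ℤ) (hn : n ≠ 0)
    (h : IsPair p k (toC (C n * b)) (toC (C n * c))) : IsPair p k (toC b) (toC c) := by
  rw [toC_C_mul, toC_C_mul] at h
  have h2 := h.smul ((n : ℂ)⁻¹)
  have hn' : (n : ℂ) ≠ 0 := by exact_mod_cast hn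
  rwa [smul_smul, smul_smul, inv_mul_cancel₀ hn', one_smul, one_smul] at h2

theorem coeff_two_mul (f : PowerSeries ℤ) (n : ℕ) : (2 * f).coeff n = 2 * f.coeff n := by
  rw [two_mul, map_add, two_mul]

theorem coeff_one_s3_sq : (s3 ^ 2).coeff 1 = 0 := by
  simp [sq, PowerSeries.coeff_mul, Finset.Nat.antidiagonal_succ, coeff_zero_s3]

theorem coeff_zero_s3_sq : (s3 ^ 2).coeff 0 = 0 := by
  simp [sq, PowerSeries.coeff_mul, coeff_zero_s3]

end A5

open A5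

/-- `ℓ = 2`, `p ≡ 3 mod 4`, `G ≡ a₀ mod 8`: norm principle with
`Y = (p⁴G⁴ - 6 a₀² p² G² E₄ - 8 a₀³ p G E₆ - 3 a₀⁴ E₄²)/2⁸`. -/
theorem caseA5 (hp : p.Prime) (hp5 : 5 ≤ p) (hp4 : p % 4 = 3) (hg : IsM2 p g)
    (hdiv : ∀ n, 1 ≤ n → (8 : ℤ) ∣ g.coeff n) : (2 : ℤ) ∣ g.coeff 0 := by
  by_contra hodd
  have : NeZero p := ⟨hp.ne_zero⟩
  set a : ℤ := g.coeff 0 with ha
  obtain ⟨w, hw, hw0, hw1⟩ := exists_w
  obtain ⟨m4, hm4⟩ : ∃ m : ℤ, a ^ 4 = 2 * m + 1 := by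
    have h1 : Odd a := by
      rw [← Int.not_even_iff_odd, even_iff_two_dvd]
      exact hodd
    exact h1.pow
  -- `g = a + 8 h`
  set h : PowerSeries ℤ := PowerSeries.mk fun n => if n = 0 then 0 else g.coeff n / 8 with hh
  have h8 : (8 : PowerSeries ℤ) = C 8 := (map_ofNat C 8).symm
  have hg8 : g = C a + 8 * h := by
    ext n
    rw [map_add, h8, coeff_C_mul, coeff_C, hh, coeff_mk]
    rcases Nat.eq_zero_or_pos n with rfl | hn
    · simp [ha]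
    · rw [if_neg hn.ne', if_neg hn.ne', zero_add, Int.mul_ediv_cancel' (hdiv n hn)]
  have hĝ8 : Uop p g = C a + 8 * Uop p h := by
    ext n
    rw [map_add, h8, coeff_C_mul, coeff_C, coeff_Uop, coeff_Uop]
    conv_lhs => rw [hg8]
    rw [map_add, h8, coeff_C_mul, coeff_C]
    simp [hp.ne_zero]
  obtain ⟨u, hu⟩ : ∃ u : ℕ, p + 1 = 4 * u := ⟨(p + 1) / 4, by omega⟩
  have hPp : (p : PowerSeries ℤ) = 4 * (u : PowerSeries ℤ) - 1 := by
    have h1 := congrArg (Nat.cast : ℕ → PowerSeries ℤ) hu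
    push_cast at h1
    linear_combination h1
  set e := PowerSeries.expand (R := ℤ) p hp.ne_zero with he
  -- the pair of weight 8
  have h4 := hg.isPair_pow hp 4
  have h2 := hg.isPair_pow hp 2
  have h1 := hg.isPair_pow hp 1
  have hE4 := isPair_E4 hp.ne_zero
  have hE6 := isPair_E6 hp.ne_zero
  have t2 := pairZ_smul (6 * a ^ 2) (pairZ_mul (k := 8) (by norm_num) h2 hE4)
  have t1 := pairZ_smul (8 * a ^ 3) (pairZ_mul (k := 8) (by norm_num) h1 hE6)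
  have t0 := pairZ_smul (3 * a ^ 4) (pairZ_mul (k := 8) (by norm_num) hE4 hE4)
  have h4' : IsPair p 8 (toC (((p : PowerSeries ℤ) * g) ^ 4)) (toC ((-Uop p g) ^ 4)) := by
    have h8' : (2 * ((4 : ℕ) : ℤ)) = 8 := by norm_num
    rw [h8'] at h4
    exact h4
  have hP := pairZ_sub (pairZ_sub (pairZ_sub h4' t2) t1) t0
  -- notation
  set A : PowerSeries ℤ := C a with hA
  set U : PowerSeries ℤ := (u : PowerSeries ℤ) with hU
  set ĥ : PowerSeries ℤ := Uop p h with hĥ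
  set s3' : PowerSeries ℤ := e s3 with hs3'
  set s5' : PowerSeries ℤ := e s5 with hs5'
  set w' : PowerSeries ℤ := e w with hw'
  have hwe : 5 * s3' + 7 * s5' = 4 * w' := by
    have h1 := congrArg e hw
    simpa [map_add, map_mul, map_ofNat] using h1
  have heE4 : e (1 + 240 * s3) = 1 + 240 * s3' := by
    simp [map_add, map_mul, map_ofNat, hs3']
  have heE6 : e (1 - 504 * s5) = 1 - 504 * s5' := by
    simp [map_sub, map_mul, map_ofNat, hs5']
  have hC6 : (C (6 * a ^ 2) : PowerSeries ℤ) = 6 * A ^ 2 := by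
    simp [map_mul, map_pow, map_ofNat, hA]
  have hC8 : (C (8 * a ^ 3) : PowerSeries ℤ) = 8 * A ^ 3 := by
    simp [map_mul, map_pow, map_ofNat, hA]
  have hC3 : (C (3 * a ^ 4) : PowerSeries ℤ) = 3 * A ^ 4 := by
    simp [map_mul, map_pow, map_ofNat, hA]
  have hC256 : (C 256 : PowerSeries ℤ) = 256 := map_ofNat C 256
  rw [heE4, heE6, hC6, hC8, hC3, hĝ8, hg8, hPp] at hP
  -- the two integral series
  set t' : PowerSeries ℤ := -(U * A + 2 * (4 * U - 1) * h) with ht'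
  set b : PowerSeries ℤ := t' ^ 3 * (t' + A) - 9 * A ^ 4 * w - 36 * A ^ 3 * t' * w
    - 90 * A ^ 2 * t' ^ 2 * s3 - 675 * A ^ 4 * s3 ^ 2 with hb
  set c : PowerSeries ℤ := 8 * ĥ ^ 3 * (2 * ĥ + A) - 9 * A ^ 4 * w' - 72 * A ^ 3 * ĥ * w'
    - 360 * A ^ 2 * ĥ ^ 2 * s3' - 675 * A ^ 4 * s3' ^ 2 with hc
  have hB : ((4 * U - 1) * (A + 8 * h)) ^ 4
      - 6 * A ^ 2 * (((4 * U - 1) * (A + 8 * h)) ^ 2 * (1 + 240 * s3))
      - 8 * A ^ 3 * (((4 * U - 1) * (A + 8 * h)) ^ 1 * (1 - 504 * s5))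
      - 3 * A ^ 4 * ((1 + 240 * s3) * (1 + 240 * s3)) = C 256 * b := by
    rw [hC256, hb, ht']
    linear_combination (-576 * (A ^ 4 + A ^ 3 * (-((4 * U - 1) * (A + 8 * h)) - A))) * hw
  have hCc : (-(A + 8 * ĥ)) ^ 4
      - 6 * A ^ 2 * ((-(A + 8 * ĥ)) ^ 2 * (1 + 240 * s3'))
      - 8 * A ^ 3 * ((-(A + 8 * ĥ)) ^ 1 * (1 - 504 * s5'))
      - 3 * A ^ 4 * ((1 + 240 * s3') * (1 + 240 * s3')) = C 256 * c := by
    rw [hC256, hc]
    linear_combination (-576 * (A ^ 4 + A ^ 3 * (8 * ĥ))) * hwe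
  rw [hB, hCc] at hP
  have hbc := pairZ_div 256 (by norm_num) hP
  have hA4 : A ^ 4 = C (a ^ 4) := by rw [hA, map_pow]
  -- `c` modulo `2`
  have hcdec : c = 2 * (4 * ĥ ^ 3 * (2 * ĥ + A) - 5 * A ^ 4 * w' - 36 * A ^ 3 * ĥ * w'
      - 180 * A ^ 2 * ĥ ^ 2 * s3' - 338 * A ^ 4 * s3' ^ 2) + C (a ^ 4) * e (w + s3 ^ 2) := by
    rw [← hA4, map_add, map_pow, hc]
    ring
  have hbdec : b = C ((-(u * a)) ^ 3 * (-(u * a) + a))
      + 2 * ((-((4 * U - 1) * h)) * ((t' ^ 3 + t' ^ 2 * (-(U * A)) + t' * (-(U * A)) ^ 2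
          + (-(U * A)) ^ 3) + A * (t' ^ 2 + t' * (-(U * A)) + (-(U * A)) ^ 2))
        - 5 * A ^ 4 * w - 18 * A ^ 3 * t' * w - 45 * A ^ 2 * t' ^ 2 * s3 - 338 * A ^ 4 * s3 ^ 2)
      + C (a ^ 4) * (w + s3 ^ 2) := by
    have hK : (C ((-(u * a)) ^ 3 * (-(u * a) + a)) : PowerSeries ℤ)
        = (-(U * A)) ^ 3 * (-(U * A) + A) := by
      simp [map_mul, map_pow, map_add, map_neg, hA, hU]
    rw [← hA4, hK, hb, ht']
    ring
  have hcp : ∀ i < p, ((2 : ℕ) : ℤ) ∣ c.coeff i := by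
    intro i hi
    rw [hcdec, map_add, coeff_two_mul, coeff_C_mul, he, PowerSeries.coeff_expand]
    rcases Nat.eq_zero_or_pos i with rfl | hi0
    · rw [if_pos (dvd_zero p), Nat.zero_div, map_add, hw0, coeff_zero_s3_sq]
      simp
    · rw [if_neg (fun hd => absurd (Nat.le_of_dvd hi0 hd) (by omega))]
      simp
  have hk : (8 : ℤ) * ((p : ℤ) + 1) < 12 * p := by
    have : (5 : ℤ) ≤ p := by exact_mod_cast hp5
    linarith
  rcases normPrinciple hp Nat.prime_two hk b c hbc hcp with hall | hall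
  · have h1 := hall p
    rw [hcdec, map_add, coeff_two_mul, coeff_C_mul, he, PowerSeries.coeff_expand,
      if_pos (dvd_refl p), Nat.div_self hp.pos, map_add, hw1, coeff_one_s3_sq, hm4] at h1
    push_cast at h1
    omega
  · have h1 := hall 1
    rw [hbdec, map_add, map_add, coeff_two_mul, coeff_C_mul, coeff_C, if_neg one_ne_zero,
      map_add, hw1, coeff_one_s3_sq, hm4] at h1
    push_cast at h1
    omega

end Fermat.Agent.S16
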