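import Mathlib
import Fermat.Agent.S16.M2
import Fermat.Agent.S16.NormPrinciple

set_option autoImplicit false

open UpperHalfPlane ModularForm CongruenceSubgroup ModularFormClass PowerSeries EisensteinSeries
open scoped MatrixGroups ModularForm

noncomputable section

namespace Fermat.Agent.S16

variable {p ℓ : ℕ} {g : PowerSeries ℤ}

/-- Lemma F: squares mod 2. -/
theorem a6_coeff_sq_mod_two (h : PowerSeries ℤ) (n : ℕ) :
    (2 : ℤ) ∣ (h ^ 2).coeff n - (if 2 ∣ n then h.coeff (n / 2) else 0) := by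
  have key := (ZMod.intCast_zmod_eq_zero_iff_dvd
    ((h ^ 2).coeff n - (if 2 ∣ n then h.coeff (n / 2) else 0)) 2)
  rw [Nat.cast_ofNat] at key
  rw [← key]
  rw [sq, PowerSeries.coeff_mul]
  push_cast
  rw [← Finset.sum_filter_add_sum_filter_not (Finset.HasAntidiagonal.antidiagonal n) (fun x => x.1 = x.2)]
  have h2 : ∑ x ∈ (Finset.HasAntidiagonal.antidiagonal n).filter (fun x => ¬ x.1 = x.2),
      ((h.coeff x.1 : ℤ) : ZMod 2) * ((h.coeff x.2 : ℤ) : ZMod 2) = 0 := by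
    apply Finset.sum_involution (fun x _ => x.swap)
    · intro x _
      simp only [Prod.fst_swap, Prod.snd_swap]
      rw [mul_comm ((h.coeff x.2 : ℤ) : ZMod 2)]
      exact CharTwo.add_self_eq_zero _
    · intro x hx _ hswap
      simp only [Finset.mem_filter] at hx
      apply hx.2
      have := congrArg Prod.fst hswap
      simpa using this.symm
    · intro x _
      simp
    · intro x hx
      simp only [Finset.mem_filter, Finset.HasAntidiagonal.mem_antidiagonal, Prod.fst_swap, Prod.snd_swap] at hx ⊢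
      exact ⟨by omega, fun e => hx.2 e.symm⟩
  rw [h2, add_zero]
  by_cases hn : 2 ∣ n
  · obtain ⟨m, rfl⟩ := hn
    have hf : (Finset.HasAntidiagonal.antidiagonal (2 * m)).filter (fun x => x.1 = x.2) = {(m, m)} := by
      ext ⟨i, j⟩
      simp only [Finset.mem_filter, Finset.HasAntidiagonal.mem_antidiagonal, Finset.mem_singleton, Prod.mk.injEq]
      omega
    rw [hf, Finset.sum_singleton, if_pos (Dvd.intro _ rfl)]
    simp only [Nat.mul_div_cancel_left m (by norm_num : 0 < 2)]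
    have : ∀ z : ZMod 2, z * z - z = 0 := by decide
    exact this _
  · have hf : (Finset.HasAntidiagonal.antidiagonal n).filter (fun x => x.1 = x.2) = ∅ := by
      ext ⟨i, j⟩
      simp only [Finset.mem_filter, Finset.HasAntidiagonal.mem_antidiagonal, Finset.notMem_empty, iff_false]
      rintro ⟨h1, h2⟩
      apply hn
      exact ⟨i, by omega⟩
    rw [hf, if_neg hn]
    simp


/-- the series `(g - a₀)/c`. -/
def a6quot (c : ℤ) (g : PowerSeries ℤ) : PowerSeries ℤ :=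
  PowerSeries.mk fun n => if n = 0 then 0 else g.coeff n / c

theorem a6_coeff_quot_zero (c : ℤ) (g : PowerSeries ℤ) : (a6quot c g).coeff 0 = 0 := by
  simp [a6quot]

theorem a6_mul_coeff_quot {c : ℤ} {g : PowerSeries ℤ} (hdiv : ∀ n, 1 ≤ n → c ∣ g.coeff n)
    {n : ℕ} (hn : 1 ≤ n) : c * (a6quot c g).coeff n = g.coeff n := by
  have : n ≠ 0 := by omega
  simp only [a6quot, PowerSeries.coeff_mk, if_neg this]
  exact Int.mul_ediv_cancel' (hdiv n hn)

theorem a6_eq {c : ℤ} {g : PowerSeries ℤ} (hdiv : ∀ n, 1 ≤ n → c ∣ g.coeff n) :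
    g = PowerSeries.C (g.coeff 0) + PowerSeries.C c * a6quot c g := by
  ext n
  rcases Nat.eq_zero_or_pos n with rfl | hn
  · rw [map_add, PowerSeries.coeff_C, if_pos rfl, PowerSeries.coeff_C_mul, a6_coeff_quot_zero,
      mul_zero, add_zero]
  · have h0 : n ≠ 0 := by omega
    rw [map_add, PowerSeries.coeff_C, if_neg h0, PowerSeries.coeff_C_mul,
      a6_mul_coeff_quot hdiv hn, zero_add]

theorem a6_coeff_sq {c : ℤ} {g : PowerSeries ℤ} (hdiv : ∀ n, 1 ≤ n → c ∣ g.coeff n)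
    {n : ℕ} (hn : 1 ≤ n) :
    (g ^ 2).coeff n = 2 * g.coeff 0 * c * (a6quot c g).coeff n
      + c ^ 2 * ((a6quot c g) ^ 2).coeff n := by
  have h0 : n ≠ 0 := by omega
  have e : g ^ 2 = PowerSeries.C (g.coeff 0 ^ 2) + PowerSeries.C (2 * g.coeff 0 * c) * a6quot c g
      + PowerSeries.C (c ^ 2) * (a6quot c g) ^ 2 := by
    conv_lhs => rw [a6_eq hdiv]
    simp only [map_mul, map_pow, map_ofNat]
    ring
  rw [e, map_add, map_add, PowerSeries.coeff_C, if_neg h0, PowerSeries.coeff_C_mul,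
    PowerSeries.coeff_C_mul, zero_add]

theorem a6_Uop_div {c : ℤ} {g : PowerSeries ℤ} (hp : p.Prime)
    (hdiv : ∀ n, 1 ≤ n → c ∣ g.coeff n) : ∀ n, 1 ≤ n → c ∣ (Uop p g).coeff n := by
  intro n hn
  rw [coeff_Uop]
  exact hdiv _ (Nat.mul_pos hp.pos hn)

theorem a6_quot_Uop {c : ℤ} (hp : p.Prime) (g : PowerSeries ℤ) :
    a6quot c (Uop p g) = Uop p (a6quot c g) := by
  ext n
  have hp0 := hp.ne_zero
  by_cases hn : n = 0
  · subst hn; simp [a6quot]
  · have : p * n ≠ 0 := Nat.mul_ne_zero hp0 hn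
    simp [a6quot, hn, this]

/-- the trace identity in terms of `h = (g - a₀)/c`. -/
theorem a6_trace {c : ℤ} (hp : p.Prime) (hg : IsM2 p g) (hdiv : ∀ n, 1 ≤ n → c ∣ g.coeff n)
    {n : ℕ} (hn : 1 ≤ n) :
    2 * g.coeff 0 * c * ((p : ℤ) + 1) * (a6quot c g).coeff n
      + c ^ 2 * ((p : ℤ) * ((a6quot c g) ^ 2).coeff n
        + ((Uop p (a6quot c g)) ^ 2).coeff (p * n))
      = ((p : ℤ) + 1) * (g.coeff 0) ^ 2 * (240 * s3.coeff n) := by
  have h0 : n ≠ 0 := by omega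
  have ht := congrArg (fun f => PowerSeries.coeff n f) (hg.trace_sq hp)
  simp only [map_add, coeff_Uop] at ht
  have e1 : ((p : PowerSeries ℤ) * g ^ 2).coeff n = (p : ℤ) * (g ^ 2).coeff n := by
    have : (p : PowerSeries ℤ) = PowerSeries.C (p : ℤ) := by simp
    rw [this, PowerSeries.coeff_C_mul]
  have e2 : (PowerSeries.C (((p : ℤ) + 1) * (g.coeff 0) ^ 2) * (1 + 240 * s3)).coeff n
      = ((p : ℤ) + 1) * (g.coeff 0) ^ 2 * (240 * s3.coeff n) := by
    rw [PowerSeries.coeff_C_mul, map_add, PowerSeries.coeff_one, if_neg h0, zero_add]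
    have : (240 : PowerSeries ℤ) = PowerSeries.C (240 : ℤ) := by simp
    rw [this, PowerSeries.coeff_C_mul]
  rw [e1, e2, a6_coeff_sq hdiv hn,
    a6_coeff_sq (a6_Uop_div hp hdiv) (Nat.mul_pos hp.pos hn), a6_quot_Uop hp] at ht
  have e3 : (Uop p (a6quot c g)).coeff (p * n) = (a6quot c g).coeff n := by
    rw [← a6_quot_Uop hp, ← coeff_Uop, ← a6_quot_Uop hp, hg.hat_hat hp]
  have e4 : (Uop p g).coeff 0 = g.coeff 0 := by simp
  rw [e3, e4] at ht
  linarith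

/-- the quadratic terms cancel mod 2. -/
theorem a6_quad_even (hp : p.Prime) (hp2 : p % 2 = 1) {h : PowerSeries ℤ}
    (hh : Uop p (Uop p h) = h) (n : ℕ) :
    (2 : ℤ) ∣ (p : ℤ) * (h ^ 2).coeff n + ((Uop p h) ^ 2).coeff (p * n) := by
  have h1 := a6_coeff_sq_mod_two h n
  have h2 := a6_coeff_sq_mod_two (Uop p h) (p * n)
  have hpodd : (2 : ℤ) ∣ (p : ℤ) - 1 := by omega
  by_cases hn : 2 ∣ n
  · obtain ⟨m, rfl⟩ := hn
    have hd : 2 ∣ p * (2 * m) := ⟨p * m, by ring⟩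
    rw [if_pos (Dvd.intro _ rfl), Nat.mul_div_cancel_left m (by norm_num : 0 < 2)] at h1
    have hq : p * (2 * m) / 2 = p * m := by
      rw [show p * (2 * m) = 2 * (p * m) by ring, Nat.mul_div_cancel_left _ (by norm_num : 0 < 2)]
    have hq2 : (Uop p h).coeff (p * m) = h.coeff m := by
      rw [← coeff_Uop, hh]
    rw [if_pos hd, hq, hq2] at h2
    obtain ⟨x, hx⟩ := h1
    obtain ⟨y, hy⟩ := h2
    obtain ⟨z, hz⟩ := hpodd
    refine ⟨z * (h ^ 2).coeff (2 * m) + x + y + h.coeff m, ?_⟩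
    have : (p : ℤ) = 2 * z + 1 := by linarith
    rw [this]
    linear_combination hx + hy
  · have hd : ¬ 2 ∣ p * n := by
      intro hd
      rcases (Nat.Prime.dvd_mul Nat.prime_two).mp hd with h | h
      · omega
      · exact hn h
    rw [if_neg hn, sub_zero] at h1
    rw [if_neg hd, sub_zero] at h2
    exact dvd_add (Dvd.dvd.mul_left h1 _) h2

/-- `ℓ = 2`, `p ≡ 1 mod 4`, `G ≡ a₀ mod 4`: trace identity + Frobenius. -/
theorem caseA6 (hp : p.Prime) (hp4 : p % 4 = 1) (hg : IsM2 p g)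
    (hdiv : ∀ n, 1 ≤ n → (4 : ℤ) ∣ g.coeff n) : (2 : ℤ) ∣ g.coeff 0 := by
  by_contra ha
  obtain ⟨u, hu, hu2⟩ : ∃ u : ℤ, (p : ℤ) + 1 = 2 * u ∧ ¬ (2 : ℤ) ∣ u := by
    refine ⟨((p : ℤ) + 1) / 2, by omega, by omega⟩
  have hp2 : p % 2 = 1 := by omega
  -- step 1 : all coefficients are divisible by 8
  have step1 : ∀ {g : PowerSeries ℤ}, IsM2 p g → (∀ n, 1 ≤ n → (4 : ℤ) ∣ g.coeff n) →
      ¬ (2 : ℤ) ∣ g.coeff 0 → ∀ n, 1 ≤ n → (8 : ℤ) ∣ g.coeff n := by
    intro g hg hdiv ha n hn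
    have ht := a6_trace hp hg hdiv hn
    have hh : Uop p (Uop p (a6quot 4 g)) = a6quot 4 g := by
      rw [← a6_quot_Uop hp, ← a6_quot_Uop hp, hg.hat_hat hp]
    obtain ⟨w, hw⟩ := a6_quad_even hp hp2 hh n
    rw [hw, hu] at ht
    have h2 : (2 : ℤ) ∣ g.coeff 0 * u * (a6quot 4 g).coeff n :=
      ⟨15 * u * (g.coeff 0) ^ 2 * s3.coeff n - w, by linarith⟩
    have h3 : (2 : ℤ) ∣ (a6quot 4 g).coeff n := by
      rcases (Int.prime_two.dvd_mul).mp h2 with h | h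
      · rcases (Int.prime_two.dvd_mul).mp h with h | h
        · exact absurd h ha
        · exact absurd h hu2
      · exact h
    obtain ⟨y, hy⟩ := h3
    rw [← a6_mul_coeff_quot hdiv hn, hy]
    exact ⟨y, by ring⟩
  -- step 2 : `h'_n ≡ σ₃(n)`
  have step2 : ∀ {g : PowerSeries ℤ}, IsM2 p g → (∀ n, 1 ≤ n → (8 : ℤ) ∣ g.coeff n) →
      ¬ (2 : ℤ) ∣ g.coeff 0 → ∀ n, 1 ≤ n →
      (2 : ℤ) ∣ (a6quot 8 g).coeff n - s3.coeff n := by
    intro g hg hdiv ha n hn
    have ht := a6_trace hp hg hdiv hn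
    rw [hu] at ht
    obtain ⟨a', ha'⟩ : ∃ a', g.coeff 0 = 2 * a' + 1 := ⟨g.coeff 0 / 2, by omega⟩
    obtain ⟨u', hu'⟩ : ∃ u', u = 2 * u' + 1 := ⟨u / 2, by omega⟩
    set H := (a6quot 8 g).coeff n
    set Q := (p : ℤ) * ((a6quot 8 g) ^ 2).coeff n + ((Uop p (a6quot 8 g)) ^ 2).coeff (p * n)
    set s := s3.coeff n
    set a := g.coeff 0
    have h1 : a * u * H + 2 * Q = 15 * u * a ^ 2 * s := by linarith
    have h2 : (2 : ℤ) ∣ a * u * H - 15 * u * a ^ 2 * s := ⟨-Q, by linarith⟩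
    have h3 : a * u * H - 15 * u * a ^ 2 * s = (H - s)
        + 2 * ((2 * a' * u' + a' + u') * H - (7 * u * a ^ 2 + u' * a ^ 2 + 2 * a' ^ 2 + 2 * a') * s) := by
      rw [ha', hu']; ring
    rw [h3] at h2
    exact (Int.dvd_add_left (Dvd.intro _ rfl)).mp h2
  have hdiv8 := step1 hg hdiv ha
  have hghat := hg.hat hp
  have hahat : ¬ (2 : ℤ) ∣ (Uop p g).coeff 0 := by simpa using ha
  have hdiv8hat := a6_Uop_div hp hdiv8
  have c1 := step2 hg hdiv8 ha p hp.pos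
  have c2 := step2 hghat hdiv8hat hahat 1 le_rfl
  rw [a6_quot_Uop hp, coeff_Uop, mul_one, coeff_one_s3] at c2
  rw [coeff_prime_s3 hp] at c1
  have hp3 : (2 : ℤ) ∣ 1 + (p : ℤ) ^ 3 := by
    obtain ⟨z, hz⟩ : ∃ z : ℤ, (p : ℤ) = 2 * z + 1 := ⟨(p : ℤ) / 2, by omega⟩
    exact ⟨4 * z ^ 3 + 6 * z ^ 2 + 3 * z + 1, by rw [hz]; ring⟩
  have c3 : (2 : ℤ) ∣ (a6quot 8 g).coeff p := by
    have := dvd_add c1 hp3
    simpa using this
  have c4 : (2 : ℤ) ∣ (1 : ℤ) := by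
    have := dvd_sub c3 c2
    simp at this
  omega

end Fermat.Agent.S16
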