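import Mathlib
import Fermat.Agent.S16.CaseA1
import Fermat.Agent.S16.CaseA2
import Fermat.Agent.S16.CaseA3
import Fermat.Agent.S16.CaseA4
import Fermat.Agent.S16.CaseA5
import Fermat.Agent.S16.CaseA6
import Fermat.Agent.Lib.Gamma0Cosets
import Fermat.Prelude.Def_ModularCurve_ModularUnit
import Fermat.Prelude.Thm_ModularForm_sturm_bound_Gamma0

set_option autoImplicit false

open UpperHalfPlane ModularForm CongruenceSubgroup ModularFormClass PowerSeries EisensteinSeries
open scoped MatrixGroups ModularForm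

noncomputable section

namespace Fermat.Agent.S16

variable {p ℓ : ℕ} {g : PowerSeries ℤ}

theorem upper_gcd_eq (p : ℕ) : Nat.gcd (p - 1) 12 = Nat.gcd ((p - 1) % 12) 12 := by
  rw [Nat.gcd_comm, Nat.gcd_rec 12 (p - 1)]

theorem upper_mod_twelve (hp : p.Prime) (hp5 : 5 ≤ p) :
    p % 12 = 1 ∨ p % 12 = 5 ∨ p % 12 = 7 ∨ p % 12 = 11 := by
  have h2 : ¬ 2 ∣ p := fun h => by
    have := (Nat.prime_dvd_prime_iff_eq Nat.prime_two hp).mp h
    omega
  have h3 : ¬ 3 ∣ p := fun h => by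
    have := (Nat.prime_dvd_prime_iff_eq Nat.prime_three hp).mp h
    omega
  omega

theorem upper_val_2_2 : padicValNat 2 2 = 1 := by simp
theorem upper_val_2_6 : padicValNat 2 6 = 1 := by
  have : Fact (Nat.Prime 2) := ⟨Nat.prime_two⟩
  rw [show (6 : ℕ) = 2 * 3 by norm_num, padicValNat.mul (by norm_num) (by norm_num)]
  simp [padicValNat.eq_zero_of_not_dvd (p := 2) (n := 3) (by norm_num)]
theorem upper_val_2_4 : padicValNat 2 4 = 2 := by
  have : Fact (Nat.Prime 2) := ⟨Nat.prime_two⟩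
  rw [show (4 : ℕ) = 2 ^ 2 by norm_num, padicValNat.prime_pow]
theorem upper_val_2_12 : padicValNat 2 12 = 2 := by
  have : Fact (Nat.Prime 2) := ⟨Nat.prime_two⟩
  rw [show (12 : ℕ) = 2 ^ 2 * 3 by norm_num, padicValNat.mul (by norm_num) (by norm_num),
    padicValNat.prime_pow]
  simp [padicValNat.eq_zero_of_not_dvd (p := 2) (n := 3) (by norm_num)]
theorem upper_val_3_6 : padicValNat 3 6 = 1 := by
  have : Fact (Nat.Prime 3) := ⟨Nat.prime_three⟩
  rw [show (6 : ℕ) = 3 * 2 by norm_num, padicValNat.mul (by norm_num) (by norm_num)]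
  simp [padicValNat.eq_zero_of_not_dvd (p := 3) (n := 2) (by norm_num)]
theorem upper_val_3_12 : padicValNat 3 12 = 1 := by
  have : Fact (Nat.Prime 3) := ⟨Nat.prime_three⟩
  rw [show (12 : ℕ) = 3 * 4 by norm_num, padicValNat.mul (by norm_num) (by norm_num)]
  simp [padicValNat.eq_zero_of_not_dvd (p := 3) (n := 4) (by norm_num)]

/-- all six cases together. -/
theorem keyA (hp : p.Prime) (hp5 : 5 ≤ p) (hℓ : ℓ.Prime) (hg : IsM2 p g)
    (hdiv : ∀ n, 1 ≤ n →
      (ℓ : ℤ) ^ (padicValNat ℓ (24 / Nat.gcd (p - 1) 12) + 1) ∣ g.coeff n) :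
    (ℓ : ℤ) ∣ g.coeff 0 := by
  have hdiv1 : ∀ n, 1 ≤ n → (ℓ : ℤ) ∣ g.coeff n := fun n hn =>
    (dvd_pow_self _ (Nat.succ_ne_zero _)).trans (hdiv n hn)
  have hcases : ℓ = 2 ∨ ℓ = 3 ∨ ℓ = 5 ∨ 7 ≤ ℓ := by
    have h2 := hℓ.two_le
    by_contra hcon
    push Not at hcon
    obtain ⟨h2', h3', h5', h7'⟩ := hcon
    have h46 : ℓ = 4 ∨ ℓ = 6 := by omega
    rcases h46 with rfl | rfl
    · exact absurd hℓ (by norm_num)
    · exact absurd hℓ (by norm_num)
  rcases hcases with rfl | rfl | rfl | h7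
  · -- ℓ = 2
    rw [upper_gcd_eq] at hdiv
    rcases upper_mod_twelve hp hp5 with h | h | h | h
    · have h1 : (p - 1) % 12 = 0 := by omega
      rw [h1] at hdiv
      norm_num [upper_val_2_2] at hdiv
      exact caseA6 hp (by omega) hg (by simpa using hdiv)
    · have h1 : (p - 1) % 12 = 4 := by omega
      rw [h1] at hdiv
      norm_num [upper_val_2_6] at hdiv
      exact caseA6 hp (by omega) hg (by simpa using hdiv)
    · have h1 : (p - 1) % 12 = 6 := by omega
      rw [h1] at hdiv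
      norm_num [upper_val_2_4] at hdiv
      exact caseA5 hp hp5 (by omega) hg (by simpa using hdiv)
    · have h1 : (p - 1) % 12 = 10 := by omega
      rw [h1] at hdiv
      norm_num [upper_val_2_12] at hdiv
      exact caseA5 hp hp5 (by omega) hg (by simpa using hdiv)
  · -- ℓ = 3
    rw [upper_gcd_eq] at hdiv
    rcases upper_mod_twelve hp hp5 with h | h | h | h
    · exact caseA4 hp (by omega) hg (by simpa using hdiv1)
    · have h1 : (p - 1) % 12 = 4 := by omega
      rw [h1] at hdiv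
      norm_num [upper_val_3_6] at hdiv
      exact caseA3 hp hp5 hg (by simpa using hdiv)
    · exact caseA4 hp (by omega) hg (by simpa using hdiv1)
    · have h1 : (p - 1) % 12 = 10 := by omega
      rw [h1] at hdiv
      norm_num [upper_val_3_12] at hdiv
      exact caseA3 hp hp5 hg (by simpa using hdiv)
  · exact caseA2 hp hp5 hg (by simpa using hdiv1)
  · exact caseA1 hp hp5 hℓ h7 hg hdiv1

/-- a cusp form seen as a modular form. -/
def upperToMF {N : ℕ} {k : ℤ} (f : CuspForm (Gamma0 N) k) : ModularForm (Gamma0 N) k :=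
  { toSlashInvariantForm := f.toSlashInvariantForm
    holo' := f.holo'
    bdd_at_cusps' := fun hc g hg => (f.zero_at_cusps' hc g hg).boundedAtFilter }

theorem coe_upperToMF {N : ℕ} {k : ℤ} (f : CuspForm (Gamma0 N) k) :
    (⇑(upperToMF f) : ℍ → ℂ) = ⇑f := rfl

theorem upper_one_mem (N : ℕ) :
    (1 : ℝ) ∈ (Gamma0 N : Subgroup (GL (Fin 2) ℝ)).strictPeriods := by
  simp

/-- **Upper bound** (`p ≥ 5`), given the Eisenstein series `E`. -/
theorem upper_of_five_le (hp : p.Prime) (hp5 : 5 ≤ p)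
    (hE : ∃ E : ModularForm (Gamma0 p) 2, (qExpansion 1 E).coeff 0 = ((p : ℂ) - 1) / 24 ∧
      ∀ k : ℕ, 1 ≤ k → (qExpansion 1 E).coeff k = (sigmaP p k : ℂ))
    (M : ℕ) (f : CuspForm (Gamma0 p) 2) (hf : EisCong p M f) :
    M ∣ ModularCurve.eisensteinNumerator p := by
  obtain ⟨E, hE0, hEk⟩ := hE
  rw [ModularCurve.eisensteinNumerator]
  set ν := Nat.gcd (p - 1) 12 with hν
  have hν1 : ν ∣ p - 1 := Nat.gcd_dvd_left _ _
  have hν24 : ν ∣ 24 := (Nat.gcd_dvd_right _ _).trans (by norm_num)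
  obtain ⟨n, hn⟩ := hν1
  obtain ⟨μ, hμ⟩ := hν24
  have hν0 : 0 < ν := Nat.pos_of_ne_zero (by rintro h; rw [h] at hμ; omega)
  have hn0 : n ≠ 0 := by rintro rfl; omega
  have hdivn : (p - 1) / ν = n := by rw [hn]; exact Nat.mul_div_cancel_left _ hν0
  have hdivμ : 24 / ν = μ := by rw [hμ]; exact Nat.mul_div_cancel_left _ hν0
  rw [hdivn, Nat.dvd_iff_prime_pow_dvd_dvd]
  intro ℓ t hℓ hℓt
  by_contra hcon
  have : Fact ℓ.Prime := ⟨hℓ⟩
  set s := padicValNat ℓ n with hs
  obtain ⟨n', hn'⟩ : ℓ ^ s ∣ n := pow_padicValNat_dvd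
  have hn'ℓ : ¬ ℓ ∣ n' := by
    intro h
    apply pow_succ_padicValNat_not_dvd (p := ℓ) hn0
    rw [← hs, pow_succ, hn']
    exact Nat.mul_dvd_mul_left _ h
  have hst : s + 1 ≤ t := by
    by_contra h
    exact hcon ((pow_dvd_pow ℓ (by omega)).trans ⟨n', hn'⟩)
  obtain ⟨m, hm⟩ : ℓ ^ (s + 1) ∣ M := (pow_dvd_pow ℓ hst).trans hℓt
  have hd : ∀ k : ℕ, ∃ d : ℤ, 1 ≤ k →
      (qExpansion 1 f).coeff k = (sigmaP p k : ℂ) + (M : ℂ) * (d : ℂ) := by
    intro k
    by_cases hk : 1 ≤ k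
    · obtain ⟨c, hc, d, hd⟩ := hf k hk
      refine ⟨d, fun _ => ?_⟩
      rw [hc]
      have : c = (sigmaP p k : ℤ) + (M : ℤ) * d := by linarith
      rw [this]
      push_cast
      ring
    · exact ⟨0, fun h => absurd h hk⟩
  choose d hd using hd
  let g : PowerSeries ℤ :=
    PowerSeries.mk fun k => if k = 0 then (n' : ℤ) else -((μ : ℤ) * ℓ * m * d k)
  have hℓC : (ℓ : ℂ) ≠ 0 := by exact_mod_cast hℓ.ne_zero
  have hνC : (ν : ℂ) ≠ 0 := by exact_mod_cast hν0.ne'
  have hμC : (μ : ℂ) ≠ 0 := by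
    have : μ ≠ 0 := by rintro rfl; omega
    exact_mod_cast this
  have hg : IsM2 p g := by
    refine ⟨((μ : ℂ) / (ℓ : ℂ) ^ s) • (E - upperToMF f), ?_⟩
    rw [FunLike.coe_smul, ModularForm.qExpansion_smul one_pos (upper_one_mem p),
      FunLike.coe_sub, ModularForm.qExpansion_sub one_pos (upper_one_mem p), coe_upperToMF]
    ext k
    rw [PowerSeries.coeff_smul, map_sub, PowerSeries.coeff_map, PowerSeries.coeff_mk, smul_eq_mul]
    split_ifs with hk
    · subst hk
      rw [hE0, CuspFormClass.qExpansion_coeff_zero f one_pos (upper_one_mem p)]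
      have hpC : (p : ℂ) - 1 = (ν : ℂ) * ((ℓ : ℂ) ^ s * (n' : ℂ)) := by
        have h2 : p = ν * (ℓ ^ s * n') + 1 := by rw [← hn', ← hn]; omega
        rw [h2]
        push_cast
        ring
      have h24 : (24 : ℂ) = (ν : ℂ) * (μ : ℂ) := by exact_mod_cast hμ
      rw [hpC, h24]
      simp only [eq_intCast, Int.cast_natCast]
      field_simp
      ring
    · rw [hEk k (by omega), hd k (by omega), hm]
      simp only [eq_intCast]
      push_cast
      field_simp
      ring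
  have hkey := keyA hp hp5 hℓ hg (by
    intro k hk
    rw [← hν, hdivμ]
    have hk0 : k ≠ 0 := by omega
    simp only [g, PowerSeries.coeff_mk, if_neg hk0]
    rw [dvd_neg, pow_succ]
    have h3 : (ℓ : ℤ) ^ padicValNat ℓ μ ∣ (μ : ℤ) := by
      exact_mod_cast (pow_padicValNat_dvd (p := ℓ) (n := μ))
    exact Dvd.dvd.mul_right (Dvd.dvd.mul_right (mul_dvd_mul_right h3 _) _) _)
  apply hn'ℓ
  simp only [g, PowerSeries.coeff_mk, if_true] at hkey
  exact_mod_cast hkey

theorem upper_sigmaP_one (hp : p.Prime) : sigmaP p 1 = 1 := by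
  have h1 : ¬ p ∣ 1 := by
    rw [Nat.dvd_one]
    exact hp.one_lt.ne'
  simp [sigmaP, Finset.filter_singleton, h1]

/-- **Upper bound** for `p = 2, 3`: there is no cusp form (Prelude Sturm bound), so `M ∣ 1`. -/
theorem upper_of_lt_five (hp : p.Prime) (hp5 : p < 5)
    (M : ℕ) (f : CuspForm (Gamma0 p) 2) (hf : EisCong p M f) :
    M ∣ ModularCurve.eisensteinNumerator p := by
  have : NeZero p := ⟨hp.ne_zero⟩
  have hidx : (Gamma0 p).index = p + 1 := by
    have := Fermat.Agent.Lib.Gamma0Cosets.index_Gamma0_prime_pow hp 0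
    simpa using this
  have hF : upperToMF f = 0 := by
    apply ModularForm.sturm_bound_Gamma0 p (upperToMF f)
    intro n hn
    have hn0 : n = 0 := by
      rw [hidx] at hn
      have : ((2 : ℤ) * ((p + 1 : ℕ) : ℤ)).toNat / 12 = 0 := by
        omega
      omega
    subst hn0
    exact CuspFormClass.qExpansion_coeff_zero f one_pos (upper_one_mem p)
  have hf0 : (⇑f : ℍ → ℂ) = 0 := by
    rw [← coe_upperToMF, hF]
    rfl
  obtain ⟨c, hc, hM⟩ := hf 1 le_rfl
  have hq : qExpansion 1 (⇑f : ℍ → ℂ) = 0 := by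
    rw [hf0]
    exact qExpansion_zero 1
  rw [hq] at hc
  have hc0 : c = 0 := by
    have : (c : ℂ) = 0 := by rw [← hc]; simp
    exact_mod_cast this
  rw [hc0, upper_sigmaP_one hp] at hM
  have h1 : (M : ℤ) ∣ 1 := by simpa using hM
  have h2 : M ∣ 1 := by exact_mod_cast h1
  exact h2.trans (one_dvd _)

end Fermat.Agent.S16
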