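import Mathlib
import Fermat.Agent.S16.Defs
import Fermat.Prelude.Def_CuspForm_HeckeLocal
import Fermat.Prelude.Def_CuspForm_HeckeEvalForms
import Fermat.Prelude.Def_ModularCurve_ModularUnit

/-!
# S16: final assembly (abstract form)
-/

set_option autoImplicit false

open CuspForm ModularCurve CongruenceSubgroup

namespace Fermat.Agent.S16

/-- the image of the Eisenstein ideal in the lattice Hecke algebra. -/
noncomputable abbrev eisJ (p : ℕ) [NeZero p] : Ideal ↥(heckeLatticeAlgebra p ∅) :=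
  Ideal.map ((latticeRestrictHom p ∅).toRingHom.comp (heckeEvalForms p 2)) (eisensteinIdeal p)

theorem assembly (p : ℕ) [NeZero p] (n : ℕ)
    (h0a : ∀ n : ℕ, (∀ x : ℤ, ((x : ↥(heckeLatticeAlgebra p ∅)) ∈ eisJ p) ↔ (n : ℤ) ∣ x) →
      Nat.card (↥(heckeLatticeAlgebra p ∅) ⧸ eisJ p) = n)
    (h0d : ∀ M : ℕ, (∀ x : ℤ, (x : ↥(heckeLatticeAlgebra p ∅)) ∈ eisJ p → (M : ℤ) ∣ x) →
      ∃ f : CuspForm (Gamma0 p) 2, EisCong p M f)
    (hlow : ∀ x : ℤ, (x : ↥(heckeLatticeAlgebra p ∅)) ∈ eisJ p → (n : ℤ) ∣ x)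
    (hup : ∀ (M : ℕ) (f : CuspForm (Gamma0 p) 2), EisCong p M f → M ∣ n) :
    Nat.card (↥(heckeLatticeAlgebra p ∅) ⧸ eisJ p) = n := by
  set K : Ideal ℤ := Ideal.comap (Int.castRingHom ↥(heckeLatticeAlgebra p ∅)) (eisJ p) with hK
  have hmem : ∀ x : ℤ, x ∈ K ↔ (x : ↥(heckeLatticeAlgebra p ∅)) ∈ eisJ p := fun x => by
    rw [hK, Ideal.mem_comap]; rfl
  obtain ⟨g, hg⟩ : ∃ g : ℤ, K = Ideal.span {g} :=
    ⟨_, (Submodule.IsPrincipal.span_singleton_generator K).symm⟩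
  have hM : ∀ x : ℤ, ((x : ↥(heckeLatticeAlgebra p ∅)) ∈ eisJ p) ↔ ((g.natAbs : ℕ) : ℤ) ∣ x := by
    intro x
    rw [← hmem, hg, Ideal.mem_span_singleton, Int.natAbs_dvd]
  obtain ⟨f, hf⟩ := h0d g.natAbs fun x hx => (hM x).mp hx
  have h1 : g.natAbs ∣ n := hup _ f hf
  have h2 : (n : ℤ) ∣ ((g.natAbs : ℕ) : ℤ) := hlow _ ((hM _).mpr dvd_rfl)
  have h3 : g.natAbs = n := Nat.dvd_antisymm h1 (Int.natCast_dvd_natCast.mp h2)
  exact h0a n fun x => by rw [hM x, h3]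

end Fermat.Agent.S16
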