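import Mathlib
import Fermat.Agent.S23
import Fermat.Prelude.Def_CuspForm_HeckeLocal
import Fermat.Prelude.Def_CuspForm_HeckeEvalForms

/-!
# S16: from the lattice Hecke algebra back to the Hecke algebra on `S₂(Γ₀(p))`
(uses the integral structure theorem S23).
-/

set_option autoImplicit false

open CuspForm ModularCurve

namespace Fermat.Agent.S16

theorem mem_map_heckeEvalForms_of_mem (p : ℕ) [NeZero p] (x : ℤ)
    (hx : (x : ↥(heckeLatticeAlgebra p ∅)) ∈
      Ideal.map ((latticeRestrictHom p ∅).toRingHom.comp (heckeEvalForms p 2))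
        (eisensteinIdeal p)) :
    (x : ↥(heckeAlgebra p 2 ∅)) ∈ Ideal.map (heckeEvalForms p 2) (eisensteinIdeal p) := by
  have hbij := latticeRestrictHom_bijective p ∅ (Fermat.Agent.S23.result p)
  rw [← Ideal.map_map] at hx
  obtain ⟨y, hy, hyx⟩ := (Ideal.mem_map_iff_of_surjective
    (latticeRestrictHom p ∅).toRingHom hbij.2).mp hx
  have h2 : (latticeRestrictHom p ∅).toRingHom y =
      (latticeRestrictHom p ∅).toRingHom (x : ↥(heckeAlgebra p 2 ∅)) := by
    rw [hyx, map_intCast]
  have h3 : y = (x : ↥(heckeAlgebra p 2 ∅)) := hbij.1 h2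
  rwa [← h3]

end Fermat.Agent.S16
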