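import Mathlib
import Fermat.Agent.S16.Defs
import Fermat.Agent.S16.PeriodP
import Fermat.Agent.S16.Cosets
import Fermat.Agent.S16.Fricke

set_option autoImplicit false

open UpperHalfPlane ModularForm CongruenceSubgroup ModularFormClass PowerSeries EisensteinSeries
open scoped MatrixGroups ModularForm

noncomputable section

namespace Fermat.Agent.S16

variable {p : ℕ}

/-- every `γ ∈ SL₂(ℤ)` is `γ₀` or `γ₀ S T^j` with `γ₀ ∈ Γ₀(p)`. -/
theorem exists_Gamma0_mul (hp : p.Prime) (γ : SL(2, ℤ)) :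
    γ ∈ Gamma0 p ∨ ∃ γ₀ ∈ Gamma0 p, ∃ j : ℕ, γ = γ₀ * (ModularGroup.S * ModularGroup.T ^ j) := by
  have : Fact p.Prime := ⟨hp⟩
  by_cases hc : ((γ 1 0 : ℤ) : ZMod p) = 0
  · left
    rw [Gamma0_mem]
    exact hc
  · right
    set j : ℕ := (((γ 1 1 : ℤ) : ZMod p) * ((γ 1 0 : ℤ) : ZMod p)⁻¹).val with hj
    refine ⟨γ * (ModularGroup.S * ModularGroup.T ^ j)⁻¹, ?_, j, by group⟩
    rw [Gamma0_mem]
    have h := coe_S_mul_T_pow j
    have h00 : (ModularGroup.S * ModularGroup.T ^ j)⁻¹ 0 0 = (j : ℤ) := by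
      rw [Matrix.SpecialLinearGroup.SL2_inv_expl]
      change (ModularGroup.S * ModularGroup.T ^ j : SL(2, ℤ)) 1 1 = _
      rw [h]; rfl
    have h10 : (ModularGroup.S * ModularGroup.T ^ j)⁻¹ 1 0 = -1 := by
      rw [Matrix.SpecialLinearGroup.SL2_inv_expl]
      change -(ModularGroup.S * ModularGroup.T ^ j : SL(2, ℤ)) 1 0 = _
      rw [h]; rfl
    have h1 : (γ * (ModularGroup.S * ModularGroup.T ^ j)⁻¹) 1 0 = γ 1 0 * j - γ 1 1 := by
      rw [Matrix.SpecialLinearGroup.coe_mul, Matrix.mul_apply, Fin.sum_univ_two, h00, h10]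
      ring
    rw [h1]
    push_cast
    rw [hj, ZMod.natCast_val, ZMod.cast_id', id_eq]
    field_simp
    ring

/-- a nice function with vanishing constant term tends to `0`. -/
theorem NiceP.isZeroAtImInfty {h : ℝ} {g : ℍ → ℂ} (hh : 0 < h) (hg : NiceP h g)
    (h0 : (qExpansion h g).coeff 0 = 0) : IsZeroAtImInfty g := by
  have han := hg.analyticAt hh
  have h1 : cuspFunction h g 0 = 0 := by
    rw [cuspFunction_apply_zero hh han hg.per, ← qExpansion_coeff_zero hh han hg.per, h0]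
  have hcomp : (cuspFunction h g ∘ fun τ : ℍ ↦ Function.Periodic.qParam h τ : ℍ → ℂ) = g := by
    funext τ
    simpa using eq_cuspFunction τ hh.ne' hg.per
  have h2 := han.continuousAt.tendsto.comp (qParam_tendsto_atImInfty hh)
  rw [h1, hcomp] at h2
  exact h2

/-- nice functions with the same expansion are equal. -/
theorem NiceP.eq_of_qExpansion_eq {h : ℝ} {f g : ℍ → ℂ} (hh : 0 < h) (hf : NiceP h f)
    (hg : NiceP h g) (h0 : qExpansion h f = qExpansion h g) : f = g := by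
  funext τ
  have h1 := hasSum_qExpansion hh hf.per hf.holo hf.bdd τ
  have h2 := hasSum_qExpansion hh hg.per hg.holo hg.bdd τ
  rw [h0] at h1
  exact h1.unique h2

/-- translation keeps the vanishing at `i∞`. -/
theorem isZeroAtImInfty_slash_T_pow {g : ℍ → ℂ} (k : ℤ) (hg : IsZeroAtImInfty g) (j : ℕ) :
    IsZeroAtImInfty (g ∣[k] (ModularGroup.T ^ j)) := by
  have h1 : (g ∣[k] (ModularGroup.T ^ j)) = g ∘ (fun z => (ModularGroup.T ^ j) • z) := by
    funext z
    rw [SL_slash_apply]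
    have hd : denom (ModularGroup.T ^ j : SL(2, ℤ)) z = 1 := by
      rw [ModularGroup.denom_apply, ← zpow_natCast, ModularGroup.coe_T_zpow]
      simp
    rw [hd]
    simp
  rw [h1]
  refine Filter.Tendsto.comp hg ?_
  rw [atImInfty, Filter.tendsto_comap_iff]
  have h2 : (im ∘ fun z : ℍ => (ModularGroup.T ^ j) • z) = im := by
    funext z
    simp only [Function.comp_apply]
    rw [← zpow_natCast, ModularGroup.im_T_zpow_smul]
  rw [h2]
  exact Filter.tendsto_comap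

/-- a form of weight 2 and level `Γ₀(p)` with vanishing constant term is a cusp form. -/
theorem exists_cuspForm_of_coeff_zero (hp : p.Prime) (G : ModularForm (Gamma0 p) 2)
    (h0 : (qExpansion 1 G).coeff 0 = 0) :
    ∃ f : CuspForm (Gamma0 p) 2, (⇑f : ℍ → ℂ) = ⇑G := by
  have hp0 : p ≠ 0 := hp.ne_zero
  have : NeZero p := ⟨hp0⟩
  have hp' : (0 : ℝ) < p := by exact_mod_cast hp.pos
  have hz1 : IsZeroAtImInfty (⇑G) := (niceP_one G).isZeroAtImInfty one_pos h0
  have hS0 : (qExpansion (p : ℝ) (⇑G ∣[(2 : ℤ)] ModularGroup.S)).coeff 0 = 0 := by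
    obtain ⟨Y, hY1, hY2⟩ := isPair_weight_two hp G
    have hYG : (⇑Y : ℍ → ℂ) = ⇑G :=
      (niceP_one Y).eq_of_qExpansion_eq one_pos (niceP_one G) hY1
    rw [← hYG, hY2, map_smul, coeff_Uop, mul_zero, h0, smul_zero]
  have hz2 : ∀ j : ℕ,
      IsZeroAtImInfty ((⇑G ∣[(2 : ℤ)] ModularGroup.S) ∣[(2 : ℤ)] (ModularGroup.T ^ j)) := fun j =>
    isZeroAtImInfty_slash_T_pow 2 ((niceP_slash_S hp0 G).isZeroAtImInfty hp' hS0) j
  refine ⟨{ toSlashInvariantForm := G.toSlashInvariantForm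
            holo' := G.holo'
            zero_at_cusps' := ?_ }, rfl⟩
  intro c hc
  rw [Subgroup.IsArithmetic.isCusp_iff_isCusp_SL2Z] at hc
  rw [OnePoint.isZeroAt_iff_forall_SL2Z hc]
  intro γ _
  have hinv : ∀ γ₀ ∈ Gamma0 p, (⇑G ∣[(2 : ℤ)] γ₀) = ⇑G := fun γ₀ hγ₀ =>
    G.slash_action_eq' _ ⟨γ₀, hγ₀, rfl⟩
  rcases exists_Gamma0_mul hp γ with hγ | ⟨γ₀, hγ₀, j, rfl⟩
  · change IsZeroAtImInfty (⇑G ∣[(2 : ℤ)] γ)
    rw [hinv γ hγ]
    exact hz1
  · change IsZeroAtImInfty (⇑G ∣[(2 : ℤ)] (γ₀ * (ModularGroup.S * ModularGroup.T ^ j)))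
    rw [SlashAction.slash_mul, hinv γ₀ hγ₀, SlashAction.slash_mul]
    exact hz2 j

end Fermat.Agent.S16
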