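import Mathlib
import Fermat.Agent.S16.Defs
import Fermat.Agent.S16.CuspOfZero
import Fermat.Prelude.Def_ModularCurve_ModularUnit
import Fermat.Prelude.Thm_CongruenceSubgroup_one_mem_strictPeriods_Gamma0

set_option autoImplicit false

open UpperHalfPlane ModularForm CongruenceSubgroup ModularFormClass PowerSeries EisensteinSeries
open scoped MatrixGroups ModularForm

noncomputable section

namespace Fermat.Agent.S16

variable {p : ℕ}

theorem lowerTheta_coeff (E Θ : ModularForm (Gamma0 p) 2) (a b c : ℂ) (k : ℕ) :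
    (qExpansion 1 (⇑(c • (a • E - b • Θ) : ModularForm (Gamma0 p) 2))).coeff k =
      c * (a * (qExpansion 1 E).coeff k - b * (qExpansion 1 Θ).coeff k) := by
  have hΓ := CongruenceSubgroup.one_mem_strictPeriods_Gamma0 p
  have h1 : ⇑(c • (a • E - b • Θ)) = c • ⇑(a • E - b • Θ) := by
    ext z; simp
  have h2 : ⇑(a • E - b • Θ) = ⇑(a • E) - ⇑(b • Θ) := by
    ext z; simp
  have h3 : ⇑(a • E) = a • ⇑E := by
    ext z; simp
  have h4 : ⇑(b • Θ) = b • ⇑Θ := by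
    ext z; simp
  rw [h1, ModularForm.qExpansion_smul one_pos hΓ c (a • E - b • Θ), h2,
    ModularForm.qExpansion_sub one_pos hΓ (a • E) (b • Θ), h3, h4,
    ModularForm.qExpansion_smul one_pos hΓ a E, ModularForm.qExpansion_smul one_pos hΓ b Θ]
  simp

/-- **Lower bound, theta route**: from `E` and `Θ` one gets a cusp form congruent to the
Eisenstein series modulo `n = (p-1)/gcd(p-1,12)`. -/
theorem exists_eisCong_of_theta (hp : p.Prime) (hp5 : 5 ≤ p)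
    (hE : ∃ E : ModularForm (Gamma0 p) 2, (qExpansion 1 E).coeff 0 = ((p : ℂ) - 1) / 24 ∧
      ∀ k : ℕ, 1 ≤ k → (qExpansion 1 E).coeff k = (sigmaP p k : ℂ))
    (hΘ : ∃ Θ : ModularForm (Gamma0 p) 2, (qExpansion 1 Θ).coeff 0 = 1 ∧
      ∀ m : ℕ, 1 ≤ m → ∃ c : ℤ, (qExpansion 1 Θ).coeff m = 2 * (c : ℂ)) :
    ∃ f : CuspForm (Gamma0 p) 2, EisCong p (ModularCurve.eisensteinNumerator p) f := by
  obtain ⟨E, hE0, hEk⟩ := hE
  obtain ⟨Θ, hΘ0, hΘk⟩ := hΘ
  have hνpos : 0 < Nat.gcd (p - 1) 12 := Nat.gcd_pos_of_pos_right _ (by norm_num)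
  have hcop : Nat.Coprime ((p - 1) / Nat.gcd (p - 1) 12) (12 / Nat.gcd (p - 1) 12) :=
    Nat.coprime_div_gcd_div_gcd hνpos
  have hnν : Nat.gcd (p - 1) 12 * ((p - 1) / Nat.gcd (p - 1) 12) = p - 1 :=
    Nat.mul_div_cancel' (Nat.gcd_dvd_left _ _)
  have hdν : Nat.gcd (p - 1) 12 * (12 / Nat.gcd (p - 1) 12) = 12 :=
    Nat.mul_div_cancel' (Nat.gcd_dvd_right _ _)
  have hn : ModularCurve.eisensteinNumerator p = (p - 1) / Nat.gcd (p - 1) 12 := rfl
  rw [hn]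
  generalize Nat.gcd (p - 1) 12 = ν at *
  generalize (p - 1) / ν = n at *
  generalize 12 / ν = d at *
  obtain ⟨c, hc⟩ : ∃ c : ℤ, (n : ℤ) ∣ c * d - 1 := by
    have h1 := Int.gcd_eq_gcd_ab n d
    have h2 : Int.gcd (n : ℤ) (d : ℤ) = 1 := by
      rw [Int.gcd_natCast_natCast]; exact hcop
    rw [h2] at h1
    refine ⟨Int.gcdB n d, -Int.gcdA n d, ?_⟩
    push_cast at h1
    linear_combination -h1
  have hνC : (ν : ℂ) ≠ 0 := by exact_mod_cast hνpos.ne'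
  have hnνC : (ν : ℂ) * n = (p : ℂ) - 1 := by
    have h1 : 1 ≤ p := by omega
    have : ((ν * n : ℕ) : ℂ) = ((p - 1 : ℕ) : ℂ) := by rw [hnν]
    rw [Nat.cast_sub h1] at this
    exact_mod_cast this
  have hdνC : (ν : ℂ) * d = 12 := by exact_mod_cast hdν
  have h0 : (qExpansion 1 (⇑(((c : ℂ) / ν) • ((12 : ℂ) • E - (((p : ℂ) - 1) / 2) • Θ) :
      ModularForm (Gamma0 p) 2))).coeff 0 = 0 := by
    rw [lowerTheta_coeff, hE0, hΘ0]
    ring
  obtain ⟨f, hf⟩ := exists_cuspForm_of_coeff_zero hp _ h0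
  refine ⟨f, fun k hk => ?_⟩
  obtain ⟨t, ht⟩ := hΘk k hk
  refine ⟨c * (d * sigmaP p k - n * t), ?_, ?_⟩
  · rw [hf, lowerTheta_coeff, hEk k hk, ht, ← hnνC, ← hdνC]
    push_cast
    field_simp
  · obtain ⟨w, hw⟩ := hc
    refine ⟨w * sigmaP p k - c * t, ?_⟩
    linear_combination (sigmaP p k : ℤ) * hw

end Fermat.Agent.S16
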